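import Mathlib

/-!
# Invertible modules lift along surjections with square-zero kernel

An invertible module is cut out of a free module by an idempotent matrix, which lifts. The lifted
module is again invertible, since every alternating bilinear map on it vanishes.
-/

set_option autoImplicit false

universe u

open scoped TensorProduct

namespace Fermat.Agent.Jac.LiftModule

section invertible

variable {R' R : Type*} [CommRing R'] [CommRing R] {σ : R' →+* R}
variable {P M : Type*} [AddCommGroup P] [Module R' P] [AddCommGroup M] [Module R M]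

/-- An element mapping to a unit of the quotient by a square-zero ideal is a unit. -/
theorem isUnit_of_map_eq_one (hsq : ∀ x y : R', σ x = 0 → σ y = 0 → x * y = 0) {c : R'}
    (hc : σ c = 1) : IsUnit c := by
  have h0 : σ (c - 1) = 0 := by simp [hc]
  exact IsUnit.of_mul_eq_one (2 - c) (by linear_combination -(hsq _ _ h0 h0))

/-- In an invertible module a functional commutes past an element. -/
theorem apply_smul_comm [Module.Invertible R M] (ψ : Module.Dual R M) (a x : M) :
    ψ a • x = ψ x • a := by
  have h := congrArg (TensorProduct.lift ((LinearMap.lsmul R M).comp ψ))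
    (Module.Invertible.tmul_comm (R := R) (M := M) (m₁ := a) (m₂ := x))
  simpa using h

/-- A functional on the quotient lifts. -/
theorem exists_lift_dual (hσ : Function.Surjective σ) [Module.Projective R' P]
    (f : P →ₛₗ[σ] M) (ψ : Module.Dual R M) :
    ∃ ψ' : Module.Dual R' P, ∀ a, σ (ψ' a) = ψ (f a) := by
  let := σ.toAlgebra
  let g : P →ₗ[R'] R :=
    { toFun := fun a => ψ (f a)
      map_add' := fun a b => by simp
      map_smul' := fun r a => by simp [Algebra.smul_def, RingHom.algebraMap_toAlgebra] }
  obtain ⟨h, hh⟩ := Module.projective_lifting_property (Algebra.linearMap R' R) g hσ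
  exact ⟨h, fun a => LinearMap.congr_fun hh a⟩

/-- The deformation of an invertible module along a surjection with square-zero kernel is
invertible. -/
theorem invertible_of_lift (hσ : Function.Surjective σ)
    (hsq : ∀ x y : R', σ x = 0 → σ y = 0 → x * y = 0) [Module.Projective R' P]
    [Module.Invertible R M] (f : P →ₛₗ[σ] M) (hf : Function.Surjective f)
    (hker : ∀ x, f x = 0 → x ∈ RingHom.ker σ • (⊤ : Submodule R' P)) :
    Module.Invertible R' P := by
  set I := RingHom.ker σ with hI
  set μ := contractLeft R' P with hμ
  have hone : (1 : R') ∈ LinearMap.range μ := by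
    have key : ∀ z : Module.Dual R M ⊗[R] M, ∃ c ∈ LinearMap.range μ, σ c = contractLeft R M z := by
      intro z
      induction z using TensorProduct.induction_on with
      | zero => exact ⟨0, zero_mem _, by simp⟩
      | tmul ψ x =>
        obtain ⟨ψ', hψ⟩ := exists_lift_dual hσ f ψ
        obtain ⟨x', rfl⟩ := hf x
        exact ⟨ψ' x', ⟨ψ' ⊗ₜ x', by simp [hμ, contractLeft_apply]⟩, by
          simp [hψ, contractLeft_apply]⟩
      | add a b ha hb =>
        obtain ⟨c, hc, hc'⟩ := ha
        obtain ⟨d, hd, hd'⟩ := hb
        exact ⟨c + d, add_mem hc hd, by simp [hc', hd']⟩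
    obtain ⟨z, hz⟩ := (Module.Invertible.bijective (R := R) (M := M)).surjective 1
    obtain ⟨c, hc, hc'⟩ := key z
    rw [hz] at hc'
    have htop := Ideal.eq_top_of_isUnit_mem _ hc (isUnit_of_map_eq_one hsq hc')
    rw [htop]
    exact Submodule.mem_top
  have hsurj : Function.Surjective μ := by
    intro r
    obtain ⟨z, hz⟩ := hone
    exact ⟨r • z, by simp [hz]⟩
  let G : Set R' := Set.range fun p : Module.Dual R' P × P => p.1 p.2
  have hG : Ideal.span G = ⊤ := by
    refine eq_top_iff.2 fun r _ => ?_
    obtain ⟨z, rfl⟩ := hsurj r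
    induction z using TensorProduct.induction_on with
    | zero => simp
    | tmul ψ x => exact Ideal.subset_span ⟨(ψ, x), by simp [hμ, contractLeft_apply]⟩
    | add a b ha hb => rw [map_add]; exact add_mem (ha trivial) (hb trivial)
  have hswap : ∀ (ψ : Module.Dual R' P) (a x : P), ψ a • x = ψ x • a := by
    intro ψ
    let B : P →ₗ[R'] P →ₗ[R'] P :=
      (LinearMap.lsmul R' P).comp ψ - ((LinearMap.lsmul R' P).comp ψ).flip
    have hB : ∀ a b, B a b = ψ a • b - ψ b • a := fun a b => by simp [B]
    let V := Submodule.span R' (Set.range fun p : P × P => B p.1 p.2)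
    have hmemV : ∀ a b, B a b ∈ V := fun a b => Submodule.subset_span ⟨(a, b), rfl⟩
    have hleft : ∀ r ∈ I • (⊤ : Submodule R' P), ∀ b, B r b ∈ I • V ∧ B b r ∈ I • V := by
      intro r hr b
      refine Submodule.smul_induction_on hr (fun i hi y _ => ?_) (fun y y' hy hy' => ?_)
      · simp only [map_smul, LinearMap.smul_apply]
        exact ⟨Submodule.smul_mem_smul hi (hmemV y b), Submodule.smul_mem_smul hi (hmemV b y)⟩
      · simp only [map_add, LinearMap.add_apply]
        exact ⟨add_mem hy.1 hy'.1, add_mem hy.2 hy'.2⟩
    have hstep : ∀ c ∈ G, ∀ v ∈ V, (c ^ 2) • v ∈ I • V := by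
      rintro _ ⟨⟨φ, x⟩, rfl⟩ v hv
      induction hv using Submodule.span_induction with
      | zero => simp
      | add y y' _ _ hy hy' => rw [smul_add]; exact add_mem hy hy'
      | smul r y _ hy => rw [smul_comm]; exact Submodule.smul_mem _ r hy
      | mem v hv =>
        obtain ⟨⟨a, b⟩, rfl⟩ := hv
        have hr : ∀ a, φ x • a - φ a • x ∈ I • (⊤ : Submodule R' P) := by
          intro a
          apply hker
          obtain ⟨φb, hφb⟩ : ∃ φb : Module.Dual R M, ∀ a, φb (f a) = σ (φ a) := by
            have h0 : ∀ y, f y = 0 → σ (φ y) = 0 := fun y hy => by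
              have hy' := hker y hy
              refine Submodule.smul_induction_on hy' (fun i hi y _ => ?_) (fun y y' hy hy' => ?_)
              · simp [RingHom.mem_ker.1 hi]
              · simp [hy, hy']
            choose g hg using hf
            have hwd : ∀ y y', f y = f y' → σ (φ y) = σ (φ y') := fun y y' h => by
              rw [← sub_eq_zero, ← map_sub, ← map_sub]
              exact h0 _ (by rw [map_sub, h, sub_self])
            refine ⟨{ toFun := fun w => σ (φ (g w)), map_add' := fun w w' => ?_,
                      map_smul' := fun r w => ?_ }, fun a => hwd _ _ (hg _)⟩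
            · rw [← map_add, ← map_add]
              exact hwd _ _ (by simp [hg])
            · obtain ⟨r', rfl⟩ := hσ r
              rw [RingHom.id_apply, smul_eq_mul, ← map_mul, ← smul_eq_mul, ← map_smul]
              exact hwd _ _ (by simp [hg])
          rw [map_sub, LinearMap.map_smulₛₗ, LinearMap.map_smulₛₗ, ← hφb, ← hφb,
            apply_smul_comm, sub_self]
        have e : φ x ^ 2 • B a b = B (φ x • a - φ a • x) (φ x • b) +
            B (φ a • x) (φ x • b - φ b • x) := by
          simp [hB, map_sub, smul_sub]
          module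
        rw [e]
        exact add_mem (hleft _ (hr a) _).1 (hleft _ (hr b) _).2
    have hV : V ≤ I • V := by
      intro v hv
      have h1 : (1 : R') ∈ Ideal.span ((fun c => c ^ 2) '' G) := by
        rw [Ideal.span_pow_eq_top _ hG 2]; exact Submodule.mem_top
      have : ∀ r ∈ Ideal.span ((fun c => c ^ 2) '' G), r • v ∈ I • V := by
        intro r hr
        induction hr using Submodule.span_induction with
        | zero => simp
        | add y y' _ _ hy hy' => rw [add_smul]; exact add_mem hy hy'
        | smul s y _ hy => rw [smul_assoc]; exact Submodule.smul_mem _ s hy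
        | mem y hy =>
          obtain ⟨c, hc, rfl⟩ := hy
          exact hstep c hc v hv
      simpa using this 1 h1
    have hII : I * I = ⊥ := eq_bot_iff.2 (Ideal.mul_le.2 fun x hx y hy =>
      (Submodule.mem_bot R').2 (hsq x y (RingHom.mem_ker.1 hx) (RingHom.mem_ker.1 hy)))
    have hV0 : V ≤ ⊥ := by
      calc V ≤ I • V := hV
        _ ≤ I • (I • V) := Submodule.smul_mono le_rfl hV
        _ = ⊥ := by rw [← Submodule.mul_smul, hII, Submodule.bot_smul]
    intro a x
    have h := (Submodule.mem_bot R').1 (hV0 (hmemV a x))
    rw [hB] at h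
    exact sub_eq_zero.1 h
  refine ⟨⟨fun z z' hzz => ?_, hsurj⟩⟩
  obtain ⟨w, hw⟩ := hone
  have key : ∀ z w, μ w • z = μ z • w := by
    intro z w
    induction z using TensorProduct.induction_on with
    | zero => simp
    | add a b ha hb => rw [smul_add, map_add, add_smul, ha, hb]
    | tmul ψ x =>
      induction w using TensorProduct.induction_on with
      | zero => simp
      | add a b ha hb => rw [smul_add, map_add, add_smul, ha, hb]
      | tmul φ y =>
        have h2 : φ y • ψ = ψ y • φ := LinearMap.ext fun a => by
          have := congrArg φ (hswap ψ a y)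
          simp only [map_smul, smul_eq_mul] at this
          simp only [LinearMap.smul_apply, smul_eq_mul]
          linear_combination this
        simp only [hμ, contractLeft_apply]
        rw [← TensorProduct.tmul_smul (ψ x) φ y, hswap ψ x y, TensorProduct.tmul_smul,
          TensorProduct.smul_tmul', TensorProduct.smul_tmul', h2]
  calc z = μ w • z := by rw [hw, one_smul]
    _ = μ z • w := key z w
    _ = μ z' • w := by rw [show μ z = μ z' from hzz]
    _ = μ w • z' := (key z' w).symm
    _ = z' := by rw [hw, one_smul]

end invertible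

/-- Invertible modules lift along surjections with square-zero kernel. -/
theorem exists_lift {R' R : Type u} [CommRing R'] [CommRing R] (σ : R' →+* R)
    (hσ : Function.Surjective σ) (hsq : ∀ x y : R', σ x = 0 → σ y = 0 → x * y = 0)
    (M : Type u) [AddCommGroup M] [Module R M] [Module.Invertible R M] :
    ∃ (P : Type u) (_ : AddCommGroup P) (_ : Module R' P) (_ : Module.Invertible R' P)
      (f : P →ₛₗ[σ] M), Function.Surjective f := by
  obtain ⟨n, s, hs⟩ := Module.Finite.exists_fin' R M
  obtain ⟨j, hj⟩ := Module.projective_lifting_property s LinearMap.id hs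
  have hjs : ∀ y, s (j y) = y := fun y => LinearMap.congr_fun hj y
  let e : Matrix (Fin n) (Fin n) R := LinearMap.toMatrix' (j ∘ₗ s)
  have he : IsIdempotentElem e := by
    show e * e = e
    rw [show e = LinearMap.toMatrix' (j ∘ₗ s) from rfl, ← LinearMap.toMatrix'_comp]
    congr 1
    refine LinearMap.ext fun v => ?_
    simp only [LinearMap.comp_apply, hjs]
  have hev : ∀ v, Matrix.mulVec e v = j (s v) := fun v => by
    rw [← Matrix.toLin'_apply, Matrix.toLin'_toMatrix']
    rfl
  let Φ := σ.mapMatrix (m := Fin n)
  have hker : ∀ X ∈ RingHom.ker Φ, IsNilpotent X := fun X hX => by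
    refine ⟨2, ?_⟩
    ext a b
    rw [pow_two, Matrix.mul_apply, Matrix.zero_apply]
    refine Finset.sum_eq_zero fun c _ => hsq _ _ ?_ ?_
    · exact Matrix.ext_iff.2 (RingHom.mem_ker.1 hX) a c
    · exact Matrix.ext_iff.2 (RingHom.mem_ker.1 hX) c b
  obtain ⟨e', he', hee'⟩ := exists_isIdempotentElem_eq_of_ker_isNilpotent Φ hker e
    ⟨Matrix.of fun a b => (hσ (e a b)).choose, Matrix.ext fun a b => (hσ (e a b)).choose_spec⟩ he
  let E := Matrix.toLin' e'
  have hEE : ∀ v, E (E v) = E v := fun v => by
    simp only [E, Matrix.toLin'_apply, Matrix.mulVec_mulVec, he'.eq]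
  have hσE : ∀ v, σ ∘ (E v) = j (s (σ ∘ v)) := fun v => by
    rw [← hev]
    ext a
    simp only [Function.comp_apply, E, Matrix.toLin'_apply, RingHom.map_mulVec]
    rw [show e'.map σ = e from hee']
  have hfix : ∀ x : LinearMap.range E, E x = x := by
    rintro ⟨_, v, rfl⟩
    exact hEE v
  have : Module.Projective R' (LinearMap.range E) :=
    Module.Projective.of_split (LinearMap.range E).subtype E.rangeRestrict
      (LinearMap.ext fun x => Subtype.ext (hfix x))
  let f : LinearMap.range E →ₛₗ[σ] M :=
    { toFun := fun x => s (σ ∘ (x : Fin n → R'))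
      map_add' := fun x y => by
        rw [← map_add]; congr 1; ext a; simp
      map_smul' := fun r x => by
        rw [← map_smul]; congr 1; ext a; simp }
  have hf : Function.Surjective f := fun y => by
    choose v hv using fun a => hσ (j y a)
    refine ⟨E.rangeRestrict v, ?_⟩
    show s (σ ∘ E v) = y
    rw [hσE, show (σ ∘ v) = j y from funext hv, hjs, hjs]
  have hkerf : ∀ x, f x = 0 → x ∈ RingHom.ker σ • (⊤ : Submodule R' (LinearMap.range E)) := by
    intro x hx
    have h0 : σ ∘ (x : Fin n → R') = 0 := by
      rw [← hfix x, hσE]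
      show j (s (σ ∘ (x : Fin n → R'))) = 0
      rw [show s (σ ∘ (x : Fin n → R')) = 0 from hx, map_zero]
    have hxs : x = ∑ a, (x : Fin n → R') a • E.rangeRestrict (Pi.single a 1) := by
      conv_lhs => rw [show x = E.rangeRestrict (x : Fin n → R') from Subtype.ext (hfix x).symm,
        pi_eq_sum_univ' (x : Fin n → R')]
      simp
    rw [hxs]
    exact Submodule.sum_mem _ fun a _ =>
      Submodule.smul_mem_smul (RingHom.mem_ker.2 (congrFun h0 a)) Submodule.mem_top
  exact ⟨LinearMap.range E, inferInstance, inferInstance,
    invertible_of_lift hσ hsq f hf hkerf, f, hf⟩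

end Fermat.Agent.Jac.LiftModule
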