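import Fermat.Agent.Jac.Cl
import Fermat.Agent.Jac.Chart.LiftModule

/-!
# Line data lift along square-zero surjections

`LineData.exists_lift` is the infinitesimal lifting used for smoothness of the chart.
-/

set_option autoImplicit false

universe u

open scoped TensorProduct

namespace Fermat.Agent.Jac

variable {k : Type u} [Field k] {m : CurveModel k} {A A' : Type u} [CommRing A] [Algebra k A]
  [CommRing A'] [Algebra k A']

namespace LiftModule

/-- Tensoring a surjection with square-zero kernel with an algebra gives such a surjection. -/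
theorem map_id_sq_zero (B : Type u) [CommRing B] [Algebra k B] (φ : A' →ₐ[k] A)
    (hφ : Function.Surjective φ) (hsq : ∀ x y : A', φ x = 0 → φ y = 0 → x * y = 0) :
    Function.Surjective (Algebra.TensorProduct.map φ (AlgHom.id k B)).toRingHom ∧
      ∀ x y : A' ⊗[k] B, (Algebra.TensorProduct.map φ (AlgHom.id k B)).toRingHom x = 0 →
        (Algebra.TensorProduct.map φ (AlgHom.id k B)).toRingHom y = 0 → x * y = 0 := by
  refine ⟨fun z => TensorProduct.map_surjective (g := φ.toLinearMap)
    (g' := LinearMap.id (R := k) (M := B)) hφ Function.surjective_id z, fun x y hx hy => ?_⟩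
  have hker := Algebra.TensorProduct.map_ker (f := φ) (g := AlgHom.id k B) hφ Function.surjective_id
  have hbot : RingHom.ker (AlgHom.id k B) = ⊥ :=
    (RingHom.injective_iff_ker_eq_bot _).1 Function.injective_id
  rw [hbot, Ideal.map_bot, sup_bot_eq] at hker
  have hxy := Ideal.mul_mem_mul (show x ∈ _ from hker ▸ RingHom.mem_ker.2 hx)
    (show y ∈ _ from hker ▸ RingHom.mem_ker.2 hy)
  have hII : RingHom.ker φ * RingHom.ker φ = ⊥ := eq_bot_iff.2 (Ideal.mul_le.2 fun a ha b hb =>
    Ideal.mem_bot.2 (hsq a b (RingHom.mem_ker.1 ha) (RingHom.mem_ker.1 hb)))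
  rw [← Ideal.map_mul, hII, Ideal.map_bot] at hxy
  exact Ideal.mem_bot.1 hxy

/-- Semilinear maps lift along a surjection from a projective source. -/
theorem exists_lift_map {S T S' T' : Type*} [CommRing S] [CommRing T] [CommRing S'] [CommRing T']
    {ι : S →+* T} {ι' : S' →+* T'} {α : S' →+* S} {β : T' →+* T}
    (hring : ∀ r, ι (α r) = β (ι' r)) {M N M' N' : Type*} [AddCommGroup M] [Module S M]
    [AddCommGroup N] [Module T N] [AddCommGroup M'] [Module S' M'] [AddCommGroup N']
    [Module T' N'] [Module.Projective S' M'] (f : M' →ₛₗ[α] M) (g : N' →ₛₗ[β] N)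
    (hg : Function.Surjective g) (r : M →ₛₗ[ι] N) :
    ∃ r' : M' →ₛₗ[ι'] N', ∀ x, g (r' x) = r (f x) := by
  let := Module.compHom N' ι'
  let := Module.compHom N (β.comp ι')
  let g' : N' →ₗ[S'] N :=
    { toFun := g, map_add' := g.map_add, map_smul' := fun s y => g.map_smulₛₗ (ι' s) y }
  let q : M' →ₗ[S'] N :=
    { toFun := fun x => r (f x)
      map_add' := fun x y => by simp
      map_smul' := fun s x => by
        rw [LinearMap.map_smulₛₗ, LinearMap.map_smulₛₗ, hring]
        rfl }
  obtain ⟨h, hh⟩ := Module.projective_lifting_property g' q hg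
  exact ⟨{ toFun := h, map_add' := h.map_add, map_smul' := fun s x => h.map_smul s x },
    fun x => LinearMap.congr_fun hh x⟩

/-- Generation can be checked after reduction modulo a square-zero ideal. -/
theorem span_eq_top_of_map {T' T N' N : Type*} [CommRing T'] [CommRing T] {β : T' →+* T}
    (hβ : Function.Surjective β) (hsq : ∀ x y : T', β x = 0 → β y = 0 → x * y = 0)
    [AddCommGroup N'] [Module T' N'] [AddCommGroup N] [Module T N] [Module.Invertible T' N']
    [Module.Invertible T N] (g : N' →ₛₗ[β] N) (hg : Function.Surjective g) (s : Set N')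
    (hs : Submodule.span T (g '' s) = ⊤) : Submodule.span T' s = ⊤ := by
  have hmap : ∀ y, ∃ z ∈ Submodule.span T' s, g z = g y := by
    intro y
    have hy : g y ∈ Submodule.span T (g '' s) := by rw [hs]; exact Submodule.mem_top
    generalize g y = v at hy ⊢
    induction hy using Submodule.span_induction with
    | mem w hw => obtain ⟨z, hz, rfl⟩ := hw; exact ⟨z, Submodule.subset_span hz, rfl⟩
    | zero => exact ⟨0, zero_mem _, by simp⟩
    | add a b _ _ ha hb =>
      obtain ⟨z, hz, hza⟩ := ha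
      obtain ⟨z', hz', hzb⟩ := hb
      exact ⟨z + z', add_mem hz hz', by simp [hza, hzb]⟩
    | smul c a _ ha =>
      obtain ⟨z, hz, hza⟩ := ha
      obtain ⟨c', rfl⟩ := hβ c
      exact ⟨c' • z, Submodule.smul_mem _ _ hz, by simp [hza]⟩
  let := β.toAlgebra
  have hspan : Submodule.span T (Set.range g) = ⊤ := by
    rw [hg.range_eq, Submodule.span_univ]
  obtain ⟨e, he⟩ := Semilin.exists_baseChangeEquiv (σ := β) rfl g hspan
  have hker : ∀ y, g y = 0 → y ∈ RingHom.ker β • (⊤ : Submodule T' N') := by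
    intro y hy
    have h1 : (Algebra.linearMap T' T).rTensor N' ((1 : T') ⊗ₜ y) = 0 := by
      rw [← he, LinearEquiv.map_eq_zero_iff] at hy
      simpa using hy
    obtain ⟨w, hw⟩ := (rTensor_exact N' (LinearMap.exact_subtype_ker_map (Algebra.linearMap T' T))
      hβ _).1 h1
    have hlid := congrArg (TensorProduct.lid T' N') hw
    rw [TensorProduct.lid_tmul, one_smul] at hlid
    rw [← hlid]
    clear hlid hw
    induction w using TensorProduct.induction_on with
    | zero => simp
    | add a b ha hb => simp only [map_add]; exact add_mem ha hb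
    | tmul c z =>
      rw [LinearMap.rTensor_tmul, TensorProduct.lid_tmul]
      exact Submodule.smul_mem_smul (RingHom.mem_ker.2 (LinearMap.mem_ker.1 c.2)) Submodule.mem_top
  have hle : (⊤ : Submodule T' N') ≤
      Submodule.span T' s ⊔ RingHom.ker β • (⊤ : Submodule T' N') := by
    intro y _
    obtain ⟨z, hz, hzy⟩ := hmap y
    rw [← add_sub_cancel z y]
    exact Submodule.add_mem_sup hz (hker _ (by rw [map_sub, hzy, sub_self]))
  have hII : RingHom.ker β * RingHom.ker β = ⊥ := eq_bot_iff.2 (Ideal.mul_le.2 fun a ha b hb =>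
    Ideal.mem_bot.2 (hsq a b (RingHom.mem_ker.1 ha) (RingHom.mem_ker.1 hb)))
  refine eq_top_iff.2 (hle.trans (sup_le le_rfl ?_))
  refine (Submodule.smul_mono le_rfl hle).trans ?_
  rw [Submodule.smul_sup, ← Submodule.mul_smul, hII, Submodule.bot_smul, sup_bot_eq]
  exact Submodule.smul_le_right

end LiftModule

/-- **Lifting of line data** along a surjection with square-zero kernel. -/
theorem LineData.exists_lift (φ : A' →ₐ[k] A) (hφ : Function.Surjective φ)
    (hsq : ∀ x y : A', φ x = 0 → φ y = 0 → x * y = 0) (D : LineData m A) :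
    ∃ D' : LineData m A', D'.IsBaseChangeData φ D := by
  obtain ⟨hs0, hz0⟩ := LiftModule.map_id_sq_zero m.B0 φ hφ hsq
  obtain ⟨hs1, hz1⟩ := LiftModule.map_id_sq_zero m.B1 φ hφ hsq
  obtain ⟨hs01, hz01⟩ := LiftModule.map_id_sq_zero m.B01 φ hφ hsq
  obtain ⟨N0, _, _, _, f0, hf0⟩ := LiftModule.exists_lift (m.map0 φ) hs0 hz0 D.M0
  obtain ⟨N1, _, _, _, f1, hf1⟩ := LiftModule.exists_lift (m.map1 φ) hs1 hz1 D.M1
  obtain ⟨N01, _, _, _, f01, hf01⟩ := LiftModule.exists_lift (m.map01 φ) hs01 hz01 D.M01
  obtain ⟨r0, hr0⟩ := LiftModule.exists_lift_map (CurveModel.map01_ι0 φ) f0 f01 hf01 D.res0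
  obtain ⟨r1, hr1⟩ := LiftModule.exists_lift_map (CurveModel.map01_ι1 φ) f1 f01 hf01 D.res1
  have h0 : Submodule.span (m.R01 A') (Set.range r0) = ⊤ := by
    refine LiftModule.span_eq_top_of_map hs01 hz01 f01 hf01 _
      (eq_top_iff.2 (D.span0.symm.trans_le (Submodule.span_mono ?_)))
    rintro _ ⟨x, rfl⟩
    obtain ⟨y, rfl⟩ := hf0 x
    exact ⟨r0 y, ⟨y, rfl⟩, hr0 y⟩
  have h1 : Submodule.span (m.R01 A') (Set.range r1) = ⊤ := by
    refine LiftModule.span_eq_top_of_map hs01 hz01 f01 hf01 _
      (eq_top_iff.2 (D.span1.symm.trans_le (Submodule.span_mono ?_)))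
    rintro _ ⟨x, rfl⟩
    obtain ⟨y, rfl⟩ := hf1 x
    exact ⟨r1 y, ⟨y, rfl⟩, hr1 y⟩
  have hg0 : Submodule.span (m.R0 A) (Set.range f0) = ⊤ := by rw [hf0.range_eq, Submodule.span_univ]
  have hg1 : Submodule.span (m.R1 A) (Set.range f1) = ⊤ := by rw [hf1.range_eq, Submodule.span_univ]
  exact ⟨LineData.ofModules r0 r1 h0 h1, f0, f1, f01, fun x => (hr0 x).symm, fun x => (hr1 x).symm,
    hg0, hg1⟩

end Fermat.Agent.Jac
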