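import Fermat.Agent.Jac.Functor
import Fermat.Agent.Jac.Chart.Lift

/-!
# Smoothness of an algebra representing an open part of the functor of classes of degree zero

`smooth_of_represents` deduces smoothness from lifting along square-zero extensions.
-/

set_option autoImplicit false

universe u

open scoped TensorProduct

namespace Fermat.Agent.Jac

variable {k : Type u} [Field k] {m : CurveModel k}

namespace LiftModule

/-- A homomorphism to a field factors through every surjection with square-zero kernel. -/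
theorem exists_factor {A A' : Type u} [CommRing A] [Algebra k A] [CommRing A'] [Algebra k A']
    (π : A' →ₐ[k] A) (hπ : Function.Surjective π)
    (hsq : ∀ x y : A', π x = 0 → π y = 0 → x * y = 0) {K : Type u} [Field K] [Algebra k K]
    (ψ : A' →ₐ[k] K) : ∃ ψ₀ : A →ₐ[k] K, ψ₀.comp π = ψ := by
  have hzero : ∀ x, π x = 0 → ψ x = 0 := fun x hx => by
    have h := congrArg ψ (hsq x x hx hx)
    rw [map_mul, map_zero] at h
    exact mul_self_eq_zero.1 h
  choose g hg using hπ
  have hg' : ∀ x, ψ (g (π x)) = ψ x := fun x => by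
    rw [← sub_eq_zero, ← map_sub]
    exact hzero _ (by rw [map_sub, hg, sub_self])
  refine ⟨{ toFun := fun a => ψ (g a), map_one' := ?_, map_mul' := fun a b => ?_, map_zero' := ?_,
            map_add' := fun a b => ?_, commutes' := fun r => ?_ }, AlgHom.ext hg'⟩
  · simpa using hg' 1
  · simpa [hg] using hg' (g a * g b)
  · simpa using hg' 0
  · simpa [hg] using hg' (g a + g b)
  · simpa using hg' (algebraMap k A' r)

/-- The lift of a rigidifiable bundle of degree zero is again such a bundle. -/
theorem exists_lift_picZero {A A' : Type u} [CommRing A] [Algebra k A] [CommRing A'] [Algebra k A']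
    (π : A' →ₐ[k] A) (hπ : Function.Surjective π)
    (hsq : ∀ x y : A', π x = 0 → π y = 0 → x * y = 0) (x : picZero m A) :
    ∃ x' : picZero m A', (picZeroFun m).map π x' = x := by
  obtain ⟨c, hrig, hdeg⟩ := x
  obtain ⟨D, rfl⟩ := Cl.mk_surjective c
  obtain ⟨D', hD⟩ := LineData.exists_lift π hπ hsq D
  have hmap : Cl.map π (Cl.mk D') = Cl.mk D := Cl.map_mk π hD
  refine ⟨⟨Cl.mk D', ?_, ?_⟩, Subtype.ext hmap⟩
  · obtain ⟨f0, f1, f01, -, -, -, hs1⟩ := hD
    obtain ⟨l, hl⟩ := (Cl.rigTriv_mk D).1 hrig
    let β : A' →+* A := π.toRingHom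
    let a : A' →ₛₗ[β] A :=
      { toFun := π, map_add' := map_add π, map_smul' := fun r x => map_mul π r x }
    obtain ⟨l', hl'⟩ := exists_lift_map (ι := m.epsA A) (ι' := m.epsA A') (β := β)
      (fun r => Point.epsA_map1 π r) f1 a hπ l
    refine (Cl.rigTriv_mk D').2
      ⟨l', Point.surjective_of_span Point.epsA_surjective l' ?_⟩
    have htop : Submodule.span A (Set.range fun y => l (f1 y)) = ⊤ :=
      Semilin.span_comp_eq_top f1 l hs1 (by rw [hl.range_eq, Submodule.span_univ])
    have key : ∀ v ∈ Submodule.span A (Set.range fun y => l (f1 y)),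
        ∃ c ∈ Submodule.span A' (Set.range l'), π c = v := by
      intro v hv
      induction hv using Submodule.span_induction with
      | mem v hv =>
        obtain ⟨y, rfl⟩ := hv
        exact ⟨l' y, Submodule.subset_span ⟨y, rfl⟩, hl' y⟩
      | zero => exact ⟨0, zero_mem _, map_zero π⟩
      | add v w _ _ hv hw =>
        obtain ⟨c, hc, rfl⟩ := hv
        obtain ⟨d, hd, rfl⟩ := hw
        exact ⟨c + d, add_mem hc hd, map_add π c d⟩
      | smul r v _ hv =>
        obtain ⟨c, hc, rfl⟩ := hv
        obtain ⟨r', rfl⟩ := hπ r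
        exact ⟨r' • c, Submodule.smul_mem _ _ hc, map_mul π r' c⟩
    obtain ⟨c, hc, hc1⟩ := key 1 (by rw [htop]; exact Submodule.mem_top)
    exact Ideal.eq_top_of_isUnit_mem _ hc (isUnit_of_map_eq_one (σ := β) hsq hc1)
  · intro K _ _ _ ψ
    obtain ⟨ψ₀, rfl⟩ := exists_factor π hπ hsq ψ
    rw [← Cl.map_map, hmap]
    exact hdeg K ψ₀

end LiftModule

/-- An algebra representing an open part of the functor of rigidified classes of degree zero is
formally smooth. -/
theorem formallySmooth_of_represents
    (mem : ∀ (A : Type u) [CommRing A] [Algebra k A], picZero m A → Prop)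
    (mem_map : ∀ {A A' : Type u} [CommRing A] [Algebra k A] [CommRing A'] [Algebra k A']
      (φ : A →ₐ[k] A') (x : picZero m A), mem A x → mem A' ((picZeroFun m).map φ x))
    (mem_of_fibres : ∀ (A : Type u) [CommRing A] [Algebra k A] (x : picZero m A),
      (∀ (K : Type u) [Field K] [IsAlgClosed K] [Algebra k K] (φ : A →ₐ[k] K),
        mem K ((picZeroFun m).map φ x)) → mem A x)
    (Q : Type u) [CommRing Q] [Algebra k Q] (univ : picZero m Q) (univ_mem : mem Q univ)
    (existsUnique : ∀ (A : Type u) [CommRing A] [Algebra k A] (x : picZero m A), mem A x →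
      ∃! φ : Q →ₐ[k] A, (picZeroFun m).map φ univ = x) :
    Algebra.FormallySmooth k Q := by
  refine Algebra.FormallySmooth.of_comp_surjective fun B _ _ I hI φ => ?_
  let π : B →ₐ[k] B ⧸ I := Ideal.Quotient.mkₐ k I
  have hπ : Function.Surjective π := Ideal.Quotient.mk_surjective
  have hsq : ∀ x y : B, π x = 0 → π y = 0 → x * y = 0 := fun x y hx hy => by
    have h := Ideal.mul_mem_mul (Ideal.Quotient.eq_zero_iff_mem.1 hx)
      (Ideal.Quotient.eq_zero_iff_mem.1 hy)
    rw [← pow_two, hI] at h
    exact Ideal.mem_bot.1 h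
  obtain ⟨x', hx'⟩ := LiftModule.exists_lift_picZero π hπ hsq ((picZeroFun m).map φ univ)
  have hmem : mem B x' := by
    refine mem_of_fibres B x' fun K _ _ _ ψ => ?_
    obtain ⟨ψ₀, rfl⟩ := LiftModule.exists_factor π hπ hsq ψ
    rw [← (picZeroFun m).map_map, hx']
    exact mem_map ψ₀ _ (mem_map φ univ univ_mem)
  obtain ⟨φ', hφ', -⟩ := existsUnique B x' hmem
  refine ⟨φ', (existsUnique _ _ (mem_map φ univ univ_mem)).unique ?_ rfl⟩
  rw [← (picZeroFun m).map_map, hφ', hx']

/-- The finitely presented case. -/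
theorem smooth_of_represents
    (mem : ∀ (A : Type u) [CommRing A] [Algebra k A], picZero m A → Prop)
    (mem_map : ∀ {A A' : Type u} [CommRing A] [Algebra k A] [CommRing A'] [Algebra k A']
      (φ : A →ₐ[k] A') (x : picZero m A), mem A x → mem A' ((picZeroFun m).map φ x))
    (mem_of_fibres : ∀ (A : Type u) [CommRing A] [Algebra k A] (x : picZero m A),
      (∀ (K : Type u) [Field K] [IsAlgClosed K] [Algebra k K] (φ : A →ₐ[k] K),
        mem K ((picZeroFun m).map φ x)) → mem A x)
    (Q : Type u) [CommRing Q] [Algebra k Q] [Algebra.FinitePresentation k Q] (univ : picZero m Q)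
    (univ_mem : mem Q univ)
    (existsUnique : ∀ (A : Type u) [CommRing A] [Algebra k A] (x : picZero m A), mem A x →
      ∃! φ : Q →ₐ[k] A, (picZeroFun m).map φ univ = x) :
    Algebra.Smooth k Q :=
  ⟨formallySmooth_of_represents mem mem_map mem_of_fibres Q univ univ_mem existsUnique,
    inferInstance⟩

end Fermat.Agent.Jac
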