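import Fermat.Agent.Jac.Chart.Tuple

/-!
# Line data from tuples

`ChartSetup.Tuple.exists_frame` builds line data with a frame having a given tuple.
-/

set_option autoImplicit false

universe u

open scoped TensorProduct
open Polynomial

namespace Fermat.Agent.Jac

section MatMod

variable {A : Type u} [CommRing A] {R : Type u} [CommRing R] [Algebra A R] {d : ℕ}

/-- Vectors of polynomials, acted on by a ring through matrices of polynomials. -/
def MatMod (_ρ : R →ₐ[A] Matrix (Fin d) (Fin d) A[X]) : Type u := Fin d → A[X]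

namespace MatMod

variable (ρ : R →ₐ[A] Matrix (Fin d) (Fin d) A[X])

noncomputable instance : AddCommGroup (MatMod ρ) := inferInstanceAs (AddCommGroup (Fin d → A[X]))

noncomputable instance : Module A (MatMod ρ) := inferInstanceAs (Module A (Fin d → A[X]))

/-- A vector of polynomials as an element of the module. -/
noncomputable def of : (Fin d → A[X]) ≃ₗ[A] MatMod ρ := LinearEquiv.refl A _

/-- The coordinates of an element. -/
noncomputable def out : MatMod ρ ≃ₗ[A] (Fin d → A[X]) := LinearEquiv.refl A _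

@[simp] theorem out_of (p : Fin d → A[X]) : out ρ (of ρ p) = p := rfl

noncomputable instance : SMul R (MatMod ρ) := ⟨fun r p => of ρ ((ρ r).mulVec (out ρ p))⟩

theorem out_smul (r : R) (p : MatMod ρ) : out ρ (r • p) = (ρ r).mulVec (out ρ p) := rfl

noncomputable instance : Module R (MatMod ρ) where
  one_smul p := (out ρ).injective <| by rw [out_smul, map_one, Matrix.one_mulVec]
  mul_smul r s p := (out ρ).injective <| by
    rw [out_smul, out_smul, out_smul, map_mul, Matrix.mulVec_mulVec]
  smul_zero r := (out ρ).injective <| by rw [out_smul, map_zero, Matrix.mulVec_zero]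
  smul_add r p q := (out ρ).injective <| by
    rw [out_smul, map_add, Matrix.mulVec_add, map_add, out_smul, out_smul]
  add_smul r s p := (out ρ).injective <| by
    rw [out_smul, map_add, Matrix.add_mulVec, map_add, out_smul, out_smul]
  zero_smul p := (out ρ).injective <| by rw [out_smul, map_zero, Matrix.zero_mulVec, map_zero]

instance : IsScalarTower A R (MatMod ρ) :=
  ⟨fun a r p => (out ρ).injective <| by
    rw [out_smul, map_smul, map_smul, out_smul, Matrix.smul_mulVec]⟩

/-- The standard family. -/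
noncomputable def std (i : Fin d) : MatMod ρ := of ρ (Pi.single i 1)

theorem out_smul_std (r : R) (j : Fin d) : out ρ (r • std ρ j) = fun i => ρ r i j := by
  rw [out_smul, std, out_of, Matrix.mulVec_single_one]
  rfl

variable {ρ}

theorem coord_std {t : R} (ht : ρ t = Matrix.scalar (Fin d) X) (p : Fin d → A[X]) :
    coord t (std ρ) p = of ρ p := by
  have hf : ∀ f : A[X], ρ (aeval t f) = algebraMap A[X] _ f := fun f => by
    have h : ρ.comp (aeval t) =
        (Algebra.ofId A[X] (Matrix (Fin d) (Fin d) A[X])).restrictScalars A :=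
      Polynomial.algHom_ext (by
        rw [AlgHom.comp_apply, aeval_X, ht, AlgHom.restrictScalars_apply, Algebra.ofId_apply,
          Matrix.algebraMap_eq_diagonal]
        rfl)
    exact DFunLike.congr_fun h f
  apply (out ρ).injective
  rw [coord_apply, map_sum, out_of]
  refine Eq.trans (Finset.sum_congr rfl fun i _ => ?_) (Finset.univ_sum_single p)
  rw [out_smul, hf, std, out_of, Algebra.algebraMap_eq_smul_one, Matrix.smul_mulVec,
    Matrix.one_mulVec, ← Pi.single_smul, smul_eq_mul, mul_one]

theorem bijective_coord_std {t : R} (ht : ρ t = Matrix.scalar (Fin d) X) :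
    Function.Bijective (coord (A := A) t (std ρ)) := by
  rw [show (coord (A := A) t (std ρ) : (Fin d → A[X]) → MatMod ρ) = of ρ from
    funext (coord_std ht)]
  exact (of ρ).bijective

end MatMod

end MatMod

section Helpers

variable {k : Type u} [Field k] {m : CurveModel k} {S : ChartSetup m}
  {A : Type u} [CommRing A] [Algebra k A]

namespace ChartSetup.Tuple

variable (T : S.Tuple A)

/-- The action of the first chart on vectors. -/
noncomputable def rho0 : m.R0 A →ₐ[A] Matrix (Fin m.deg) (Fin m.deg) A[X] :=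
  Algebra.TensorProduct.lift (Algebra.ofId A _) T.F0 fun a _ => Algebra.commutes a _

/-- The action of the second chart on vectors. -/
noncomputable def rho1 : m.R1 A →ₐ[A] Matrix (Fin m.deg) (Fin m.deg) A[X] :=
  Algebra.TensorProduct.lift (Algebra.ofId A _) T.F1 fun a _ => Algebra.commutes a _

theorem rho0_tmul (a : A) (b : m.B0) : T.rho0 (a ⊗ₜ b) = a • T.F0 b := by
  rw [Algebra.smul_def]
  exact Algebra.TensorProduct.lift_tmul _ _ _ a b

theorem rho1_tmul (a : A) (b : m.B1) : T.rho1 (a ⊗ₜ b) = a • T.F1 b := by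
  rw [Algebra.smul_def]
  exact Algebra.TensorProduct.lift_tmul _ _ _ a b

theorem rho0_tA : T.rho0 (m.tA A) = Matrix.scalar (Fin m.deg) X := by
  rw [CurveModel.tA, rho0_tmul, one_smul, T.F0_t]

theorem rho1_sA : T.rho1 (m.sA A) = Matrix.scalar (Fin m.deg) X := by
  rw [CurveModel.sA, rho1_tmul, one_smul, T.F1_s]

theorem eval_rho0 (r : m.R0 A) (i j : Fin m.deg) :
    (T.rho0 r i j).eval (algebraMap k A (S.q i m.t)) =
      if i = j then m.ev0 (cstPoint A (S.q i)) r else 0 := by
  induction r using TensorProduct.induction_on with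
  | zero => simp
  | tmul a b =>
    rw [rho0_tmul, Matrix.smul_apply, eval_smul, T.eval_q, smul_eq_mul]
    split_ifs <;> simp [CurveModel.ev0]
  | add x y hx hy =>
    rw [map_add, Matrix.add_apply, eval_add, hx, hy]
    split_ifs <;> simp

theorem sum_coeff_rho1 (r : m.R1 A) (j : Fin m.deg) :
    ∑ i, (T.rho1 r i j).coeff 0 = m.epsA A r := by
  induction r using TensorProduct.induction_on with
  | zero => simp
  | tmul a b =>
    simp only [rho1_tmul, Matrix.smul_apply, coeff_smul, smul_eq_mul, ← Finset.mul_sum, T.sum_eps]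
    simp [CurveModel.epsA]
  | add x y hx hy =>
    simp only [map_add, Matrix.add_apply, coeff_add, Finset.sum_add_distrib, hx, hy]

/-- Gluing: the columns of the second chart act on the overlap as scalars. -/
theorem coord_rho1 {M : Type u} [AddCommGroup M] [Module (m.R01 A) M] (ε : Fin m.deg → M)
    (h0 : ∀ (b : m.B0) (j : Fin m.deg),
      coord (m.ι0 A (m.tA A)) ε (fun i => T.F0 b i j) = m.ι0 A ((1 : A) ⊗ₜ b) • ε j)
    (r : m.R1 A) (j : Fin m.deg) :
    coord (m.ι1 A (m.sA A)) ε (fun i => T.rho1 r i j) = m.ι1 A r • ε j := by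
  induction r using TensorProduct.induction_on with
  | zero =>
    rw [map_zero, map_zero, zero_smul]
    exact map_zero _
  | add x y hx hy =>
    rw [map_add (m.ι1 A), add_smul, ← hx, ← hy, ← map_add (coord _ ε)]
    congr 1
    funext i
    simp [map_add]
  | tmul a b =>
    obtain ⟨n, b0, hb0⟩ := m.surj0 (m.i1 b)
    have hts : m.i1 b = m.i1 m.s ^ n * m.i0 b0 := by
      rw [hb0, ← mul_assoc, ← mul_pow, mul_comm (m.i1 m.s), m.t_mul_s, one_pow, one_mul]
    obtain ⟨h1, h2⟩ := T.compat n b0 b hts
    have hcol : coord (m.ι1 A (m.sA A)) ε (fun i => T.F1 b i j) =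
        m.ι1 A ((1 : A) ⊗ₜ b) • ε j := by
      have hT : m.ι1 A (m.sA A) ^ n * m.ι0 A (m.tA A) ^ n = 1 := by
        rw [← mul_pow, mul_comm, m.ι0_tA_mul, one_pow]
      have hb : m.ι0 A (m.tA A) ^ n * m.ι1 A ((1 : A) ⊗ₜ b) = m.ι0 A ((1 : A) ⊗ₜ b0) := by
        simp [CurveModel.ι0, CurveModel.ι1, CurveModel.tA, hb0]
      have e : m.ι0 A (m.tA A) ^ n • coord (m.ι1 A (m.sA A)) ε (fun i => T.F1 b i j) =
          coord (m.ι0 A (m.tA A)) ε (fun i => T.F0 b0 i j) := by
        rw [coord_apply, coord_apply, Finset.smul_sum]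
        refine Finset.sum_congr rfl fun i _ => ?_
        rw [smul_smul, aeval_revPoly (m.ι0_tA_mul A) n _ (h1 i j ▸ natDegree_revPoly_le n _),
          ← h2]
      rw [h0, ← hb, mul_smul] at e
      have := congrArg (m.ι1 A (m.sA A) ^ n • ·) e
      simpa [smul_smul, ← mul_assoc, hT] using this
    have hfun : (fun i => T.rho1 (a ⊗ₜ b) i j) = (C a : A[X]) • fun i => T.F1 b i j := by
      funext i
      rw [rho1_tmul, Matrix.smul_apply, Pi.smul_apply, smul_eq_mul, smul_eq_C_mul]
    rw [hfun, coord_smul, hcol, smul_smul, aeval_C]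
    congr 1
    simp [CurveModel.ι1]

end ChartSetup.Tuple

end Helpers

variable {k : Type u} [Field k] [IsAlgClosed k] {m : CurveModel k} {S : ChartSetup m}
  {A : Type u} [CommRing A] [Algebra k A]

/-- **Every tuple is the tuple of a frame.** -/
theorem ChartSetup.Tuple.exists_frame (T : S.Tuple A) :
    ∃ (G : LineData m A) (fr : G.Frame S.q), fr.tuple = T := by
  let e0 : Fin m.deg → MatMod T.rho0 := MatMod.std T.rho0
  let e1 : Fin m.deg → MatMod T.rho1 := MatMod.std T.rho1
  have hb0 := MatMod.bijective_coord_std T.rho0_tA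
  have hb1 := MatMod.bijective_coord_std T.rho1_sA
  have : Module.Invertible (m.R0 A) (MatMod T.rho0) :=
    invertible_of_polyBasis m.t m.finite0 m.transcendental0 m.dedekind0 (d := m.deg) rfl e0 hb0
  have : Module.Invertible (m.R1 A) (MatMod T.rho1) :=
    invertible_of_polyBasis m.s m.finite1 m.transcendental1 m.dedekind1 (d := m.deg)
      m.finrank_quot_s e1 hb1
  let : Algebra (m.R0 A) (m.R01 A) := (m.ι0 A).toAlgebra
  let res0 : MatMod T.rho0 →ₛₗ[m.ι0 A] m.R01 A ⊗[m.R0 A] MatMod T.rho0 :=
    { toFun := fun x => 1 ⊗ₜ x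
      map_add' := fun x y => TensorProduct.tmul_add _ x y
      map_smul' := fun r x => by
        rw [TensorProduct.tmul_smul, ← IsScalarTower.algebraMap_smul (m.R01 A) r]
        rfl }
  let ε : Fin m.deg → m.R01 A ⊗[m.R0 A] MatMod T.rho0 := fun i => res0 (e0 i)
  have hres0 : ∀ p : Fin m.deg → A[X],
      res0 (coord (m.tA A) e0 p) = coord (m.ι0 A (m.tA A)) ε p := fun p => by
    simp [coord_apply, LinearMap.map_smulₛₗ, m.ι0_aeval, ε]
  have h0 : ∀ (b : m.B0) (j : Fin m.deg),
      coord (m.ι0 A (m.tA A)) ε (fun i => T.F0 b i j) = m.ι0 A ((1 : A) ⊗ₜ b) • ε j := fun b j => by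
    rw [← hres0, ← LinearMap.map_smulₛₗ, MatMod.coord_std T.rho0_tA]
    congr 1
    apply (MatMod.out _).injective
    rw [MatMod.out_of, MatMod.out_smul_std, T.rho0_tmul, one_smul]
  let res1 : MatMod T.rho1 →ₛₗ[m.ι1 A] m.R01 A ⊗[m.R0 A] MatMod T.rho0 :=
    { toFun := fun p => coord (m.ι1 A (m.sA A)) ε (MatMod.out _ p)
      map_add' := fun p q => by rw [map_add, map_add]
      map_smul' := fun r p => by
        rw [MatMod.out_smul]
        exact coord_mulVec _ ε _ _ (T.coord_rho1 ε h0 r) _ }
  have hres1 : ∀ i, res1 (e1 i) = ε i := fun i => coord_single_one _ ε i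
  have span0 : Submodule.span (m.R01 A) (Set.range res0) = ⊤ := by
    refine eq_top_iff.2 fun z _ => ?_
    induction z using TensorProduct.induction_on with
    | zero => exact zero_mem _
    | add x y hx hy => exact add_mem (hx trivial) (hy trivial)
    | tmul r x =>
      rw [show r ⊗ₜ[m.R0 A] x = r • res0 x by simp [res0, TensorProduct.smul_tmul']]
      exact Submodule.smul_mem _ _ (Submodule.subset_span ⟨x, rfl⟩)
  have span1 : Submodule.span (m.R01 A) (Set.range res1) = ⊤ := by
    rw [eq_top_iff, ← span0, Submodule.span_le]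
    rintro _ ⟨x, rfl⟩
    obtain ⟨p, rfl⟩ := hb0.surjective x
    rw [hres0, coord_apply]
    exact Submodule.sum_mem _ fun i _ =>
      Submodule.smul_mem _ _ (Submodule.subset_span ⟨e1 i, hres1 i⟩)
  let π : ∀ i, MatMod T.rho0 →ₛₗ[m.ev0 (cstPoint A (S.q i))] A := fun i =>
    { toFun := fun p => (MatMod.out T.rho0 p i).eval (algebraMap k A (S.q i m.t))
      map_add' := fun p q => by rw [map_add, Pi.add_apply, eval_add]
      map_smul' := fun r p => by
        rw [MatMod.out_smul, Matrix.mulVec, dotProduct, eval_finsetSum]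
        simp [T.eval_rho0] }
  let l : MatMod T.rho1 →ₛₗ[m.epsA A] A :=
    { toFun := fun p => ∑ i, (MatMod.out T.rho1 p i).coeff 0
      map_add' := fun p q => by simp only [map_add, Pi.add_apply, coeff_add, Finset.sum_add_distrib]
      map_smul' := fun r p => by
        simp only [MatMod.out_smul, Matrix.mulVec, dotProduct, finsetSum_coeff, mul_coeff_zero,
          smul_eq_mul, Finset.mul_sum]
        rw [Finset.sum_comm]
        simp only [← Finset.sum_mul, T.sum_coeff_rho1] }
  have hπ : ∀ i j, π i (e0 j) = if i = j then 1 else 0 := fun i j => by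
    show eval _ ((Pi.single j (1 : A[X]) : Fin m.deg → A[X]) i) = _
    rw [Pi.single_apply]
    split_ifs <;> simp
  have hl : ∀ j, l (e1 j) = 1 := fun j => by
    show ∑ i, ((Pi.single j (1 : A[X]) : Fin m.deg → A[X]) i).coeff 0 = 1
    rw [Finset.sum_eq_single j] <;> simp +contextual
  let fr : (LineData.ofModules res0 res1 span0 span1).Frame S.q :=
    { e0 := e0, e1 := e1, comm := hres1, bij0 := hb0, bij1 := hb1,
      π := π, π_e := hπ, l := l, l_e := hl }
  refine ⟨_, fr, Tuple.ext (AlgHom.ext fun b => ?_) (AlgHom.ext fun b => ?_)⟩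
  · refine coordMat_eq fr.bij0 fun j => ?_
    show coord (m.tA A) e0 (fun i => T.F0 b i j) = ((1 : A) ⊗ₜ[k] b) • e0 j
    rw [MatMod.coord_std T.rho0_tA]
    apply (MatMod.out _).injective
    rw [MatMod.out_of, MatMod.out_smul_std, T.rho0_tmul, one_smul]
  · refine coordMat_eq fr.bij1 fun j => ?_
    show coord (m.sA A) e1 (fun i => T.F1 b i j) = ((1 : A) ⊗ₜ[k] b) • e1 j
    rw [MatMod.coord_std T.rho1_sA]
    apply (MatMod.out _).injective
    rw [MatMod.out_of, MatMod.out_smul_std, T.rho1_tmul, one_smul]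

end Fermat.Agent.Jac
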