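import Fermat.Agent.Jac.Chart.Tuple

/-!
# Frames with matching tuples give base change data

`LineData.Frame.isBaseChangeData` identifies base change through the tuples.
-/

set_option autoImplicit false

universe u

open scoped TensorProduct
open Polynomial

namespace Fermat.Agent.Jac

namespace TupleMap

section coordinates

variable {A : Type u} [CommRing A] {R : Type u} [CommRing R] [Algebra A R]
  {M : Type u} [AddCommGroup M] [Module R M] {d : ℕ} {t : R} {e : Fin d → M}

/-- A family with surjective coordinates generates. -/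
theorem span_range_eq_top (h : Function.Surjective (coord (A := A) t e)) :
    Submodule.span R (Set.range e) = ⊤ := by
  refine eq_top_iff.2 fun x _ => ?_
  obtain ⟨p, rfl⟩ := h x
  rw [coord_apply]
  exact Submodule.sum_mem _ fun i _ => Submodule.smul_mem _ _ (Submodule.subset_span ⟨i, rfl⟩)

/-- Coordinates of the image of a family under a linear equivalence. -/
theorem coord_equiv {M' : Type u} [AddCommGroup M'] [Module R M'] (g : M ≃ₗ[R] M')
    (p : Fin d → A[X]) : coord t (fun i => g (e i)) p = g (coord t e p) := by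
  simp [coord_apply]

theorem bijective_coord_equiv {M' : Type u} [AddCommGroup M'] [Module R M'] (g : M ≃ₗ[R] M')
    (h : Function.Bijective (coord (A := A) t e)) :
    Function.Bijective (coord (A := A) t fun i => g (e i)) := by
  have heq : (coord t (fun i => g (e i)) : (Fin d → A[X]) → M') = g ∘ coord t e :=
    funext (coord_equiv g)
  rw [heq]
  exact g.bijective.comp h

theorem coordMat_equiv {M' : Type u} [AddCommGroup M'] [Module R M'] (g : M ≃ₗ[R] M')
    (h : Function.Bijective (coord (A := A) t e))
    (h' : Function.Bijective (coord (A := A) t fun i => g (e i))) :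
    coordMat h' = coordMat h :=
  RingHom.ext fun r => coordMat_eq h' fun j => by rw [coord_equiv, coord_coordMat, map_smul]

/-- Change of coefficients in bijective polynomial coordinates is semilinear when the matrices
match. -/
theorem exists_map_coord {A' : Type u} [CommRing A'] {R' : Type u} [CommRing R'] [Algebra A' R']
    {M' : Type u} [AddCommGroup M'] [Module R' M'] {t' : R'} {e' : Fin d → M'}
    (h : Function.Bijective (coord (A := A) t e))
    (h' : Function.Bijective (coord (A := A') t' e')) (φ : A →+* A') (ψ : R →+* R')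
    (hmat : ∀ r, coordMat h' (ψ r) = (mapRingHom φ).mapMatrix (coordMat h r)) :
    ∃ f : M →ₛₗ[ψ] M', (∀ i, f (e i) = e' i) ∧ Submodule.span R' (Set.range f) = ⊤ := by
  let g : M → M' := fun x => coord t' e' fun i => ((Equiv.ofBijective _ h).symm x i).map φ
  have hg : ∀ p, g (coord t e p) = coord t' e' fun i => (p i).map φ := fun p => by
    simp only [g]
    rw [Equiv.ofBijective_symm_apply_apply]
  let f : M →ₛₗ[ψ] M' :=
    { toFun := g
      map_add' := fun x y => by
        obtain ⟨p, rfl⟩ := h.surjective x
        obtain ⟨q, rfl⟩ := h.surjective y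
        rw [← map_add, hg, hg, hg, ← map_add]
        congr 1
        funext i
        simp
      map_smul' := fun r x => by
        obtain ⟨p, rfl⟩ := h.surjective x
        rw [← coord_coordMat_mulVec h, hg, hg, ← coord_coordMat_mulVec h', hmat]
        congr 1
        funext i
        simp [Matrix.mulVec, dotProduct, Polynomial.map_sum] }
  have he : ∀ i, f (e i) = e' i := fun i => by
    show g (e i) = e' i
    rw [← coord_single_one (A := A) t e i, hg, ← coord_single_one (A := A') t' e' i]
    congr 1
    funext j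
    by_cases hj : j = i
    · subst hj; simp
    · simp [Pi.single_eq_of_ne hj]
  refine ⟨f, he, eq_top_iff.2 ((span_range_eq_top h'.surjective).symm.trans_le
    (Submodule.span_mono ?_))⟩
  rintro _ ⟨i, rfl⟩
  exact ⟨e i, he i⟩

end coordinates

end TupleMap

variable {k : Type u} [Field k] {m : CurveModel k} {S : ChartSetup m}
  {A A' : Type u} [CommRing A] [Algebra k A] [CommRing A'] [Algebra k A']

/-- **Frames with matching tuples give base change data.** -/
theorem LineData.Frame.isBaseChangeData {G : LineData m A} {G' : LineData m A'} (φ : A →ₐ[k] A')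
    (fr : G.Frame S.q) (fr' : G'.Frame S.q) (h : fr'.tuple = fr.tuple.map φ) :
    G.IsBaseChangeData φ G' := by
  have h0 : ∀ r, fr'.mat0 (m.map0 φ r) = (mapRingHom φ.toRingHom).mapMatrix (fr.mat0 r) := by
    intro r
    induction r using TensorProduct.induction_on with
    | zero => simp
    | add a b ha hb => simp only [map_add, ha, hb]
    | tmul a b =>
      have hb : fr'.mat0 ((1 : A') ⊗ₜ[k] b) =
          (mapRingHom φ.toRingHom).mapMatrix (fr.mat0 ((1 : A) ⊗ₜ[k] b)) :=
        AlgHom.congr_fun (congrArg ChartSetup.Tuple.F0 h) b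
      have e1 : a ⊗ₜ[k] b = algebraMap A (m.R0 A) a * (1 : A) ⊗ₜ[k] b := by
        simp [Algebra.TensorProduct.algebraMap_apply]
      have e2 : m.map0 φ (a ⊗ₜ[k] b) = algebraMap A' (m.R0 A') (φ a) * (1 : A') ⊗ₜ[k] b := by
        simp [Algebra.TensorProduct.algebraMap_apply, CurveModel.map0]
      rw [e2, map_mul, hb, e1, map_mul, map_mul]
      congr 1
      rw [LineData.Frame.mat0, LineData.Frame.mat0, coordMat_algebraMap, coordMat_algebraMap]
      refine Matrix.ext fun i j => ?_
      by_cases hij : i = j <;> simp [hij]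
  have h1 : ∀ r, fr'.mat1 (m.map1 φ r) = (mapRingHom φ.toRingHom).mapMatrix (fr.mat1 r) := by
    intro r
    induction r using TensorProduct.induction_on with
    | zero => simp
    | add a b ha hb => simp only [map_add, ha, hb]
    | tmul a b =>
      have hb : fr'.mat1 ((1 : A') ⊗ₜ[k] b) =
          (mapRingHom φ.toRingHom).mapMatrix (fr.mat1 ((1 : A) ⊗ₜ[k] b)) :=
        AlgHom.congr_fun (congrArg ChartSetup.Tuple.F1 h) b
      have e1 : a ⊗ₜ[k] b = algebraMap A (m.R1 A) a * (1 : A) ⊗ₜ[k] b := by
        simp [Algebra.TensorProduct.algebraMap_apply]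
      have e2 : m.map1 φ (a ⊗ₜ[k] b) = algebraMap A' (m.R1 A') (φ a) * (1 : A') ⊗ₜ[k] b := by
        simp [Algebra.TensorProduct.algebraMap_apply, CurveModel.map1]
      rw [e2, map_mul, hb, e1, map_mul, map_mul]
      congr 1
      rw [LineData.Frame.mat1, LineData.Frame.mat1, coordMat_algebraMap, coordMat_algebraMap]
      refine Matrix.ext fun i j => ?_
      by_cases hij : i = j <;> simp [hij]
  obtain ⟨f0, he0, hs0⟩ := TupleMap.exists_map_coord fr.bij0 fr'.bij0 φ.toRingHom (m.map0 φ) h0
  obtain ⟨f1, he1, hs1⟩ := TupleMap.exists_map_coord fr.bij1 fr'.bij1 φ.toRingHom (m.map1 φ) h1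
  obtain ⟨f01, hf01⟩ := Semilin.exists_lift G.res0 G.span0 (m.map01 φ)
    (G'.res0.toAddMonoidHom.comp f0.toAddMonoidHom) fun r x => by simp [CurveModel.map01_ι0]
  have hcomm : ∀ x, G'.res0 (f0 x) = f01 (G.res0 x) := fun x => (hf01 x).symm
  refine ⟨f0, f1, f01, hcomm, fun x => ?_, hs0, hs1⟩
  refine Semilin.square_ext G.res1 G'.res1 f1 f01 (CurveModel.map01_ι1 φ)
    (TupleMap.span_range_eq_top fr.bij1.surjective) ?_ x
  rintro _ ⟨i, rfl⟩
  rw [he1, fr'.comm, ← he0, hcomm, fr.comm]

variable {G E : LineData m A}

/-- Transport of a frame along an isomorphism. -/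
noncomputable def LineData.Frame.ofIso (fr : G.Frame S.q) (e : LineData.Iso G E) : E.Frame S.q where
  e0 i := e.e0 (fr.e0 i)
  e1 i := e.e1 (fr.e1 i)
  comm i := by rw [e.comm0, e.comm1, fr.comm]
  bij0 := TupleMap.bijective_coord_equiv e.e0 fr.bij0
  bij1 := TupleMap.bijective_coord_equiv e.e1 fr.bij1
  π i := (fr.π i).comp e.e0.symm.toLinearMap
  π_e i j := by simp [fr.π_e]
  l := fr.l.comp e.e1.symm.toLinearMap
  l_e j := by simp [fr.l_e]

theorem LineData.Frame.tuple_ofIso (fr : G.Frame S.q) (e : LineData.Iso G E) :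
    (fr.ofIso e).tuple = fr.tuple := by
  ext1
  · exact AlgHom.ext fun b => RingHom.congr_fun
      (TupleMap.coordMat_equiv e.e0 fr.bij0 (TupleMap.bijective_coord_equiv e.e0 fr.bij0)) _
  · exact AlgHom.ext fun b => RingHom.congr_fun
      (TupleMap.coordMat_equiv e.e1 fr.bij1 (TupleMap.bijective_coord_equiv e.e1 fr.bij1)) _

end Fermat.Agent.Jac
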