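import Fermat.Agent.Jac.Model

/-!
# Algebra for the chart: degree of the two charts and a criterion for invertibility

A module over a chart which is free of rank the degree over the coordinate line is invertible.
-/

set_option autoImplicit false

universe u

open scoped TensorProduct

namespace Fermat.Agent.Jac

section PolyComb

variable {A R M ι : Type*} [CommRing A] [CommRing R] [Algebra A R]
  [AddCommGroup M] [Module R M] [Module A M] [IsScalarTower A R M] [Fintype ι]

/-- Combination of a family with coefficients polynomials in `τ`. -/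
noncomputable def polyComb (τ : R) (e : ι → M) : (ι → Polynomial A) →ₗ[A] M where
  toFun p := ∑ i, Polynomial.aeval τ (p i) • e i
  map_add' p q := by simp [add_smul, Finset.sum_add_distrib]
  map_smul' a p := by simp [Finset.smul_sum]

theorem polyComb_apply (τ : R) (e : ι → M) (p : ι → Polynomial A) :
    polyComb τ e p = ∑ i, Polynomial.aeval τ (p i) • e i := rfl

theorem polyComb_basis [DecidableEq ι] (τ : R) (e : ι → M) (x : Σ _ : ι, ℕ) :
    polyComb (A := A) τ e (Pi.basis (fun _ : ι => Polynomial.basisMonomials A) x) =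
      τ ^ x.2 • e x.1 := by
  rw [Pi.basis_apply, polyComb_apply, Finset.sum_eq_single x.1]
  · simp
  · intro i _ hi
    simp [hi]
  · simp

theorem bijective_polyComb_iff (τ : R) (e : ι → M) :
    Function.Bijective (polyComb (A := A) τ e) ↔
      ∃ b : Module.Basis (Σ _ : ι, ℕ) A M, ∀ x, b x = τ ^ x.2 • e x.1 := by
  classical
  constructor
  · intro h
    exact ⟨(Pi.basis fun _ : ι => Polynomial.basisMonomials A).map (LinearEquiv.ofBijective _ h),
      fun x => by
        rw [Module.Basis.map_apply]
        exact polyComb_basis τ e x⟩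
  · rintro ⟨b, hb⟩
    have : polyComb (A := A) τ e =
        ((Pi.basis fun _ : ι => Polynomial.basisMonomials A).equiv b (Equiv.refl _)).toLinearMap :=
      Module.Basis.ext (Pi.basis fun _ : ι => Polynomial.basisMonomials A) fun x => by
        rw [polyComb_basis, LinearEquiv.coe_coe, Module.Basis.equiv_apply]
        exact (hb x).symm
    rw [this]
    exact LinearEquiv.bijective _

/-- A family with bijective combination map is a basis over the polynomial ring. -/
theorem exists_basis_of_polyComb [Module (Polynomial A) M] (τ : R) (e : ι → M)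
    (hmod : ∀ (p : Polynomial A) (x : M), p • x = Polynomial.aeval τ p • x)
    (h : Function.Bijective (polyComb (A := A) τ e)) :
    ∃ b : Module.Basis ι (Polynomial A) M, ∀ i, b i = e i := by
  classical
  have h' : Function.Bijective (Fintype.linearCombination (Polynomial A) e) := by
    convert h using 1
    funext p
    simp [Fintype.linearCombination_apply, polyComb_apply, hmod]
  refine ⟨Module.Basis.ofEquivFun (LinearEquiv.ofBijective _ h').symm, fun i => ?_⟩
  simp [Fintype.linearCombination_apply_single]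

end PolyComb

section BaseChange

variable {ι : Type*} [Fintype ι]

theorem bijective_polyComb_tensor {k A B : Type*} [CommRing k] [CommRing A] [Algebra k A]
    [CommRing B] [Algebra k B] (t : B) (b : ι → B)
    (h : Function.Bijective (polyComb (A := k) t b)) :
    Function.Bijective
      (polyComb (A := A) ((1 : A) ⊗ₜ[k] t) fun i => (1 : A) ⊗ₜ[k] b i) := by
  obtain ⟨c, hc⟩ := (bijective_polyComb_iff _ _).mp h
  refine (bijective_polyComb_iff _ _).mpr ⟨Algebra.TensorProduct.basis A c, fun x => ?_⟩
  simp [hc]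

theorem bijective_polyComb_pushout {A K R R' M : Type*} [CommRing A] [CommRing K] [CommRing R]
    [CommRing R'] [Algebra A K] [Algebra A R] [Algebra A R'] [Algebra K R'] [Algebra R R']
    [IsScalarTower A K R'] [IsScalarTower A R R'] [Algebra.IsPushout A K R R']
    [AddCommGroup M] [Module R M] [Module A M] [IsScalarTower A R M] (τ : R) (e : ι → M)
    (h : Function.Bijective (polyComb (A := A) τ e)) :
    Function.Bijective
      (polyComb (A := K) (algebraMap R R' τ) fun i => (1 : R') ⊗ₜ[R] e i) := by
  obtain ⟨c, hc⟩ := (bijective_polyComb_iff _ _).mp h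
  refine (bijective_polyComb_iff _ _).mpr
    ⟨(c.baseChange K).map (Algebra.IsPushout.cancelBaseChange A K R R' M).symm, fun x => ?_⟩
  rw [Module.Basis.map_apply, Module.Basis.baseChange_apply,
    Algebra.IsPushout.cancelBaseChange_symm_tmul, map_one, hc, TensorProduct.tmul_smul,
    ← map_pow, algebraMap_smul]

end BaseChange

section Invertible

variable {R M : Type*} [CommRing R] [AddCommGroup M] [Module R M]

/-- Invertibility from local generators. -/
theorem invertible_of_span
    (h : Ideal.span {g : R | ∃ (m : M) (ψ : M →ₗ[R] R), ψ m = g ∧ ∀ x, ψ x • m = g • x} = ⊤) :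
    Module.Invertible R M := by
  refine ⟨⟨?_, ?_⟩⟩
  · refine (injective_iff_map_eq_zero _).2 fun z hz => ?_
    let Ann : Ideal R := LinearMap.ker (LinearMap.toSpanSingleton R _ z)
    suffices (1 : R) ∈ Ann by simpa [Ann] using this
    rw [← Ideal.eq_top_iff_one, ← Ideal.radical_eq_top, eq_top_iff, ← h, Ideal.span_le]
    rintro g ⟨m, ψ, -, hψ⟩
    refine ⟨2, ?_⟩
    have key : ∀ y : Module.Dual R M ⊗[R] M,
        g ^ 2 • y = (g * contractLeft R M y) • (ψ ⊗ₜ[R] m) := by
      intro y
      induction y with
      | zero => simp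
      | add a b ha hb => rw [smul_add, ha, hb, map_add, mul_add, add_smul]
      | tmul f x =>
        have hf : g • f = f m • ψ := LinearMap.ext fun w => by
          have := congrArg f (hψ w)
          simp only [map_smul, smul_eq_mul] at this
          simp only [LinearMap.smul_apply, smul_eq_mul]
          rw [← this, mul_comm]
        have hfx : g * f x = ψ x * f m := by
          have := congrArg f (hψ x)
          simpa only [map_smul, smul_eq_mul] using this.symm
        rw [contractLeft_apply, hfx, pow_two, mul_smul, TensorProduct.smul_tmul', hf,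
          ← TensorProduct.smul_tmul', smul_comm, ← TensorProduct.tmul_smul, ← hψ x,
          TensorProduct.tmul_smul, smul_smul, mul_comm (ψ x)]
    simp [Ann, key, hz]
  · rw [← LinearMap.range_eq_top, eq_top_iff, ← h]
    refine Ideal.span_le.mpr ?_
    rintro g ⟨m, ψ, hm, -⟩
    exact ⟨ψ ⊗ₜ m, hm⟩

theorem mem_smul_top_properties (P : Ideal R) [P.IsMaximal]
    (h : Module.finrank (R ⧸ P) ((R ⧸ P) ⊗[R] M) = 1) :
    P • (⊤ : Submodule R M) ≠ ⊤ ∧ ∀ m : M, m ∉ P • (⊤ : Submodule R M) →
      Submodule.span R {m} ⊔ P • ⊤ = ⊤ := by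
  let g : M →ₗ[R] (R ⧸ P) ⊗[R] M :=
    (TensorProduct.quotTensorEquivQuotSMul M P).symm.toLinearMap ∘ₗ (P • ⊤ : Submodule R M).mkQ
  have hker : ∀ x, g x = 0 ↔ x ∈ P • (⊤ : Submodule R M) := fun x => by
    simp only [g, LinearMap.comp_apply, LinearEquiv.coe_coe, LinearEquiv.map_eq_zero_iff,
      Submodule.mkQ_apply, Submodule.Quotient.mk_eq_zero]
  have hsurj : Function.Surjective g :=
    (TensorProduct.quotTensorEquivQuotSMul M P).symm.surjective.comp
      (Submodule.Quotient.mk_surjective _)
  let := Ideal.Quotient.field P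
  refine ⟨fun htop => ?_, fun m hm => eq_top_iff.mpr fun x _ => ?_⟩
  · have : Subsingleton ((R ⧸ P) ⊗[R] M) := ⟨fun a b => by
      obtain ⟨a, rfl⟩ := hsurj a
      obtain ⟨b, rfl⟩ := hsurj b
      rw [(hker a).2 (by rw [htop]; trivial), (hker b).2 (by rw [htop]; trivial)]⟩
    rw [Module.finrank_zero_of_subsingleton] at h
    exact zero_ne_one h
  · obtain ⟨c, hc⟩ := exists_smul_eq_of_finrank_eq_one h (mt (hker m).1 hm) (g x)
    obtain ⟨r, rfl⟩ := Ideal.Quotient.mk_surjective c
    rw [← Ideal.Quotient.algebraMap_eq, algebraMap_smul, ← map_smul] at hc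
    refine Submodule.mem_sup.mpr ⟨r • m, Submodule.smul_mem _ _
      (Submodule.mem_span_singleton_self m), x - r • m, (hker _).1 ?_, by abel⟩
    rw [map_sub, hc, sub_self]

/-- A module which is cyclic modulo each of finitely many maximal ideals over `J` is cyclic
modulo `J`. -/
theorem exists_span_sup_eq_top [Module.Finite R M] (J : Ideal R)
    (hfinite : {P : Ideal R | P.IsMaximal ∧ J ≤ P}.Finite)
    (h : ∀ P : Ideal R, P.IsMaximal → P • (⊤ : Submodule R M) ≠ ⊤ ∧
      ∀ m : M, m ∉ P • (⊤ : Submodule R M) → Submodule.span R {m} ⊔ P • ⊤ = ⊤) :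
    ∃ m : M, Submodule.span R {m} ⊔ J • ⊤ = ⊤ := by
  classical
  obtain ⟨s, hs⟩ := hfinite.exists_finset
  have hmax : ∀ P ∈ s, P.IsMaximal := fun P hP => ((hs P).1 hP).1
  have hr : ∀ P ∈ s, ∃ m : M,
      m ∉ P • (⊤ : Submodule R M) ∧ ∀ Q ∈ s, Q ≠ P → m ∈ Q • (⊤ : Submodule R M) := by
    intro P hP
    obtain ⟨x, -, hx⟩ := SetLike.exists_of_lt ((h P (hmax P hP)).1.lt_top)
    have hnle : ¬ ∏ Q ∈ s.erase P, Q ≤ P := by
      intro hle
      obtain ⟨Q, hQ, hQP⟩ := ((hmax P hP).isPrime.prod_le).1 hle
      exact (Finset.mem_erase.1 hQ).1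
        ((hmax Q (Finset.mem_erase.1 hQ).2).eq_of_le (hmax P hP).ne_top hQP)
    obtain ⟨r, hr, hrP⟩ := SetLike.not_le_iff_exists.1 hnle
    refine ⟨r • x, fun hrx => hx ?_, fun Q hQ hQP =>
      Submodule.smul_mem_smul (Ideal.le_of_dvd
        (Finset.dvd_prod_of_mem (fun Q : Ideal R => Q) (Finset.mem_erase.2 ⟨hQP, hQ⟩)) hr)
        Submodule.mem_top⟩
    obtain ⟨a, i, hi, hai⟩ := (hmax P hP).exists_inv hrP
    have : x = a • (r • x) + i • x := by rw [smul_smul, ← add_smul, hai, one_smul]
    rw [this]
    exact add_mem (Submodule.smul_mem _ a hrx) (Submodule.smul_mem_smul hi Submodule.mem_top)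
  choose! f hf1 hf2 using hr
  refine ⟨∑ P ∈ s, f P, ?_⟩
  by_contra hne
  obtain ⟨N, hN, hle⟩ := (eq_top_or_exists_le_coatom _).resolve_left hne
  obtain ⟨P, hPmax, ⟨eq⟩⟩ := isSimpleModule_iff_quot_maximal.mp (isSimpleModule_iff_isCoatom.mpr hN)
  obtain ⟨z, hz⟩ := eq.surjective 1
  obtain ⟨z, rfl⟩ := Submodule.Quotient.mk_surjective _ z
  have hJP : J ≤ P := fun r hr => by
    rw [← Ideal.Quotient.eq_zero_iff_mem]
    have h0 : (Submodule.Quotient.mk (r • z) : M ⧸ N) = 0 :=
      (Submodule.Quotient.mk_eq_zero _).2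
        (hle (Submodule.mem_sup_right (Submodule.smul_mem_smul hr Submodule.mem_top)))
    have := congrArg eq h0
    rw [Submodule.Quotient.mk_smul, map_smul, hz, map_zero] at this
    simpa [Algebra.smul_def] using this
  have hPN : P • (⊤ : Submodule R M) ≤ N := Submodule.smul_le.mpr fun r hr y _ => by
    rw [← Submodule.Quotient.mk_eq_zero, ← eq.map_eq_zero_iff, Submodule.Quotient.mk_smul,
      map_smul, Algebra.smul_def, Ideal.Quotient.algebraMap_eq,
      Ideal.Quotient.eq_zero_iff_mem.2 hr, zero_mul]
  have hPs : P ∈ s := (hs P).2 ⟨hPmax, hJP⟩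
  refine hN.1 (top_le_iff.1 (le_trans (le_of_eq ((h P hPmax).2 (∑ P ∈ s, f P) ?_).symm)
    (sup_le (le_trans le_sup_left hle) hPN)))
  rw [← Finset.add_sum_erase _ _ hPs]
  intro hmem
  refine hf1 P hPs ((Submodule.add_mem_iff_left _ (Submodule.sum_mem _ fun Q hQ => ?_)).1 hmem)
  exact hf2 Q (Finset.mem_erase.1 hQ).2 P hPs (Finset.mem_erase.1 hQ).1.symm

/-- Two modules free of the same rank over `T`: invertibility from cyclicity over each maximal
ideal of `T`. -/
theorem invertible_of_bases {T ι : Type*} [CommRing T] [Algebra T R] [Module T M]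
    [IsScalarTower T R M] [Fintype ι] (b : Module.Basis ι T R) (e : Module.Basis ι T M)
    (h : ∀ n : Ideal T, n.IsMaximal →
      ∃ m : M, Submodule.span R {m} ⊔ n.map (algebraMap T R) • ⊤ = ⊤) :
    Module.Invertible R M := by
  classical
  apply invertible_of_span
  let D : Set T := {δ | ∃ m : M,
    δ = (LinearMap.toMatrix b e ((LinearMap.toSpanSingleton R M m).restrictScalars T)).det}
  have hD : Ideal.span D = ⊤ := by
    by_contra hne
    obtain ⟨n, hn, hle⟩ := Ideal.exists_le_maximal _ hne
    obtain ⟨m, hm⟩ := h n hn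
    let G := LinearMap.toMatrix b e ((LinearMap.toSpanSingleton R M m).restrictScalars T)
    have hcol : ∀ j, ∃ r : R, ∀ i, e.repr (e j - r • m) i ∈ n := fun j => by
      have hj : e j ∈ Submodule.span R {m} ⊔ n.map (algebraMap T R) • ⊤ := by rw [hm]; trivial
      obtain ⟨y, hy, z, hz, hyz⟩ := Submodule.mem_sup.1 hj
      obtain ⟨r, rfl⟩ := Submodule.mem_span_singleton.1 hy
      refine ⟨r, fun i => ?_⟩
      have hz' : z ∈ n • (⊤ : Submodule T M) := by
        rw [← Submodule.restrictScalars_top T R M, ← Ideal.smul_restrictScalars]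
        exact hz
      rw [show e j - r • m = z by rw [← hyz]; abel]
      refine Submodule.smul_induction_on (p := fun z => e.repr z i ∈ n) hz' ?_ ?_
      · intro a ha x _
        simpa using n.mul_mem_right _ ha
      · intro x y hx hy
        simpa using n.add_mem hx hy
    choose r hr using hcol
    let H : Matrix ι ι T := Matrix.of fun i j => b.repr (r j) i
    have hGH : (G * H).map (Ideal.Quotient.mk n) = 1 := by
      ext i j
      have hmv : (G * H) i j = e.repr (r j • m) i := by
        have := congrFun (LinearMap.toMatrix_mulVec_repr b e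
          ((LinearMap.toSpanSingleton R M m).restrictScalars T) (r j)) i
        simpa [G, H, Matrix.mul_apply, Matrix.mulVec, dotProduct] using this
      have := Ideal.Quotient.eq.2 (by simpa using hr j i :
        e.repr (e j) i - e.repr (r j • m) i ∈ n)
      rw [Matrix.map_apply, hmv, ← this, Matrix.one_apply, e.repr_self, Finsupp.single_apply]
      by_cases hij : i = j <;> simp [hij, eq_comm]
    have hdet : Ideal.Quotient.mk n (G.det * H.det) = 1 := by
      rw [← Matrix.det_mul, RingHom.map_det, RingHom.mapMatrix_apply, hGH, Matrix.det_one]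
    rw [map_mul, Ideal.Quotient.eq_zero_iff_mem.2 (hle (Ideal.subset_span ⟨m, rfl⟩)),
      zero_mul] at hdet
    have := Ideal.Quotient.nontrivial_iff.2 hn.ne_top
    exact one_ne_zero hdet.symm
  have := congrArg (Ideal.map (algebraMap T R)) (Ideal.span_pow_eq_top D hD 2)
  rw [Ideal.map_span, Ideal.map_top] at this
  rw [eq_top_iff, ← this, Ideal.span_le]
  rintro _ ⟨_, ⟨δ, ⟨m, rfl⟩, rfl⟩, rfl⟩
  refine Ideal.subset_span ?_
  let Φ : R →ₗ[T] M := (LinearMap.toSpanSingleton R M m).restrictScalars T
  let G := LinearMap.toMatrix b e Φ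
  let ψ₀ : M →ₗ[T] R := Matrix.toLin e b G.adjugate
  have h1 : Φ ∘ₗ ψ₀ = G.det • LinearMap.id := by
    rw [← Matrix.toLin_toMatrix b e Φ, ← Matrix.toLin_mul, Matrix.mul_adjugate, map_smul,
      Matrix.toLin_one]
  have h2 : ψ₀ ∘ₗ Φ = G.det • LinearMap.id := by
    rw [← Matrix.toLin_toMatrix b e Φ, ← Matrix.toLin_mul, Matrix.adjugate_mul, map_smul,
      Matrix.toLin_one]
  have h1' : ∀ x, ψ₀ x • m = G.det • x := fun x => LinearMap.congr_fun h1 x
  have h2' : ∀ r : R, ψ₀ (r • m) = G.det • r := fun r => LinearMap.congr_fun h2 r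
  let ψ : M →ₗ[R] R :=
    { toFun := fun x => ψ₀ (G.det • x)
      map_add' := fun x y => by rw [smul_add, map_add]
      map_smul' := fun r x => by
        rw [smul_comm, ← h1' x, smul_smul, h2', h2', RingHom.id_apply, smul_eq_mul,
          mul_smul_comm] }
  refine ⟨m, ψ, ?_, fun x => ?_⟩
  · show ψ₀ (G.det • m) = _
    rw [map_smul, ← one_smul R m, h2', smul_smul, Algebra.smul_def, mul_one, one_smul, ← pow_two]
  · show ψ₀ (G.det • x) • m = algebraMap T R (G.det ^ 2) • x
    rw [algebraMap_smul, h1', smul_smul, pow_two]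

end Invertible

section RankOne

/-- The dimension of a fibre of a finite flat module over a domain. -/
theorem finrank_fibre_eq_finrank {S L N : Type*} [CommRing S] [IsDomain S] [AddCommGroup N]
    [Module S N] [Module.Finite S N] [Module.Flat S N] [Field L] [Algebra S L] :
    Module.finrank L (L ⊗[S] N) = Module.finrank S N := by
  have h := Module.rankAtStalk_baseChange (R := S) (M := N) (S := L)
    (⟨⊥, Ideal.isPrime_bot⟩ : PrimeSpectrum L)
  rw [Module.rankAtStalk_eq_finrank_of_free, Module.rankAtStalk_eq,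
    Ideal.finrank_fiber_eq_finrank] at h
  simpa using h

variable {K S N : Type*} [Field K] [CommRing S] [IsDomain S] [Algebra K S]
  [AddCommGroup N] [Module S N] [Module K N] [IsScalarTower K S N] {d : ℕ}

theorem finrank_eq_one_of_polyComb (τ : S) (c : Fin d → S)
    (hc : Function.Bijective (polyComb (A := K) τ c)) (e : Fin d → N)
    (he : Function.Bijective (polyComb (A := K) τ e)) :
    Module.IsTorsionFree S N ∧ Module.Finite S N ∧ Module.finrank S N = 1 := by
  let : Algebra (Polynomial K) S := (Polynomial.aeval τ).toRingHom.toAlgebra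
  let : Module (Polynomial K) N := Module.compHom N (Polynomial.aeval τ).toRingHom
  have : IsScalarTower (Polynomial K) S N := ⟨fun p s x => mul_smul _ s x⟩
  obtain ⟨bS, -⟩ := exists_basis_of_polyComb τ c (fun _ _ => rfl) hc
  obtain ⟨bN, -⟩ := exists_basis_of_polyComb τ e (fun _ _ => rfl) he
  have : Module.Finite (Polynomial K) S := Module.Finite.of_basis bS
  have : Module.Finite (Polynomial K) N := Module.Finite.of_basis bN
  have : Module.Finite S N := Module.Finite.of_restrictScalars_finite (Polynomial K) S N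
  have hzero : ∀ (s : S) (x : N), s • x = 0 → s ≠ 0 → x = 0 := by
    intro s x hsx hs
    have hne := Ideal.comap_ne_bot_of_integral_mem (R := Polynomial K) hs
      (Ideal.mem_span_singleton_self s) (Algebra.IsIntegral.isIntegral s)
    obtain ⟨f, hf, hf0⟩ := Submodule.exists_mem_ne_zero_of_ne_bot hne
    obtain ⟨a, ha⟩ := Ideal.mem_span_singleton'.1 (Ideal.mem_comap.1 hf)
    have hfx : f • x = 0 := by rw [← algebraMap_smul S f, ← ha, mul_smul, hsx, smul_zero]
    apply bN.repr.injective
    rw [map_zero]
    ext i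
    have := congrArg (fun y => bN.repr y i) hfx
    simp only [map_smul, map_zero, Finsupp.smul_apply, Finsupp.zero_apply, smul_eq_mul] at this
    rw [Finsupp.zero_apply, (mul_eq_zero.1 this).resolve_left hf0]
  have : Module.IsTorsionFree S N := ⟨fun s hs x y hxy => by
    refine sub_eq_zero.1 (hzero s _ ?_ hs.ne_zero)
    rw [smul_sub]
    exact sub_eq_zero.2 hxy⟩
  refine ⟨this, inferInstance, ?_⟩
  obtain ⟨i₀⟩ := bS.index_nonempty
  have : Nontrivial N := ⟨bN i₀, 0, bN.ne_zero i₀⟩
  obtain ⟨v, hv⟩ := exists_linearIndependent_of_le_finrank (R := S) (M := N) le_rfl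
  have hle := (linearIndependent_smul bS.linearIndependent hv).fintype_card_le_finrank
  rw [Module.finrank_eq_card_basis bN, Fintype.card_prod, Fintype.card_fin,
    Fintype.card_fin] at hle
  have hd : 0 < d := i₀.pos
  have hpos : 0 < Module.finrank S N := Module.finrank_pos
  nlinarith

end RankOne

section Fibre

theorem finrank_tensor_eq_one {A R K R' M : Type*} [CommRing A] [CommRing R] [Field K]
    [CommRing R'] [Algebra A K] [Algebra A R] [Algebra A R'] [Algebra K R'] [Algebra R R']
    [IsScalarTower A K R'] [IsScalarTower A R R'] [Algebra.IsPushout A K R R']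
    [IsDedekindDomain R'] [Algebra R K] [Algebra R' K] [IsScalarTower R R' K]
    [AddCommGroup M] [Module R M] [Module A M] [IsScalarTower A R M] {d : ℕ} (τ : R)
    (c : Fin d → R') (hc : Function.Bijective (polyComb (A := K) (algebraMap R R' τ) c))
    (e : Fin d → M) (he : Function.Bijective (polyComb (A := A) τ e)) :
    Module.finrank K (K ⊗[R] M) = 1 := by
  obtain ⟨htf, hfin, hrank⟩ := finrank_eq_one_of_polyComb (algebraMap R R' τ) c hc _
    (bijective_polyComb_pushout (K := K) (R' := R') τ e he)
  rw [← (TensorProduct.AlgebraTensorModule.cancelBaseChange R R' K K M).finrank_eq,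
    finrank_fibre_eq_finrank, hrank]

end Fibre

variable {k : Type u} [Field k] [IsAlgClosed k]

section Chart

variable {B : Type u} [CommRing B] [Algebra k B] (t : B)
  (hfin : (Polynomial.aeval (R := k) t).toRingHom.Finite) (htr : Transcendental k t)
  (hded : ∀ (K : Type u) [Field K] [IsAlgClosed K] [Algebra k K], IsDedekindDomain (K ⊗[k] B))

omit [IsAlgClosed k] in
/-- A chart which is a domain has a basis over the coordinate line of cardinality the degree. -/
theorem exists_polyComb_bijective [IsDomain B]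
    (hfin : (Polynomial.aeval (R := k) t).toRingHom.Finite) (htr : Transcendental k t)
    {d : ℕ} (hd : Module.finrank k (B ⧸ Ideal.span {t}) = d) :
    ∃ b : Fin d → B, Function.Bijective (polyComb (A := k) t b) := by
  let : Algebra (Polynomial k) B := (Polynomial.aeval t).toRingHom.toAlgebra
  have : Module.Finite (Polynomial k) B := hfin
  have : IsScalarTower k (Polynomial k) B :=
    IsScalarTower.of_algebraMap_eq fun x => ((Polynomial.aeval t).commutes x).symm
  have hinj : Function.Injective (algebraMap (Polynomial k) B) :=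
    transcendental_iff_injective.1 htr
  have : FaithfulSMul (Polynomial k) B := (faithfulSMul_iff_algebraMap_injective _ _).2 hinj
  let b := Module.finBasis (Polynomial k) B
  let ψ : B →ₗ[k] Fin (Module.finrank (Polynomial k) B) → k :=
    LinearMap.pi fun i => Polynomial.leval 0 ∘ₗ
      ((LinearMap.proj i ∘ₗ b.equivFun.toLinearMap).restrictScalars k)
  have hψ : ∀ x i, ψ x i = (b.equivFun x i).eval 0 := fun _ _ => rfl
  have hsurj : Function.Surjective ψ := fun v =>
    ⟨b.equivFun.symm fun i => Polynomial.C (v i), by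
      ext i; rw [hψ, LinearEquiv.apply_symm_apply, Polynomial.eval_C]⟩
  have hker : LinearMap.ker ψ = (Ideal.span {t}).restrictScalars k := by
    ext x
    rw [Submodule.restrictScalars_mem, LinearMap.mem_ker, Ideal.mem_span_singleton]
    constructor
    · intro hx
      have hdvd : ∀ i, Polynomial.X ∣ b.equivFun x i := fun i => by
        rw [Polynomial.X_dvd_iff, Polynomial.coeff_zero_eq_eval_zero]
        exact congrFun hx i
      choose q hq using hdvd
      refine ⟨∑ i, q i • b i, ?_⟩
      rw [← b.sum_equivFun x, Finset.mul_sum]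
      refine Finset.sum_congr rfl fun i _ => ?_
      rw [hq, mul_smul, Algebra.smul_def, show algebraMap (Polynomial k) B Polynomial.X = t from
        Polynomial.aeval_X t]
    · rintro ⟨y, rfl⟩
      ext i
      have : t * y = (Polynomial.X : Polynomial k) • y := by
        rw [Algebra.smul_def, show algebraMap (Polynomial k) B Polynomial.X = t from
          Polynomial.aeval_X t]
      rw [hψ, this, map_smul]
      simp
  have hn : Module.finrank k (B ⧸ Ideal.span {t}) = Module.finrank (Polynomial k) B := by
    rw [← (Submodule.Quotient.restrictScalarsEquiv k (Ideal.span {t})).finrank_eq,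
      ← (Submodule.quotEquivOfEq _ _ hker).finrank_eq,
      (ψ.quotKerEquivOfSurjective hsurj).finrank_eq, Module.finrank_fin_fun]
  obtain rfl := hn.symm.trans hd
  refine ⟨b, ?_⟩
  convert b.equivFun.symm.bijective using 1
  funext p
  rw [polyComb_apply, Module.Basis.equivFun_symm_apply]
  exact Finset.sum_congr rfl fun i _ => (Algebra.smul_def (p i) (b i)).symm

omit [IsAlgClosed k] in
include hfin in
/-- The fibre over zero is finite. -/
theorem finite_quot_coord : Module.Finite k (B ⧸ Ideal.span {t}) := by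
  rw [← RingHom.finite_algebraMap]
  refine RingHom.Finite.of_comp_finite (f := Polynomial.constantCoeff) ?_
  have hcomp : (algebraMap k (B ⧸ Ideal.span {t})).comp Polynomial.constantCoeff =
      (Ideal.Quotient.mk (Ideal.span {t})).comp (Polynomial.aeval (R := k) t).toRingHom := by
    refine Polynomial.ringHom_ext (fun a => ?_) ?_
    · show algebraMap k _ (Polynomial.constantCoeff (Polynomial.C a)) =
        Ideal.Quotient.mk _ (Polynomial.aeval t (Polynomial.C a))
      rw [Polynomial.aeval_C, Polynomial.constantCoeff_apply, Polynomial.coeff_C_zero]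
      rfl
    · show algebraMap k _ (Polynomial.constantCoeff Polynomial.X) =
        Ideal.Quotient.mk _ (Polynomial.aeval t Polynomial.X)
      rw [Polynomial.aeval_X, Polynomial.constantCoeff_apply, Polynomial.coeff_X_zero, map_zero,
        Ideal.Quotient.eq_zero_iff_mem.2 (Ideal.mem_span_singleton_self t)]
  rw [hcomp]
  exact (RingHom.Finite.of_surjective _ Ideal.Quotient.mk_surjective).comp hfin

omit [IsAlgClosed k] in
include hfin in
/-- An invertible module over a chart over a field has fibre over zero of rank the degree. -/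
theorem finrank_fibre_of_invertible {K : Type u} [Field K] [Algebra k K]
    {M : Type u} [AddCommGroup M] [Module (K ⊗[k] B) M] [Module K M]
    [IsScalarTower K (K ⊗[k] B) M] [Module.Invertible (K ⊗[k] B) M] :
    Module.Finite K (M ⧸ (Ideal.span {((1 : K) ⊗ₜ[k] t)} • (⊤ : Submodule (K ⊗[k] B) M))) ∧
    Module.finrank K (M ⧸ (Ideal.span {((1 : K) ⊗ₜ[k] t)} • (⊤ : Submodule (K ⊗[k] B) M))) =
      Module.finrank k (B ⧸ Ideal.span {t}) := by
  have := finite_quot_coord t hfin
  let I : Ideal (K ⊗[k] B) := Ideal.span {((1 : K) ⊗ₜ[k] t)}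
  have hI : (Ideal.span {t}).map
      (Algebra.TensorProduct.includeRight : B →ₐ[k] K ⊗[k] B) = I := by
    rw [Ideal.map_span, Set.image_singleton]
    rfl
  let eI : K ⊗[k] (B ⧸ Ideal.span {t}) ≃ₐ[K] (K ⊗[k] B) ⧸ I :=
    (Algebra.TensorProduct.tensorQuotientEquiv (R := k) K B K (Ideal.span {t})).trans
      (Ideal.quotientEquivAlgOfEq K hI)
  have : Module.Finite K ((K ⊗[k] B) ⧸ I) := Module.Finite.equiv eI.toLinearEquiv
  have : IsArtinianRing ((K ⊗[k] B) ⧸ I) := IsArtinianRing.of_finite K _
  obtain ⟨f⟩ := (Module.Invertible.free_iff_linearEquiv (R := (K ⊗[k] B) ⧸ I)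
    (M := ((K ⊗[k] B) ⧸ I) ⊗[K ⊗[k] B] M)).1 inferInstance
  let e : (M ⧸ I • (⊤ : Submodule (K ⊗[k] B) M)) ≃ₗ[K] (K ⊗[k] B) ⧸ I :=
    ((TensorProduct.quotTensorEquivQuotSMul M I).symm.restrictScalars K).trans
      (f.restrictScalars K)
  refine ⟨Module.Finite.equiv e.symm, ?_⟩
  show Module.finrank K (M ⧸ I • (⊤ : Submodule (K ⊗[k] B) M)) = _
  rw [e.finrank_eq, ← eI.toLinearEquiv.finrank_eq, Module.finrank_baseChange]

omit [IsAlgClosed k] in
include hded in
/-- The fibre at a point of a module free over the coordinate line has dimension one. -/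
theorem finrank_residue_eq_one {A : Type u} [CommRing A] [Algebra k A]
    {M : Type u} [AddCommGroup M] [Module (A ⊗[k] B) M] [Module A M]
    [IsScalarTower A (A ⊗[k] B) M] {d : ℕ} (b : Fin d → B)
    (hb : Function.Bijective (polyComb (A := k) t b)) (e : Fin d → M)
    (he : Function.Bijective (polyComb (A := A) ((1 : A) ⊗ₜ[k] t : A ⊗[k] B) e))
    {F : Type u} [Field F] [Algebra (A ⊗[k] B) F]
    {K : Type u} [Field K] [IsAlgClosed K] [Algebra F K] :
    Module.finrank F (F ⊗[A ⊗[k] B] M) = 1 := by
  let χ : A ⊗[k] B →+* K := (algebraMap F K).comp (algebraMap (A ⊗[k] B) F)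
  let : Algebra A K := (χ.comp (algebraMap A (A ⊗[k] B))).toAlgebra
  let : Algebra k K := ((algebraMap A K).comp (algebraMap k A)).toAlgebra
  have : IsScalarTower k A K := IsScalarTower.of_algebraMap_eq fun _ => rfl
  let : Algebra (A ⊗[k] B) (K ⊗[k] B) :=
    (Algebra.TensorProduct.map (Algebra.ofId A K) (AlgHom.id k B)).toRingHom.toAlgebra
  have : IsScalarTower A (A ⊗[k] B) (K ⊗[k] B) :=
    IsScalarTower.of_algebraMap_eq fun a =>
      ((Algebra.TensorProduct.map (Algebra.ofId A K) (AlgHom.id k B)).commutes a).symm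
  have : Algebra.IsPushout A K (A ⊗[k] B) (K ⊗[k] B) :=
    Algebra.IsPushout.tensorProduct_tensorProduct k B A K (RingHom.ext fun x => by
      simp [RingHom.algebraMap_toAlgebra, ← Algebra.TensorProduct.one_def])
  let ψ : B →ₐ[k] K :=
    { χ.comp (Algebra.TensorProduct.includeRight : B →ₐ[k] A ⊗[k] B).toRingHom with
      commutes' := fun x =>
        congrArg χ (AlgHom.commutes (Algebra.TensorProduct.includeRight : B →ₐ[k] A ⊗[k] B) x) }
  let π : K ⊗[k] B →+* K :=
    (Algebra.TensorProduct.lift (AlgHom.id K K) ψ fun _ _ => Commute.all _ _).toRingHom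
  have hπ : ∀ x : A ⊗[k] B, χ x = π (algebraMap (A ⊗[k] B) (K ⊗[k] B) x) := fun x => by
    induction x with
    | zero => simp
    | add x y hx hy => simp only [map_add, hx, hy]
    | tmul a c =>
      have hac : a ⊗ₜ[k] c = algebraMap A (A ⊗[k] B) a * (1 : A) ⊗ₜ[k] c := by simp
      conv_lhs => rw [hac, map_mul]
      simp [π, ψ, RingHom.algebraMap_toAlgebra]
  have hτ : algebraMap (A ⊗[k] B) (K ⊗[k] B) ((1 : A) ⊗ₜ[k] t) = (1 : K) ⊗ₜ[k] t := by
    simp [RingHom.algebraMap_toAlgebra, ← Algebra.TensorProduct.one_def]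
  let : Algebra (K ⊗[k] B) K := π.toAlgebra
  let : Algebra (A ⊗[k] B) K := χ.toAlgebra
  have := IsScalarTower.of_algebraMap_eq
    (R := A ⊗[k] B) (S := K ⊗[k] B) (A := K) hπ
  have : IsScalarTower (A ⊗[k] B) F K :=
    IsScalarTower.of_algebraMap_eq (R := A ⊗[k] B) (S := F) (A := K) fun _ => rfl
  have := hded K
  have hK := finrank_tensor_eq_one (R' := K ⊗[k] B) (K := K) ((1 : A) ⊗ₜ[k] t : A ⊗[k] B)
    (fun i => (1 : K) ⊗ₜ[k] b i) (by rw [hτ]; exact bijective_polyComb_tensor t b hb) e he
  rw [← (TensorProduct.AlgebraTensorModule.cancelBaseChange (A ⊗[k] B) F K K M).finrank_eq,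
    Module.finrank_baseChange] at hK
  exact hK

include hfin htr hded in
/-- **Criterion**: free of rank the degree over the coordinate line implies invertible. -/
theorem invertible_of_polyBasis {A : Type u} [CommRing A] [Algebra k A]
    {M : Type u} [AddCommGroup M] [Module (A ⊗[k] B) M] [Module A M]
    [IsScalarTower A (A ⊗[k] B) M] {d : ℕ} (hd : Module.finrank k (B ⧸ Ideal.span {t}) = d)
    (e : Fin d → M)
    (he : Function.Bijective fun p : Fin d → Polynomial A =>
      ∑ i, Polynomial.aeval (((1 : A) ⊗ₜ[k] t : A ⊗[k] B)) (p i) • e i) :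
    Module.Invertible (A ⊗[k] B) M := by
  have hB : IsDomain B := by
    have := hded k
    exact (Algebra.TensorProduct.lid k B).symm.toMulEquiv.isDomain
  obtain ⟨b, hb⟩ := exists_polyComb_bijective t hfin htr hd
  let τ : A ⊗[k] B := (1 : A) ⊗ₜ[k] t
  have he' : Function.Bijective (polyComb (A := A) τ e) := he
  let : Algebra (Polynomial A) (A ⊗[k] B) := (Polynomial.aeval τ).toRingHom.toAlgebra
  let : Module (Polynomial A) M := Module.compHom M (Polynomial.aeval τ).toRingHom
  have : IsScalarTower (Polynomial A) (A ⊗[k] B) M := ⟨fun p s x => mul_smul _ s x⟩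
  obtain ⟨bR, -⟩ := exists_basis_of_polyComb τ _ (fun _ _ => rfl)
    (bijective_polyComb_tensor (A := A) t b hb)
  obtain ⟨bM, -⟩ := exists_basis_of_polyComb τ e (fun _ _ => rfl) he'
  have : Module.Finite (Polynomial A) (A ⊗[k] B) := Module.Finite.of_basis bR
  have : Module.Finite (Polynomial A) M := Module.Finite.of_basis bM
  have : Module.Finite (A ⊗[k] B) M :=
    Module.Finite.of_restrictScalars_finite (Polynomial A) _ M
  refine invertible_of_bases bR bM fun n hn => exists_span_sup_eq_top _ ?_ fun P hP => ?_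
  · refine (Algebra.QuasiFinite.finite_primesOver n).subset ?_
    rintro P ⟨hP, hle⟩
    exact ⟨hP.isPrime, ⟨hn.eq_of_le (Ideal.comap_ne_top _ hP.ne_top)
      (Ideal.map_le_iff_le_comap.1 hle)⟩⟩
  · apply mem_smul_top_properties
    let := Ideal.Quotient.field P
    exact finrank_residue_eq_one t hded b hb e he' (F := (A ⊗[k] B) ⧸ P)
      (K := AlgebraicClosure ((A ⊗[k] B) ⧸ P))

end Chart

section Degree

omit [IsAlgClosed k] in
/-- One inequality between the degrees of two charts glued along inverse coordinates. -/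
theorem finrank_le_of_glue {B0 B1 B01 : Type*} [CommRing B0] [CommRing B1] [CommRing B01]
    [Algebra k B0] [Algebra k B1] [Algebra k B01] (i0 : B0 →ₐ[k] B01) (i1 : B1 →ₐ[k] B01)
    (hi1 : Function.Injective i1) (t : B0) (s : B1) (hts : i0 t * i1 s = 1)
    (hsurj : ∀ x : B01, ∃ (n : ℕ) (y : B0), i0 y = i0 t ^ n * x) {d0 d1 : ℕ}
    (b0 : Fin d0 → B0) (h0 : Function.Bijective (polyComb (A := k) t b0))
    (b1 : Fin d1 → B1) (h1 : Function.Bijective (polyComb (A := k) s b1)) : d1 ≤ d0 := by
  choose n y hy using fun j => hsurj (i1 (b1 j))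
  let : Algebra (Polynomial k) B0 := (Polynomial.aeval t).toRingHom.toAlgebra
  obtain ⟨c, -⟩ := exists_basis_of_polyComb t b0 (fun _ _ => rfl) h0
  have : Module.Finite (Polynomial k) B0 := Module.Finite.of_basis c
  suffices hli : LinearIndependent (Polynomial k) y by
    simpa [Module.finrank_eq_card_basis c] using hli.fintype_card_le_finrank
  rw [Fintype.linearIndependent_iff]
  intro p hp
  have hsum : ∑ j, Polynomial.aeval (i0 t) (Polynomial.X ^ n j * p j) * i1 (b1 j) = 0 := by
    have := congrArg i0 hp
    rw [map_sum, map_zero] at this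
    rw [← this]
    refine Finset.sum_congr rfl fun j _ => ?_
    rw [show p j • y j = Polynomial.aeval t (p j) * y j from rfl]
    simp only [map_mul, map_pow, hy, ← Polynomial.aeval_algHom_apply, Polynomial.aeval_X]
    ring
  let N : ℕ := Finset.univ.sup fun j => (Polynomial.X ^ n j * p j).natDegree
  let r : Fin d1 → Polynomial k := fun j => Polynomial.reflect N (Polynomial.X ^ n j * p j)
  let : Invertible (i0 t) := ⟨i1 s, by rw [mul_comm]; exact hts, hts⟩
  have hr : ∀ j, Polynomial.aeval (i1 s) (r j) =
      Polynomial.aeval (i0 t) (Polynomial.X ^ n j * p j) * i1 s ^ N := fun j => by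
    have h := Polynomial.eval₂_reflect_mul_pow (algebraMap k B01) (i0 t) N
      (Polynomial.X ^ n j * p j)
      (Finset.le_sup (f := fun j => (Polynomial.X ^ n j * p j).natDegree) (Finset.mem_univ j))
    simp only [Polynomial.aeval_def]
    rw [← h, mul_assoc, ← mul_pow, hts, one_pow, mul_one]
    rfl
  have hzero : polyComb (A := k) s b1 r = 0 := by
    apply hi1
    rw [polyComb_apply, map_sum, map_zero, ← zero_mul (i1 s ^ N), ← hsum, Finset.sum_mul]
    refine Finset.sum_congr rfl fun j _ => ?_
    rw [smul_eq_mul, map_mul, ← Polynomial.aeval_algHom_apply, hr]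
    ring
  intro j
  have hj : r j = 0 := congrFun (h1.1 (hzero.trans (map_zero _).symm)) j
  rw [Polynomial.reflect_eq_zero_iff] at hj
  exact (mul_eq_zero.1 hj).resolve_left (pow_ne_zero _ Polynomial.X_ne_zero)

end Degree

namespace CurveModel

variable (m : CurveModel k)

/-- The degree of the map to the line. -/
noncomputable def deg : ℕ := Module.finrank k (m.B0 ⧸ Ideal.span {m.t})

theorem isDomain_B0 : IsDomain m.B0 := by
  have := m.dedekind0 k
  exact (Algebra.TensorProduct.lid k m.B0).symm.toMulEquiv.isDomain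

theorem isDomain_B1 : IsDomain m.B1 := by
  have := m.dedekind1 k
  exact (Algebra.TensorProduct.lid k m.B1).symm.toMulEquiv.isDomain

/-- The two charts have the same degree. -/
theorem finrank_quot_s : Module.finrank k (m.B1 ⧸ Ideal.span {m.s}) = m.deg := by
  have := m.isDomain_B0
  have := m.isDomain_B1
  obtain ⟨b0, h0⟩ := exists_polyComb_bijective m.t m.finite0 m.transcendental0 rfl
  obtain ⟨b1, h1⟩ := exists_polyComb_bijective m.s m.finite1 m.transcendental1 rfl
  exact le_antisymm
    (finrank_le_of_glue m.i0 m.i1 m.i1_injective m.t m.s m.t_mul_s m.surj0 b0 h0 b1 h1)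
    (finrank_le_of_glue m.i1 m.i0 m.i0_injective m.s m.t ((mul_comm _ _).trans m.t_mul_s)
      m.surj1 b1 h1 b0 h0)

/-- Rational points of the first chart with distinct nonzero coordinates. -/
theorem exists_points (n : ℕ) : ∃ q : Fin n → (m.B0 →ₐ[k] k),
    Function.Injective (fun i => q i m.t) ∧ ∀ i, q i m.t ≠ 0 := by
  have hq : ∀ τ : k, ∃ q : m.B0 →ₐ[k] k, q m.t = τ := by
    intro τ
    let : Algebra (Polynomial k) m.B0 := (Polynomial.aeval m.t).toRingHom.toAlgebra
    have : Module.Finite (Polynomial k) m.B0 := m.finite0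
    have hmax : (Ideal.span {Polynomial.X - Polynomial.C τ}).IsMaximal :=
      PrincipalIdealRing.isMaximal_of_irreducible (Polynomial.irreducible_X_sub_C τ)
    obtain ⟨Q, hQ, hQτ⟩ := Ideal.exists_ideal_over_maximal_of_isIntegral (S := m.B0)
      (Ideal.span {Polynomial.X - Polynomial.C τ}) (by
        rw [(RingHom.injective_iff_ker_eq_bot (algebraMap (Polynomial k) m.B0)).1
          (transcendental_iff_injective.1 m.transcendental0)]
        exact bot_le)
    have hτ : m.t - algebraMap k m.B0 τ ∈ Q := by
      have : Polynomial.X - Polynomial.C τ ∈ Q.comap (algebraMap (Polynomial k) m.B0) := by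
        rw [hQτ]; exact Ideal.mem_span_singleton_self _
      simpa [RingHom.algebraMap_toAlgebra] using this
    have : Module.Finite k (m.B0 ⧸ Q) := by
      rw [← RingHom.finite_algebraMap]
      refine RingHom.Finite.of_comp_finite (f := (Polynomial.aeval (R := k) τ).toRingHom) ?_
      have hcomp : (algebraMap k (m.B0 ⧸ Q)).comp (Polynomial.aeval (R := k) τ).toRingHom =
          (Ideal.Quotient.mk Q).comp (Polynomial.aeval (R := k) m.t).toRingHom := by
        refine Polynomial.ringHom_ext (fun a => ?_) ?_
        · show algebraMap k _ (Polynomial.aeval τ (Polynomial.C a)) =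
            Ideal.Quotient.mk Q (Polynomial.aeval m.t (Polynomial.C a))
          rw [Polynomial.aeval_C, Polynomial.aeval_C]
          rfl
        · show algebraMap k _ (Polynomial.aeval τ Polynomial.X) =
            Ideal.Quotient.mk Q (Polynomial.aeval m.t Polynomial.X)
          rw [Polynomial.aeval_X, Polynomial.aeval_X]
          exact (Ideal.Quotient.eq.2 hτ).symm
      rw [hcomp]
      exact (RingHom.Finite.of_surjective _ Ideal.Quotient.mk_surjective).comp m.finite0
    let := Ideal.Quotient.field Q
    let eQ : k ≃ₐ[k] m.B0 ⧸ Q :=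
      AlgEquiv.ofBijective (Algebra.ofId k (m.B0 ⧸ Q))
        IsAlgClosed.algebraMap_bijective_of_isIntegral
    refine ⟨eQ.symm.toAlgHom.comp (Ideal.Quotient.mkₐ k Q), ?_⟩
    show eQ.symm (Ideal.Quotient.mk Q m.t) = τ
    rw [AlgEquiv.symm_apply_eq]
    exact Ideal.Quotient.eq.2 hτ
  choose q hq using hq
  have : Set.Infinite ({0}ᶜ : Set k) := (Set.finite_singleton 0).infinite_compl
  refine ⟨fun i => q (this.natEmbedding _ i), fun i j hij => ?_, fun i => ?_⟩
  · simp only [hq] at hij
    exact Fin.val_injective ((this.natEmbedding _).injective (Subtype.ext hij))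
  · rw [hq]
    exact (this.natEmbedding _ i).2

end CurveModel

end Fermat.Agent.Jac
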