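import Mathlib

/-!
# Polynomial coordinates on a module

A family `e` in a module over an algebra with a distinguished element `t` gives coordinates by
polynomials in `t`; when these are bijective, scalars act by matrices of polynomials.
-/

set_option autoImplicit false

universe u

open Polynomial

namespace Fermat.Agent.Jac

section RevPoly

variable {A : Type u} [CommRing A]

/-- Reverse a polynomial of degree at most `n`; higher coefficients are forgotten. -/
noncomputable def revPoly (n : ℕ) (f : A[X]) : A[X] :=
  ∑ j ∈ Finset.range (n + 1), monomial (n - j) (f.coeff j)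

theorem coeff_revPoly (n : ℕ) (f : A[X]) (i : ℕ) :
    (revPoly n f).coeff i = if i ≤ n then f.coeff (n - i) else 0 := by
  rw [revPoly, finsetSum_coeff]
  simp only [coeff_monomial]
  split_ifs with hi
  · rw [Finset.sum_eq_single (n - i)]
    · rw [if_pos (by omega)]
    · intro j hj hne
      have := Finset.mem_range.1 hj
      rw [if_neg (by omega)]
    · intro h
      exact absurd (Finset.mem_range.2 (by omega)) h
  · exact Finset.sum_eq_zero fun j _ => if_neg (by omega)

theorem natDegree_revPoly_le (n : ℕ) (f : A[X]) : (revPoly n f).natDegree ≤ n :=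
  natDegree_le_iff_coeff_eq_zero.2 fun i hi => by rw [coeff_revPoly, if_neg (by omega)]

theorem map_revPoly {A' : Type u} [CommRing A'] (φ : A →+* A') (n : ℕ) (f : A[X]) :
    (revPoly n f).map φ = revPoly n (f.map φ) := by
  ext i
  rw [coeff_map, coeff_revPoly, coeff_revPoly, coeff_map]
  split_ifs <;> simp

/-- Substituting an inverse reverses a polynomial. -/
theorem aeval_revPoly {R : Type u} [CommRing R] [Algebra A R] {T S : R} (hTS : T * S = 1)
    (n : ℕ) (f : A[X]) (hf : f.natDegree ≤ n) :
    T ^ n * aeval S f = aeval T (revPoly n f) := by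
  rw [revPoly, aeval_eq_sum_range' (Nat.lt_succ_of_le hf), Finset.mul_sum, map_sum]
  refine Finset.sum_congr rfl fun j hj => ?_
  have hjn : j ≤ n := Nat.lt_succ_iff.1 (Finset.mem_range.1 hj)
  rw [aeval_monomial, Algebra.smul_def]
  calc T ^ n * (algebraMap A R (f.coeff j) * S ^ j)
      = algebraMap A R (f.coeff j) * T ^ (n - j) * (T ^ j * S ^ j) := by
        rw [← pow_sub_mul_pow T hjn]; ring
    _ = _ := by rw [← mul_pow, hTS, one_pow, mul_one]

/-- Two polynomials related by reversal up to a shift are reverse to each other. -/
theorem revPoly_eq_of_shift {n K : ℕ} (hnK : n ≤ K) {r p : A[X]} (hr : r.natDegree ≤ K)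
    (h : revPoly K r = X ^ (K - n) * p) : r = revPoly n p ∧ p = revPoly n r := by
  have hc : ∀ i, (if i ≤ K then r.coeff (K - i) else 0) =
      if K - n ≤ i then p.coeff (i - (K - n)) else 0 := fun i => by
    rw [← coeff_revPoly, h, coeff_X_pow_mul']
  constructor
  · ext j
    rw [coeff_revPoly]
    by_cases hjK : j ≤ K
    · have := hc (K - j)
      rw [if_pos (Nat.sub_le _ _), show K - (K - j) = j by omega] at this
      rw [this]
      by_cases hjn : j ≤ n
      · rw [if_pos (by omega), if_pos hjn, show K - j - (K - n) = n - j by omega]
      · rw [if_neg (by omega), if_neg hjn]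
    · rw [if_neg (by omega), coeff_eq_zero_of_natDegree_lt (by omega)]
  · ext j
    rw [coeff_revPoly]
    have := hc (j + (K - n))
    rw [if_pos (Nat.le_add_left _ _), Nat.add_sub_cancel] at this
    rw [← this]
    by_cases hjn : j ≤ n
    · rw [if_pos (by omega), if_pos hjn, show K - (j + (K - n)) = n - j by omega]
    · rw [if_neg (by omega), if_neg hjn]

end RevPoly

section Coord

variable {A : Type u} [CommRing A] {R : Type u} [CommRing R] [Algebra A R]
  {M : Type u} [AddCommGroup M] [Module R M] {d : ℕ} (t : R) (e : Fin d → M)

/-- The map given by polynomial coordinates. -/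
noncomputable def coord : (Fin d → A[X]) →+ M :=
  AddMonoidHom.mk' (fun p => ∑ i, aeval t (p i) • e i) fun p q => by
    simp [add_smul, Finset.sum_add_distrib]

theorem coord_apply (p : Fin d → A[X]) : coord t e p = ∑ i, aeval t (p i) • e i := rfl

theorem coord_smul (f : A[X]) (p : Fin d → A[X]) :
    coord t e (f • p) = aeval t f • coord t e p := by
  simp [coord_apply, Finset.smul_sum, smul_smul]

theorem coord_single (j : Fin d) (f : A[X]) : coord t e (Pi.single j f) = aeval t f • e j := by
  rw [coord_apply, Finset.sum_eq_single j]
  · rw [Pi.single_eq_same]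
  · intro i _ hi
    rw [Pi.single_eq_of_ne hi, map_zero, zero_smul]
  · exact fun h => absurd (Finset.mem_univ j) h

theorem coord_single_one (j : Fin d) : coord t e (Pi.single j (1 : A[X])) = e j := by
  rw [coord_single, map_one, one_smul]

theorem coord_mulVec (N : Matrix (Fin d) (Fin d) A[X]) (r : R)
    (h : ∀ j, coord t e (fun i => N i j) = r • e j) (p : Fin d → A[X]) :
    coord t e (N.mulVec p) = r • coord t e p := by
  simp only [coord_apply] at h ⊢
  simp only [Matrix.mulVec, dotProduct, map_sum, map_mul, Finset.sum_smul, Finset.smul_sum]
  rw [Finset.sum_comm]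
  refine Finset.sum_congr rfl fun j _ => ?_
  rw [smul_comm r, ← h j, Finset.smul_sum]
  refine Finset.sum_congr rfl fun i _ => ?_
  rw [smul_smul, mul_comm]

variable {t e}

/-- The matrix of a scalar in bijective polynomial coordinates, as a ring map. -/
noncomputable def coordMat (h : Function.Bijective (coord (A := A) t e)) :
    R →+* Matrix (Fin d) (Fin d) A[X] :=
  let N : R → Matrix (Fin d) (Fin d) A[X] := fun r i j => (h.surjective (r • e j)).choose i
  have spec : ∀ r j, coord t e (fun i => N r i j) = r • e j := fun r j =>
    (h.surjective (r • e j)).choose_spec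
  have uniq : ∀ (N' : Matrix (Fin d) (Fin d) A[X]) r,
      (∀ j, coord t e (fun i => N' i j) = r • e j) → N r = N' := fun N' r h' =>
    Matrix.ext fun i j => congrFun (h.injective ((spec r j).trans (h' j).symm)) i
  { toFun := N
    map_one' := uniq 1 1 fun j => by
      rw [one_smul, ← coord_single_one (A := A) t e j]
      congr 1
      ext i
      simp [Matrix.one_apply, Pi.single_apply]
    map_mul' := fun r s => uniq _ _ fun j => by
      show coord t e ((N r).mulVec fun i => N s i j) = _
      rw [coord_mulVec t e _ r (spec r), spec, mul_smul]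
    map_zero' := uniq 0 0 fun j => by
      rw [zero_smul]
      exact map_zero _
    map_add' := fun r s => uniq _ _ fun j => by
      rw [add_smul, ← spec r j, ← spec s j, ← map_add]
      rfl }

theorem coord_coordMat (h : Function.Bijective (coord (A := A) t e)) (r : R) (j : Fin d) :
    coord t e (fun i => coordMat h r i j) = r • e j :=
  (h.surjective (r • e j)).choose_spec

theorem coord_coordMat_mulVec (h : Function.Bijective (coord (A := A) t e)) (r : R)
    (p : Fin d → A[X]) : coord t e ((coordMat h r).mulVec p) = r • coord t e p :=
  coord_mulVec t e _ r (coord_coordMat h r) p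

theorem coordMat_eq (h : Function.Bijective (coord (A := A) t e)) {r : R}
    {N : Matrix (Fin d) (Fin d) A[X]} (hN : ∀ j, coord t e (fun i => N i j) = r • e j) :
    coordMat h r = N :=
  Matrix.ext fun i j => congrFun (h.injective ((coord_coordMat h r j).trans (hN j).symm)) i

theorem coordMat_aeval (h : Function.Bijective (coord (A := A) t e)) (f : A[X]) :
    coordMat h (aeval t f) = Matrix.scalar (Fin d) f :=
  coordMat_eq h fun j => by
    rw [← coord_single t e j f]
    congr 1
    ext i
    simp [Matrix.diagonal_apply, Pi.single_apply]

theorem coordMat_algebraMap (h : Function.Bijective (coord (A := A) t e)) (a : A) :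
    coordMat h (algebraMap A R a) = Matrix.scalar (Fin d) (C a) := by
  rw [← aeval_C t a, coordMat_aeval]

theorem coordMat_self (h : Function.Bijective (coord (A := A) t e)) :
    coordMat h t = Matrix.scalar (Fin d) X := by
  have := coordMat_aeval h X
  rwa [aeval_X] at this

/-- Coordinates do not depend on a unit factor of the family. -/
theorem coordMat_smul_eq (h : Function.Bijective (coord (A := A) t e)) {e' : Fin d → M} {c : R}
    (he : ∀ i, e' i = c • e i) (h' : Function.Bijective (coord (A := A) t e')) (r : R) :
    coordMat h' r = coordMat h r :=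
  coordMat_eq h' fun j => by
    have hco : ∀ p, coord (A := A) t e' p = c • coord t e p := fun p => by
      simp [coord_apply, he, Finset.smul_sum, smul_comm c]
    rw [hco, coord_coordMat, he, smul_comm]

end Coord

end Fermat.Agent.Jac
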