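import Fermat.Agent.Jac.Chart.Twist

/-!
# Line data without cohomology after twisting down

If the twist by minus the fibre at infinity has no cohomology, both charts are polynomial modules
on the global sections.
-/

set_option autoImplicit false

universe u

open scoped TensorProduct
open Polynomial

namespace Fermat.Agent.Jac

variable {k : Type u} [Field k] {m : CurveModel k} {A : Type u} [CommRing A] [Algebra k A]

namespace LineData

variable (D : LineData m A)

/-- Global sections, in the first chart. -/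
noncomputable def V0 : Submodule A D.M0 := (LinearMap.range D.resA1).comap D.resA0

/-- A global section, in the second chart. -/
noncomputable def toV1 : D.V0 →ₗ[A] D.M1 :=
  (LinearEquiv.ofInjective D.resA1 D.res1_injective).symm.toLinearMap.comp
    ((D.resA0.comp D.V0.subtype).codRestrict (LinearMap.range D.resA1) fun v => v.2)

theorem res1_toV1 (v : D.V0) : D.res1 (D.toV1 v) = D.res0 (v : D.M0) :=
  congrArg Subtype.val ((LinearEquiv.ofInjective D.resA1 D.res1_injective).apply_symm_apply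
    ((D.resA0.comp D.V0.subtype).codRestrict (LinearMap.range D.resA1) (fun v => v.2) v))

theorem toV1_injective : Function.Injective D.toV1 := fun v w h =>
    Subtype.ext <| D.res0_injective <| by
  rw [← D.res1_toV1, ← D.res1_toV1, h]

/-- `t^n` restricted times `s^(n-j)` is `t^j`. -/
theorem tpow_mul_spow {n j : ℕ} (h : j ≤ n) :
    m.ι0 A (m.tA A) ^ n * m.ι1 A (m.sA A) ^ (n - j) = m.ι0 A (m.tA A) ^ j := by
  obtain ⟨e, rfl⟩ := Nat.exists_eq_add_of_le h
  rw [Nat.add_sub_cancel_left, pow_add, mul_assoc, m.tA_pow_mul_sA_pow, mul_one]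

variable {D}

theorem eq_zero_of_down (h : D.down.Acyclic) {x : D.M0} {y : D.M1}
    (hxy : D.res0 x = m.ι1 A (m.sA A) • D.res1 y) : x = 0 ∧ y = 0 := by
  have h1 : D.down.cech ((x, y) : D.M0 × D.M1) = D.down.cech ((0, 0) : D.M0 × D.M1) := by
    show D.res0 x - D.downRes y = D.res0 0 - D.downRes 0
    rw [map_zero, map_zero, sub_zero]
    exact sub_eq_zero.2 hxy
  exact Prod.ext_iff.1 (h.injective h1)

theorem exists_down (h : D.down.Acyclic) (z : D.M01) :
    ∃ (x : D.M0) (y : D.M1), z = D.res0 x + m.ι1 A (m.sA A) • D.res1 y := by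
  obtain ⟨⟨x, y⟩, hxy⟩ := h.surjective z
  have key : ∀ (x : D.M0) (y : D.M1), D.res0 x - m.ι1 A (m.sA A) • D.res1 y =
      D.res0 x + m.ι1 A (m.sA A) • D.res1 (-y) := fun x y => by
    rw [map_neg, smul_neg, sub_eq_add_neg]
  exact ⟨x, -y, hxy.symm.trans (key x y)⟩

/-- A point of the first chart is a global section plus a multiple of the coordinate. -/
theorem exists_V0_add_tA (h : D.down.Acyclic) (a : D.M0) :
    ∃ (v : D.V0) (a' : D.M0), a = (v : D.M0) + m.tA A • a' := by
  obtain ⟨a', b, hab⟩ := exists_down h (m.ι1 A (m.sA A) • D.res0 a)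
  have hv : a - m.tA A • a' ∈ D.V0 := ⟨b, by
    show D.res1 b = D.res0 _
    have h2 := congrArg (fun z => m.ι0 A (m.tA A) • z) hab
    simp only [smul_add, smul_smul, m.ι0_tA_mul, one_smul] at h2
    rw [map_sub, LinearMap.map_smulₛₗ, h2, add_sub_cancel_left]⟩
  exact ⟨⟨_, hv⟩, a', (sub_add_cancel _ _).symm⟩

theorem exists_poly0 (h : D.down.Acyclic) :
    ∀ (n : ℕ) (a : D.M0) (y : D.M1), D.res0 a = m.ι0 A (m.tA A) ^ n • D.res1 y →
      ∃ v : ℕ → D.V0, a = ∑ j ∈ Finset.range (n + 1), m.tA A ^ j • (v j : D.M0) := by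
  intro n
  induction n with
  | zero =>
    intro a y hy
    rw [pow_zero, one_smul] at hy
    exact ⟨fun _ => ⟨a, y, hy.symm⟩, by simp⟩
  | succ n ih =>
    intro a y hy
    obtain ⟨v, a', ha⟩ := exists_V0_add_tA h a
    obtain ⟨w, hw⟩ := ih a' (y - m.sA A ^ (n + 1) • D.toV1 v) (by
      have h2 : D.res0 (m.tA A • a') = D.res0 a - D.res0 (v : D.M0) := by
        rw [← map_sub, ha, add_sub_cancel_left]
      rw [LinearMap.map_smulₛₗ, hy] at h2
      have h3 := congrArg (fun z => m.ι1 A (m.sA A) • z) h2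
      simp only [smul_smul, m.ι1_sA_mul, one_smul, smul_sub] at h3
      rw [h3, map_sub, LinearMap.map_smulₛₗ, map_pow, res1_toV1, smul_sub, smul_smul]
      congr 1
      · congr 1
        rw [pow_succ, mul_left_comm, m.ι1_sA_mul, mul_one]
      · congr 1
        rw [pow_succ, ← mul_assoc, m.tA_pow_mul_sA_pow, one_mul])
    refine ⟨fun j => if j = 0 then v else w (j - 1), ?_⟩
    rw [Finset.sum_range_succ', ha, hw, Finset.smul_sum, add_comm (v : D.M0)]
    simp only [Nat.succ_ne_zero, if_false, if_true, pow_zero, one_smul, Nat.add_sub_cancel,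
      smul_smul, ← pow_succ']

theorem exists_sum0 (h : D.down.Acyclic) (a : D.M0) :
    ∃ (n : ℕ) (v : ℕ → D.V0), a = ∑ j ∈ Finset.range n, m.tA A ^ j • (v j : D.M0) := by
  obtain ⟨n, y, hy⟩ := D.exists_sA_pow_smul (D.res0 a)
  obtain ⟨v, hv⟩ := exists_poly0 h n a y (by
    rw [hy, smul_smul, m.tA_pow_mul_sA_pow, one_smul])
  exact ⟨n + 1, v, hv⟩

theorem exists_sum1 (h : D.down.Acyclic) (y : D.M1) :
    ∃ (n : ℕ) (v : ℕ → D.V0), y = ∑ j ∈ Finset.range n, m.sA A ^ j • D.toV1 (v j) := by
  obtain ⟨n, a, ha⟩ := D.exists_tA_pow_smul (D.res1 y)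
  obtain ⟨v, hv⟩ := exists_poly0 h n a y ha
  refine ⟨n + 1, fun j => v (n - j), D.res1_injective ?_⟩
  rw [← one_smul (m.R01 A) (D.res1 y), ← m.sA_pow_mul_tA_pow A n, ← smul_smul, ← ha, hv,
    ← Finset.sum_range_reflect (fun j => m.tA A ^ j • (v j : D.M0)) (n + 1), map_sum, map_sum,
    Finset.smul_sum]
  refine Finset.sum_congr rfl fun j hj => ?_
  have hjn : j ≤ n := Nat.lt_succ_iff.1 (Finset.mem_range.1 hj)
  rw [show n + 1 - 1 - j = n - j by omega, LinearMap.map_smulₛₗ, LinearMap.map_smulₛₗ, map_pow,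
    map_pow, res1_toV1, smul_smul]
  congr 1
  rw [← tpow_mul_spow (Nat.sub_le n j), show n - (n - j) = j by omega, ← mul_assoc,
    m.sA_pow_mul_tA_pow, one_mul]

theorem eq_zero_sum0 (h : D.down.Acyclic) :
    ∀ (n : ℕ) (v : ℕ → D.V0), ∑ j ∈ Finset.range n, m.tA A ^ j • (v j : D.M0) = 0 →
      ∀ j < n, v j = 0 := by
  intro n
  induction n with
  | zero => intro v _ j hj; omega
  | succ n ih =>
    intro v hv
    have hsplit : (v 0 : D.M0) + m.tA A • ∑ j ∈ Finset.range n, m.tA A ^ j • (v (j + 1) : D.M0)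
        = 0 := by
      rw [Finset.sum_range_succ', pow_zero, one_smul, add_comm] at hv
      simpa only [Finset.smul_sum, smul_smul, ← pow_succ'] using hv
    set a := ∑ j ∈ Finset.range n, m.tA A ^ j • (v (j + 1) : D.M0)
    have h1 : D.res0 a = m.ι1 A (m.sA A) • D.res1 (-D.toV1 (v 0)) := by
      have h2 := congrArg (fun z => m.ι1 A (m.sA A) • D.res0 z) hsplit
      simp only [map_add, map_zero, LinearMap.map_smulₛₗ, smul_add, smul_smul, m.ι1_sA_mul,
        one_smul, smul_zero] at h2
      rw [map_neg, res1_toV1, smul_neg]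
      exact eq_neg_of_add_eq_zero_right h2
    obtain ⟨ha, hv0⟩ := eq_zero_of_down h h1
    intro j hj
    rcases j with _ | j
    · exact D.toV1_injective ((neg_eq_zero.1 hv0).trans (map_zero _).symm)
    · exact ih (fun j => v (j + 1)) ha j (by omega)

theorem eq_zero_sum1 (h : D.down.Acyclic) :
    ∀ (n : ℕ) (v : ℕ → D.V0), ∑ j ∈ Finset.range n, m.sA A ^ j • D.toV1 (v j) = 0 →
      ∀ j < n, v j = 0 := by
  intro n
  induction n with
  | zero => intro v _ j hj; omega
  | succ n ih =>
    intro v hv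
    have hsplit : D.toV1 (v 0) + m.sA A • ∑ j ∈ Finset.range n, m.sA A ^ j • D.toV1 (v (j + 1))
        = 0 := by
      rw [Finset.sum_range_succ', pow_zero, one_smul, add_comm] at hv
      simpa only [Finset.smul_sum, smul_smul, ← pow_succ'] using hv
    set b := ∑ j ∈ Finset.range n, m.sA A ^ j • D.toV1 (v (j + 1))
    have h1 : D.res0 (v 0 : D.M0) = m.ι1 A (m.sA A) • D.res1 (-b) := by
      have h2 := congrArg D.res1 hsplit
      rw [map_add, map_zero, res1_toV1, LinearMap.map_smulₛₗ] at h2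
      rw [map_neg, smul_neg]
      exact eq_neg_of_add_eq_zero_left h2
    obtain ⟨hv0, hb⟩ := eq_zero_of_down h h1
    intro j hj
    rcases j with _ | j
    · exact Subtype.ext hv0
    · exact ih (fun j => v (j + 1)) (neg_eq_zero.1 hb) j (by omega)

/-- The fibre over zero is the space of global sections. -/
noncomputable def V0ToFibre (D : LineData m A) :
    D.V0 →ₗ[A] D.M0 ⧸ (Ideal.span {m.tA A} • (⊤ : Submodule (m.R0 A) D.M0)) :=
  ((Submodule.mkQ _).restrictScalars A).comp D.V0.subtype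

theorem V0ToFibre_bijective (h : D.down.Acyclic) : Function.Bijective D.V0ToFibre := by
  refine ⟨(injective_iff_map_eq_zero _).2 fun v hv => ?_, fun z => ?_⟩
  · have hv' : (v : D.M0) ∈ Ideal.span {m.tA A} • (⊤ : Submodule (m.R0 A) D.M0) :=
      (Submodule.Quotient.mk_eq_zero _).1 hv
    rw [Submodule.ideal_span_singleton_smul, Submodule.mem_smul_pointwise_iff_exists] at hv'
    obtain ⟨a, -, ha⟩ := hv'
    have h1 : D.res0 a = m.ι1 A (m.sA A) • D.res1 (D.toV1 v) := by
      rw [res1_toV1, ← ha, LinearMap.map_smulₛₗ, smul_smul, m.ι1_sA_mul, one_smul]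
    exact D.toV1_injective ((eq_zero_of_down h h1).2.trans (map_zero _).symm)
  · obtain ⟨a, rfl⟩ := Submodule.mkQ_surjective _ z
    obtain ⟨v, a', ha⟩ := exists_V0_add_tA h a
    refine ⟨v, ?_⟩
    show Submodule.Quotient.mk (v : D.M0) = Submodule.Quotient.mk a
    refine ((Submodule.Quotient.eq _).2 ?_).symm
    rw [ha, add_sub_cancel_left]
    exact Submodule.smul_mem_smul (Ideal.mem_span_singleton_self _) trivial

end LineData

end Fermat.Agent.Jac
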