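import Fermat.Agent.Jac.FieldTheory
import Fermat.Agent.Jac.Chart.Split
import Fermat.Agent.Jac.Chart.Alg

/-!
# Euler characteristics for the chart

Acyclic line data have Euler characteristic zero; `acyclic_of_injective` is a converse.
-/

set_option autoImplicit false

universe u

open scoped TensorProduct

namespace Fermat.Agent.Jac

variable {k : Type u} [Field k] {m : CurveModel k} {K : Type u} [Field K] [Algebra k K]

namespace LineData

/-- Without cohomology the Euler characteristic vanishes. -/
theorem euler_eq_zero_of_acyclic {D : LineData m K} (h : D.Acyclic) : D.euler = 0 := by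
  have h0 : D.H0 = ⊥ := LinearMap.ker_eq_bot.2 h.injective
  have h1 : LinearMap.range D.cechLin = ⊤ := LinearMap.range_eq_top.2 h.surjective
  have : Subsingleton D.H1 := Submodule.Quotient.subsingleton_iff.2 h1
  rw [euler, h0, finrank_bot, Module.finrank_zero_of_subsingleton]
  simp

/-- No sections and vanishing Euler characteristic: no cohomology. -/
theorem acyclic_of_injective {D : LineData m K} (he : D.euler = 0)
    (h : Function.Injective D.cech) : D.Acyclic := by
  have h0 : D.H0 = ⊥ := LinearMap.ker_eq_bot.2 h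
  have := D.finite_H1
  rw [euler, h0, finrank_bot] at he
  have : Subsingleton D.H1 := Module.finrank_zero_iff (R := K).1 (by omega)
  exact ⟨h, LinearMap.range_eq_top.1 (Submodule.Quotient.subsingleton_iff.1 this)⟩

/-- If the twist down has no cohomology the Euler characteristic counts the global sections. -/
theorem euler_eq_finrank_V0 {D : LineData m K} (h : D.down.Acyclic) :
    D.euler = Module.finrank K D.V0 := by
  have h1 : LinearMap.range D.cechLin = ⊤ := by
    refine LinearMap.range_eq_top.2 fun z => ?_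
    obtain ⟨x, y, hxy⟩ := exists_down h z
    refine ⟨(x, -(m.sA K • y)), ?_⟩
    show D.res0 x - D.res1 (-(m.sA K • y)) = z
    rw [map_neg, sub_neg_eq_add, LinearMap.map_smulₛₗ, hxy]
  have : Subsingleton D.H1 := Submodule.Quotient.subsingleton_iff.2 h1
  let f : D.H0 →ₗ[K] D.V0 :=
    ((LinearMap.fst K D.M0 D.M1).comp D.H0.subtype).codRestrict D.V0 fun z =>
      ⟨(z : D.M0 × D.M1).2, (sub_eq_zero.1 z.2).symm⟩
  have hf : Function.Bijective f := by
    refine ⟨fun z w hzw => ?_, fun v => ?_⟩
    · have h0 : (z : D.M0 × D.M1).1 = (w : D.M0 × D.M1).1 := congrArg Subtype.val hzw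
      refine Subtype.ext (Prod.ext h0 (D.res1_injective ?_))
      have hz : D.res0 (z : D.M0 × D.M1).1 = D.res1 (z : D.M0 × D.M1).2 := sub_eq_zero.1 z.2
      have hw : D.res0 (w : D.M0 × D.M1).1 = D.res1 (w : D.M0 × D.M1).2 := sub_eq_zero.1 w.2
      rw [← hz, ← hw, h0]
    · exact ⟨⟨((v : D.M0), D.toV1 v), sub_eq_zero.2 (res1_toV1 D v).symm⟩, rfl⟩
  rw [euler, (LinearEquiv.ofBijective f hf).finrank_eq,
    Module.finrank_zero_of_subsingleton (R := K) (M := D.H1)]
  simp

end LineData

theorem Cl.euler_eq_zero_of_acyclic {x : Cl m K} (h : x.Acyclic) : x.euler = 0 := by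
  obtain ⟨D, rfl⟩ := Cl.mk_surjective x
  exact LineData.euler_eq_zero_of_acyclic h

variable [IsAlgClosed k] (m)

/-- The degree of the twist by the fibre at infinity. -/
theorem Cl.euler_infty_inv :
    (Cl.infty m k)⁻¹.euler = m.deg + (1 : Cl m k).euler := by
  obtain ⟨N0, hN0⟩ := Cl.exists_euler_eq_zero (k := k) (m := m)
  obtain ⟨a, -, ha⟩ := Cl.exists_twist_acyclic (K := k) (fun _ : Fin 1 => N0) fun _ => hN0
  obtain ⟨E, hE⟩ := Cl.mk_surjective (N0 * Cl.const k a * (Cl.infty m k)⁻¹)
  have hd : E.down.Acyclic := by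
    rw [← Cl.acyclic_mk, Cl.mk_down, hE, inv_mul_cancel_right]
    exact ha 0
  have h2 : Module.finrank k E.V0 = m.deg :=
    (LinearEquiv.ofBijective _ (LineData.V0ToFibre_bijective hd)).finrank_eq.trans
      (finrank_fibre_of_invertible m.t m.finite0).2
  have h3 := Cl.euler_mul (N0 * Cl.const k a) (Cl.infty m k)⁻¹
  rw [← hE, Cl.euler_mk, LineData.euler_eq_finrank_V0 hd, h2,
    Cl.euler_eq_zero_of_acyclic (ha 0)] at h3
  linarith

end Fermat.Agent.Jac
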