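import Fermat.Agent.Jac.Chart.Split
import Fermat.Agent.Jac.ClPoint

/-!
# Line data inside line data

`F.HasSub G I0 I1` says that `F` is the subbundle of `G` cut out by the ideals `I0` and `I1`. If
`F` has no cohomology, sections of `G` are determined by, and can be prescribed by, their classes
modulo the ideals.
-/

set_option autoImplicit false

universe u

open scoped TensorProduct

namespace Fermat.Agent.Jac

section generic

variable {R : Type u} [CommRing R]

/-- A pairing with generating values and a functional give an embedding. -/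
theorem exists_sub_of_pairing {M N P : Type u} [AddCommGroup M] [Module R M] [AddCommGroup N]
    [Module R N] [AddCommGroup P] [Module R P] [Module.Invertible R M] [Module.Invertible R N]
    [Module.Invertible R P] (g : M →ₗ[R] N →ₗ[R] P)
    (hg : Submodule.span R (Set.range fun p : M × N => g p.1 p.2) = ⊤)
    (j : N →ₗ[R] R) (hj : Function.Injective j) :
    ∃ h : P →ₗ[R] M, Function.Injective h ∧ (∀ x y, h (g x y) = j y • x) ∧
      LinearMap.range h = LinearMap.range j • (⊤ : Submodule R M) := by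
  let h : P →ₗ[R] M :=
    ((TensorProduct.rid R M).toLinearMap.comp (j.lTensor M)).comp
      (Semilin.tensorEquiv g hg).symm.toLinearMap
  have hh : ∀ x y, h (g x y) = j y • x := fun x y => by simp [h]
  refine ⟨h, ?_, hh, le_antisymm ?_ ?_⟩
  · exact ((TensorProduct.rid R M).injective.comp
      (Module.Flat.lTensor_preserves_injective_linearMap (M := M) j hj)).comp
      (Semilin.tensorEquiv g hg).symm.injective
  · rintro _ ⟨z, rfl⟩
    obtain ⟨w, rfl⟩ := (Semilin.tensorEquiv g hg).surjective z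
    induction w using TensorProduct.induction_on with
    | zero => simp
    | tmul x y =>
      rw [Semilin.tensorEquiv_tmul, hh]
      exact Submodule.smul_mem_smul (LinearMap.mem_range_self j y) trivial
    | add a b ha hb => rw [map_add, map_add]; exact add_mem ha hb
  · refine Submodule.smul_le.2 ?_
    rintro _ ⟨y, rfl⟩ x -
    exact ⟨g x y, hh x y⟩

/-- An element in two comaximal submodules is in their product. -/
theorem mem_mul_smul_top {M : Type u} [AddCommGroup M] [Module R M] {I J : Ideal R} {a b : R}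
    (ha : a ∈ I) (hb : b ∈ J) (hab : a + b = 1) {x : M} (hI : x ∈ I • (⊤ : Submodule R M))
    (hJ : x ∈ J • (⊤ : Submodule R M)) : x ∈ (I * J) • (⊤ : Submodule R M) := by
  rw [← one_smul R x, ← hab, add_smul]
  refine add_mem ?_ ?_
  · rw [Submodule.mul_smul]
    exact Submodule.smul_mem_smul ha hJ
  · rw [mul_comm, Submodule.mul_smul]
    exact Submodule.smul_mem_smul hb hI

/-- The image of a submodule cut out by an ideal. -/
theorem map_ideal_smul_top {M N : Type u} [AddCommGroup M] [Module R M] [AddCommGroup N]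
    [Module R N] (f : M →ₗ[R] N) (I : Ideal R) :
    (I • (⊤ : Submodule R M)).map f = I • LinearMap.range f := by
  rw [Submodule.map_smul'', Submodule.map_top]

end generic

namespace LineData

variable {k : Type u} [Field k] {m : CurveModel k} {A : Type u} [CommRing A] [Algebra k A]

/-- `F` is the part of `G` cut out by two ideals. -/
def HasSub (F G : LineData m A) (I0 : Ideal (m.R0 A)) (I1 : Ideal (m.R1 A)) : Prop :=
  ∃ (j0 : F.M0 →ₗ[m.R0 A] G.M0) (j1 : F.M1 →ₗ[m.R1 A] G.M1)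
    (j01 : F.M01 →ₗ[m.R01 A] G.M01),
    Function.Injective j0 ∧ Function.Injective j1 ∧ Function.Injective j01 ∧
    (∀ x, G.res0 (j0 x) = j01 (F.res0 x)) ∧ (∀ x, G.res1 (j1 x) = j01 (F.res1 x)) ∧
    LinearMap.range j0 = I0 • (⊤ : Submodule (m.R0 A) G.M0) ∧
    LinearMap.range j1 = I1 • (⊤ : Submodule (m.R1 A) G.M1)

theorem hasSub_refl (G : LineData m A) : G.HasSub G ⊤ ⊤ :=
  ⟨LinearMap.id, LinearMap.id, LinearMap.id, fun _ _ h => h, fun _ _ h => h, fun _ _ h => h,
    fun _ => rfl, fun _ => rfl, by rw [LinearMap.range_id, Submodule.top_smul],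
    by rw [LinearMap.range_id, Submodule.top_smul]⟩

theorem HasSub.trans {H F G : LineData m A} {I0 J0 : Ideal (m.R0 A)} {I1 J1 : Ideal (m.R1 A)}
    (hH : H.HasSub F J0 J1) (hF : F.HasSub G I0 I1) : H.HasSub G (J0 * I0) (J1 * I1) := by
  obtain ⟨a0, a1, a01, p0, p1, p01, c0, c1, r0, r1⟩ := hH
  obtain ⟨b0, b1, b01, q0, q1, q01, d0, d1, s0, s1⟩ := hF
  refine ⟨b0.comp a0, b1.comp a1, b01.comp a01, q0.comp p0, q1.comp p1, q01.comp p01,
    fun x => by simp [d0, c0], fun x => by simp [d1, c1], ?_, ?_⟩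
  · rw [LinearMap.range_comp, r0, map_ideal_smul_top, s0, Submodule.mul_smul]
  · rw [LinearMap.range_comp, r1, map_ideal_smul_top, s1, Submodule.mul_smul]

/-- A product with ideal data is a part of the other factor. -/
theorem HasIdeals.hasSub {G P F : LineData m A} {I0 : Ideal (m.R0 A)} {I1 : Ideal (m.R1 A)}
    (hP : P.HasIdeals I0 I1) (hprod : IsProduct G P F) : F.HasSub G I0 I1 := by
  obtain ⟨j0, j1, j01, p0, p1, p01, c0, c1, r0, r1⟩ := hP
  obtain ⟨g0, g1, g01, d0, d1, s0, s1⟩ := hprod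
  obtain ⟨h0, i0, e0, t0⟩ := exists_sub_of_pairing g0 s0 j0 p0
  obtain ⟨h1, i1, e1, t1⟩ := exists_sub_of_pairing g1 s1 j1 p1
  obtain ⟨h01, i01, e01, -⟩ :=
    exists_sub_of_pairing g01 (IsProduct.span01 g0 g01 d0 s0) j01 p01
  subst r0 r1
  refine ⟨h0, h1, h01, i0, i1, i01, fun z => ?_, fun z => ?_, t0, t1⟩
  · refine Semilin.square_ext F.res0 G.res0 h0 h01 (fun _ => rfl) s0 ?_ z
    rintro _ ⟨p, rfl⟩
    rw [e0, d0, e01, LinearMap.map_smulₛₗ, c0]
  · refine Semilin.square_ext F.res1 G.res1 h1 h01 (fun _ => rfl) s1 ?_ z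
    rintro _ ⟨p, rfl⟩
    rw [e1, d1, e01, LinearMap.map_smulₛₗ, c1]

variable {F G : LineData m A} {I0 : Ideal (m.R0 A)} {I1 : Ideal (m.R1 A)}

/-- Sections are determined modulo the ideals. -/
theorem HasSub.eq_zero (hs : F.HasSub G I0 I1) (hinj : Function.Injective F.cech) {v : G.V0}
    (h0 : (v : G.M0) ∈ I0 • (⊤ : Submodule (m.R0 A) G.M0))
    (h1 : G.toV1 v ∈ I1 • (⊤ : Submodule (m.R1 A) G.M1)) : v = 0 := by
  obtain ⟨j0, j1, j01, -, -, p01, c0, c1, r0, r1⟩ := hs
  rw [← r0] at h0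
  rw [← r1] at h1
  obtain ⟨x, hx⟩ := h0
  obtain ⟨y, hy⟩ := h1
  have h : F.cech (x, y) = F.cech (0, 0) := p01 <| by
    show j01 (F.res0 x - F.res1 y) = j01 (F.res0 0 - F.res1 0)
    rw [map_sub, map_sub, ← c0, ← c1, hx, hy, res1_toV1]
    simp
  have hx0 : x = 0 := (Prod.ext_iff.1 (hinj h)).1
  exact Subtype.ext (by rw [← hx, hx0, map_zero]; rfl)

/-- A criterion for the absence of sections. -/
theorem HasSub.cech_injective (hs : F.HasSub G I0 I1)
    (h : ∀ v : G.V0, (v : G.M0) ∈ I0 • (⊤ : Submodule (m.R0 A) G.M0) →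
      G.toV1 v ∈ I1 • (⊤ : Submodule (m.R1 A) G.M1) → v = 0) :
    Function.Injective F.cech := by
  obtain ⟨j0, j1, j01, p0, p1, -, c0, c1, r0, r1⟩ := hs
  refine (injective_iff_map_eq_zero _).2 fun z hz => ?_
  have hz' : F.res0 z.1 = F.res1 z.2 := sub_eq_zero.1 hz
  have hres : G.res1 (j1 z.2) = G.res0 (j0 z.1) := by rw [c0, c1, hz']
  let v : G.V0 := ⟨j0 z.1, j1 z.2, hres⟩
  have hv1 : G.toV1 v = j1 z.2 := G.res1_injective ((G.res1_toV1 v).trans hres.symm)
  have hv := h v (r0 ▸ LinearMap.mem_range_self j0 z.1)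
    (hv1 ▸ r1 ▸ LinearMap.mem_range_self j1 z.2)
  refine Prod.ext (p0 ?_) (p1 ?_)
  · exact (congrArg Subtype.val hv).trans (map_zero _).symm
  · rw [← hv1, hv, map_zero]
    exact (map_zero _).symm

/-- Sections can be prescribed modulo the ideals. -/
theorem HasSub.exists_congr (hs : F.HasSub G I0 I1) (hsurj : Function.Surjective F.cech)
    {a : G.M0} {b : G.M1}
    (hab : G.res0 a - G.res1 b ∈ I1.map (m.ι1 A) • (⊤ : Submodule (m.R01 A) G.M01)) :
    ∃ v : G.V0, (v : G.M0) - a ∈ I0 • (⊤ : Submodule (m.R0 A) G.M0) ∧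
      G.toV1 v - b ∈ I1 • (⊤ : Submodule (m.R1 A) G.M1) := by
  obtain ⟨j0, j1, j01, -, -, -, c0, c1, r0, r1⟩ := hs
  have hle : I1.map (m.ι1 A) • (⊤ : Submodule (m.R01 A) G.M01) ≤ LinearMap.range j01 := by
    rw [← G.span1]
    refine Submodule.smul_le.2 fun r hr z hz => ?_
    induction hr using Submodule.span_induction generalizing z with
    | mem r hr =>
      obtain ⟨i, hi, rfl⟩ := hr
      induction hz using Submodule.span_induction with
      | mem z hz =>
        obtain ⟨y, rfl⟩ := hz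
        obtain ⟨w, hw⟩ : i • y ∈ LinearMap.range j1 :=
          r1 ▸ Submodule.smul_mem_smul hi trivial
        exact ⟨F.res1 w, by rw [← c1, hw, LinearMap.map_smulₛₗ]⟩
      | zero => rw [smul_zero]; exact zero_mem _
      | add x y _ _ hx hy => rw [smul_add]; exact add_mem hx hy
      | smul c x _ hx => rw [smul_comm]; exact Submodule.smul_mem _ c hx
    | zero => rw [zero_smul]; exact zero_mem _
    | add x y _ _ hx hy => rw [add_smul]; exact add_mem (hx z hz) (hy z hz)
    | smul c x _ hx => rw [smul_eq_mul, mul_smul]; exact Submodule.smul_mem _ c (hx z hz)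
  obtain ⟨w, hw⟩ := hle hab
  obtain ⟨⟨x, y⟩, hxy⟩ := hsurj w
  have hres : G.res1 (b - j1 y) = G.res0 (a - j0 x) := by
    have h : G.res0 (j0 x) - G.res1 (j1 y) = G.res0 a - G.res1 b := by
      rw [c0, c1, ← map_sub, ← hw, ← hxy]
      rfl
    rw [map_sub, map_sub]
    linear_combination (norm := abel) h
  let v : G.V0 := ⟨a - j0 x, b - j1 y, hres⟩
  have hv1 : G.toV1 v = b - j1 y := G.res1_injective ((G.res1_toV1 v).trans hres.symm)
  refine ⟨v, ?_, ?_⟩
  · show a - j0 x - a ∈ _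
    rw [← r0, sub_sub_cancel_left]
    exact neg_mem (LinearMap.mem_range_self j0 x)
  · rw [hv1, ← r1, sub_sub_cancel_left]
    exact neg_mem (LinearMap.mem_range_self j1 y)

variable {u : m.R1 A}

theorem exists_res1_eq_pow_smul (G : LineData m A) (I1 : Ideal (m.R1 A)) {z : G.M01}
    (hz : z ∈ I1.map (m.ι1 A) • (⊤ : Submodule (m.R01 A) G.M01)) :
    ∃ (n : ℕ) (y : G.M1), y ∈ I1 • (⊤ : Submodule (m.R1 A) G.M1) ∧
      G.res1 y = m.ι1 A (m.sA A) ^ n • z := by
  have hadd : ∀ z z' : G.M01,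
      (∃ (n : ℕ) (y : G.M1), y ∈ I1 • (⊤ : Submodule (m.R1 A) G.M1) ∧
        G.res1 y = m.ι1 A (m.sA A) ^ n • z) →
      (∃ (n : ℕ) (y : G.M1), y ∈ I1 • (⊤ : Submodule (m.R1 A) G.M1) ∧
        G.res1 y = m.ι1 A (m.sA A) ^ n • z') →
      ∃ (n : ℕ) (y : G.M1), y ∈ I1 • (⊤ : Submodule (m.R1 A) G.M1) ∧
        G.res1 y = m.ι1 A (m.sA A) ^ n • (z + z') := by
    rintro z z' ⟨n, y, hy, h⟩ ⟨n', y', hy', h'⟩
    refine ⟨n + n', m.sA A ^ n' • y + m.sA A ^ n • y',
      add_mem (Submodule.smul_mem _ _ hy) (Submodule.smul_mem _ _ hy'), ?_⟩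
    rw [map_add, LinearMap.map_smulₛₗ, LinearMap.map_smulₛₗ, map_pow, map_pow, h, h', smul_smul,
      smul_smul, smul_add, pow_add, mul_comm]
  refine Submodule.smul_induction_on hz ?_ fun z z' hz hz' => hadd z z' hz hz'
  intro r hr z _
  induction hr using Submodule.span_induction generalizing z with
  | mem r hr =>
    obtain ⟨i, hi, rfl⟩ := hr
    obtain ⟨n, y, hy⟩ := G.exists_sA_pow_smul z
    exact ⟨n, i • y, Submodule.smul_mem_smul hi trivial, by
      rw [LinearMap.map_smulₛₗ, hy, smul_comm]⟩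
  | zero => exact ⟨0, 0, zero_mem _, by simp⟩
  | add x y _ _ hx hy => rw [add_smul]; exact hadd _ _ (hx z trivial) (hy z trivial)
  | smul c x _ hx =>
    rw [smul_eq_mul, mul_comm, mul_smul]
    exact hx (c • z) trivial

theorem sA_pow_mul_sub_one_mem (hu : u * m.sA A - 1 ∈ I1) (n : ℕ) :
    (u * m.sA A) ^ n - 1 ∈ I1 :=
  Ideal.mem_of_dvd _ (sub_one_dvd_pow_sub_one _ n) hu

/-- Vanishing on the ideal passes to the second chart. -/
theorem toV1_mem_smul_top (hmap : I0.map (m.ι0 A) = I1.map (m.ι1 A))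
    (hu : u * m.sA A - 1 ∈ I1) {v : G.V0}
    (h0 : (v : G.M0) ∈ I0 • (⊤ : Submodule (m.R0 A) G.M0)) :
    G.toV1 v ∈ I1 • (⊤ : Submodule (m.R1 A) G.M1) := by
  have h01 : G.res0 (v : G.M0) ∈ I1.map (m.ι1 A) • (⊤ : Submodule (m.R01 A) G.M01) := by
    rw [← hmap]
    refine Submodule.smul_induction_on h0 (fun r hr x _ => ?_) fun x y hx hy => ?_
    · rw [LinearMap.map_smulₛₗ]
      exact Submodule.smul_mem_smul (Ideal.mem_map_of_mem _ hr) trivial
    · rw [map_add]; exact add_mem hx hy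
  obtain ⟨n, y, hy, hres⟩ := G.exists_res1_eq_pow_smul I1 h01
  have hsx : m.sA A ^ n • G.toV1 v = y := G.res1_injective <| by
    rw [hres, LinearMap.map_smulₛₗ, map_pow, res1_toV1]
  have : G.toV1 v = u ^ n • y - ((u * m.sA A) ^ n - 1) • G.toV1 v := by
    rw [← hsx, smul_smul, ← mul_pow, sub_smul, one_smul, sub_sub_cancel]
  rw [this]
  exact sub_mem (Submodule.smul_mem _ _ hy)
    (Submodule.smul_mem_smul (sA_pow_mul_sub_one_mem hu n) trivial)

/-- Every class on the first chart has a matching class on the second chart. -/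
theorem exists_matching (hu : u * m.sA A - 1 ∈ I1) (a : G.M0) :
    ∃ b : G.M1, G.res0 a - G.res1 b ∈ I1.map (m.ι1 A) • (⊤ : Submodule (m.R01 A) G.M01) := by
  obtain ⟨n, y, hy⟩ := G.exists_sA_pow_smul (G.res0 a)
  refine ⟨u ^ n • y, ?_⟩
  have h : G.res0 a - G.res1 (u ^ n • y) = m.ι1 A (1 - (u * m.sA A) ^ n) • G.res0 a := by
    rw [LinearMap.map_smulₛₗ, hy, smul_smul, map_sub, map_one, map_pow, map_pow, map_mul, mul_pow,
      sub_smul, one_smul]
  rw [h]
  refine Submodule.smul_mem_smul (Ideal.mem_map_of_mem _ ?_) trivial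
  rw [← neg_sub]
  exact neg_mem (sA_pow_mul_sub_one_mem hu n)

end LineData

end Fermat.Agent.Jac
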