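import Fermat.Agent.Jac.Chart.Coord
import Fermat.Agent.Jac.Chart.Sub

/-!
# Frames of line data

A frame is a family of global sections giving polynomial coordinates in both charts, adapted to
points of the first chart and normalised at the marked point.
-/

set_option autoImplicit false

universe u

open scoped TensorProduct
open Polynomial

namespace Fermat.Agent.Jac

variable {k : Type u} [Field k] {m : CurveModel k} {A : Type u} [CommRing A] [Algebra k A]

/-- A rational point as a point with values in an algebra. -/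
noncomputable abbrev cstPoint {B : Type u} [CommRing B] [Algebra k B] (A : Type u) [CommRing A]
    [Algebra k A] (p : B →ₐ[k] k) : B →ₐ[k] A :=
  (Algebra.ofId k A).comp p

namespace CurveModel

variable (m)

theorem ev0_tA (φ : m.B0 →ₐ[k] A) : m.ev0 φ (m.tA A) = φ m.t := by
  simp [CurveModel.ev0, CurveModel.tA]

theorem ev0_algebraMap (φ : m.B0 →ₐ[k] A) (a : A) :
    m.ev0 φ (algebraMap A (m.R0 A) a) = a := by
  simp [CurveModel.ev0]

theorem ev0_aeval (φ : m.B0 →ₐ[k] A) (f : A[X]) :
    m.ev0 φ (aeval (m.tA A) f) = f.eval (φ m.t) := by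
  rw [← m.ev0_tA φ]
  exact (aeval_algHom_apply (Algebra.TensorProduct.lift (AlgHom.id A A) φ fun _ _ =>
    Commute.all _ _) (m.tA A) f).symm

theorem epsA_sA : m.epsA A (m.sA A) = 0 := by
  simp [CurveModel.epsA, CurveModel.sA, m.eps_s]

theorem epsA_algebraMap (a : A) : m.epsA A (algebraMap A (m.R1 A) a) = a := by
  simp [CurveModel.epsA]

theorem epsA_aeval (f : A[X]) : m.epsA A (aeval (m.sA A) f) = f.coeff 0 := by
  refine (aeval_algHom_apply (Algebra.TensorProduct.lift (AlgHom.id A A)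
    ((Algebra.ofId k A).comp m.eps) fun _ _ => Commute.all _ _) (m.sA A) f).symm.trans ?_
  rw [show (Algebra.TensorProduct.lift (AlgHom.id A A) ((Algebra.ofId k A).comp m.eps)
    fun _ _ => Commute.all _ _) (m.sA A) = 0 from m.epsA_sA, ← coeff_zero_eq_aeval_zero]

theorem ι0_aeval (f : A[X]) : m.ι0 A (aeval (m.tA A) f) = aeval (m.ι0 A (m.tA A)) f :=
  (aeval_algHom_apply (Algebra.TensorProduct.map (AlgHom.id A A) m.i0) (m.tA A) f).symm

theorem ι1_aeval (f : A[X]) : m.ι1 A (aeval (m.sA A) f) = aeval (m.ι1 A (m.sA A)) f :=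
  (aeval_algHom_apply (Algebra.TensorProduct.map (AlgHom.id A A) m.i1) (m.sA A) f).symm

end CurveModel

namespace LineData

/-- A frame. -/
structure Frame (G : LineData m A) {d : ℕ} (q : Fin d → (m.B0 →ₐ[k] k)) where
  e0 : Fin d → G.M0
  e1 : Fin d → G.M1
  comm : ∀ i, G.res1 (e1 i) = G.res0 (e0 i)
  bij0 : Function.Bijective (coord (A := A) (m.tA A) e0)
  bij1 : Function.Bijective (coord (A := A) (m.sA A) e1)
  π : ∀ i, G.M0 →ₛₗ[m.ev0 (cstPoint A (q i))] A
  π_e : ∀ i j, π i (e0 j) = if i = j then 1 else 0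
  l : G.M1 →ₛₗ[m.epsA A] A
  l_e : ∀ j, l (e1 j) = 1

namespace Frame

variable {G : LineData m A} {d : ℕ} {q : Fin d → (m.B0 →ₐ[k] k)} (fr : G.Frame q)

theorem π_smul (i : Fin d) (a : A) (x : G.M0) : fr.π i (a • x) = a * fr.π i x := by
  rw [← IsScalarTower.algebraMap_smul (m.R0 A) a x, LinearMap.map_smulₛₗ, m.ev0_algebraMap,
    smul_eq_mul]

theorem l_smul (a : A) (x : G.M1) : fr.l (a • x) = a * fr.l x := by
  rw [← IsScalarTower.algebraMap_smul (m.R1 A) a x, LinearMap.map_smulₛₗ, m.epsA_algebraMap,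
    smul_eq_mul]

theorem π_coord (i : Fin d) (p : Fin d → A[X]) :
    fr.π i (coord (m.tA A) fr.e0 p) = (p i).eval (cstPoint A (q i) m.t) := by
  rw [coord_apply, map_sum, Finset.sum_eq_single i]
  · rw [LinearMap.map_smulₛₗ, fr.π_e, if_pos rfl, m.ev0_aeval, smul_eq_mul, mul_one]
  · intro j _ hj
    rw [LinearMap.map_smulₛₗ, fr.π_e, if_neg (Ne.symm hj), smul_zero]
  · exact fun h => absurd (Finset.mem_univ i) h

theorem l_coord (p : Fin d → A[X]) :
    fr.l (coord (m.sA A) fr.e1 p) = ∑ i, (p i).coeff 0 := by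
  simp [coord_apply, LinearMap.map_smulₛₗ, fr.l_e, m.epsA_aeval]

/-- The sections of a frame. -/
noncomputable def sec (i : Fin d) : G.V0 := ⟨fr.e0 i, fr.e1 i, fr.comm i⟩

theorem toV1_sec (i : Fin d) : G.toV1 (fr.sec i) = fr.e1 i :=
  G.res1_injective ((G.res1_toV1 _).trans (fr.comm i).symm)

theorem res0_coord (p : Fin d → A[X]) :
    G.res0 (coord (m.tA A) fr.e0 p) =
      ∑ i, aeval (m.ι0 A (m.tA A)) (p i) • G.res0 (fr.e0 i) := by
  simp [coord_apply, LinearMap.map_smulₛₗ, m.ι0_aeval]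

theorem res1_coord (p : Fin d → A[X]) :
    G.res1 (coord (m.sA A) fr.e1 p) =
      ∑ i, aeval (m.ι1 A (m.sA A)) (p i) • G.res0 (fr.e0 i) := by
  simp [coord_apply, LinearMap.map_smulₛₗ, m.ι1_aeval, fr.comm]

/-- Clearing the denominators of a section of the second chart. -/
theorem tA_pow_res1_coord {n : ℕ} (r : Fin d → A[X]) (h : ∀ i, (r i).natDegree ≤ n) :
    m.ι0 A (m.tA A) ^ n • G.res1 (coord (m.sA A) fr.e1 r) =
      G.res0 (coord (m.tA A) fr.e0 fun i => revPoly n (r i)) := by
  rw [fr.res1_coord, fr.res0_coord, Finset.smul_sum]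
  refine Finset.sum_congr rfl fun i _ => ?_
  rw [smul_smul, aeval_revPoly (m.ι0_tA_mul A) n _ (h i)]

include fr in
/-- A frame forces the twist down to have no cohomology. -/
theorem down_acyclic : G.down.Acyclic := by
  constructor
  · refine (injective_iff_map_eq_zero G.down.cech).2 ?_
    suffices ∀ (x : G.M0) (y : G.M1), G.res0 x = m.ι1 A (m.sA A) • G.res1 y → x = 0 ∧ y = 0 from
      fun z hz => Prod.ext_iff.2 (this z.1 z.2 (sub_eq_zero.1 hz))
    intro x y hxy
    obtain ⟨p, rfl⟩ := fr.bij0.surjective x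
    obtain ⟨r, rfl⟩ := fr.bij1.surjective y
    set K := Finset.univ.sup fun i => (r i).natDegree
    have hK : ∀ i, (r i).natDegree ≤ K := fun i =>
      Finset.le_sup (f := fun i => (r i).natDegree) (Finset.mem_univ i)
    have h : (X : A[X]) ^ (K + 1) • p = fun i => revPoly K (r i) := by
      refine fr.bij0.injective (G.res0_injective ?_)
      rw [coord_smul, LinearMap.map_smulₛₗ, ← fr.tA_pow_res1_coord r hK, hxy, m.ι0_aeval,
        map_pow, aeval_X, pow_succ, smul_smul, mul_assoc, m.ι0_tA_mul, mul_one]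
    have hp : p = 0 := by
      funext i
      ext j
      have h1 := congrArg (fun f : A[X] => f.coeff (j + (K + 1))) (congrFun h i)
      simp only [Pi.smul_apply, smul_eq_mul, coeff_X_pow_mul] at h1
      rw [h1, coeff_revPoly, if_neg (by omega)]
      rfl
    subst hp
    refine ⟨map_zero _, ?_⟩
    have hr : r = 0 := by
      funext i
      ext j
      by_cases hj : j ≤ K
      · have h1 := congrArg (fun f : A[X] => f.coeff (K - j)) (congrFun h i)
        simp only [smul_zero, Pi.zero_apply, coeff_zero, coeff_revPoly, if_pos (Nat.sub_le K j),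
          show K - (K - j) = j by omega] at h1
        exact h1.symm
      · exact coeff_eq_zero_of_natDegree_lt (lt_of_le_of_lt (hK i) (by omega))
    rw [hr, map_zero]
  · show ∀ z : G.M01, ∃ a, G.down.cech a = z
    intro z
    obtain ⟨n, y, hy⟩ := G.exists_sA_pow_smul z
    obtain ⟨r, rfl⟩ := fr.bij1.surjective y
    rcases subsingleton_or_nontrivial A with hA | hA
    · have := Module.subsingleton A G.down.M01
      exact ⟨0, Subsingleton.elim _ _⟩
    let lo : Fin d → A[X] := fun i => r i %ₘ X ^ (n + 1)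
    let hi : Fin d → A[X] := fun i => r i /ₘ X ^ (n + 1)
    have hr : r = lo + (X : A[X]) ^ (n + 1) • hi := funext fun i =>
      (modByMonic_add_div (r i) (X ^ (n + 1))).symm
    have hlo : ∀ i, (lo i).natDegree ≤ n := fun i => by
      have h1 : (lo i).natDegree < ((X : A[X]) ^ (n + 1)).natDegree :=
        natDegree_modByMonic_lt _ (monic_X_pow _) fun h => by
          simpa using congrArg natDegree h
      rw [natDegree_X_pow] at h1
      omega
    refine ⟨(coord (m.tA A) fr.e0 fun i => revPoly n (lo i), -coord (m.sA A) fr.e1 hi), ?_⟩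
    show G.res0 (coord (m.tA A) fr.e0 fun i => revPoly n (lo i)) -
      m.ι1 A (m.sA A) • G.res1 (-coord (m.sA A) fr.e1 hi) = z
    have hz : z = m.ι0 A (m.tA A) ^ n • G.res1 (coord (m.sA A) fr.e1 r) := by
      rw [hy, smul_smul, m.tA_pow_mul_sA_pow, one_smul]
    rw [hz, hr, map_add, map_add, smul_add, fr.tA_pow_res1_coord lo hlo, map_neg, smul_neg,
      sub_neg_eq_add, coord_smul, LinearMap.map_smulₛₗ, m.ι1_aeval, map_pow, aeval_X, smul_smul,
      pow_succ, ← mul_assoc, m.tA_pow_mul_sA_pow, one_mul]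

/-- Global sections are combinations of the frame. -/
theorem eq_sum (v : G.V0) : v = ∑ i, fr.π i (v : G.M0) • fr.sec i := by
  obtain ⟨p, hp⟩ := fr.bij0.surjective (v : G.M0)
  set N := (Finset.univ.sup fun i => (p i).natDegree) + 1
  let w : ℕ → G.V0 := fun j => ∑ i, (p i).coeff j • fr.sec i
  have hN : ∀ i, (p i).natDegree < N := fun i =>
    Nat.lt_succ_of_le (Finset.le_sup (f := fun i => (p i).natDegree) (Finset.mem_univ i))
  have hsum : ∑ j ∈ Finset.range N, m.tA A ^ j • (w j : G.M0) = v := by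
    rw [← hp, coord_apply]
    simp only [w, Submodule.coe_sum, SetLike.val_smul, Finset.smul_sum]
    rw [Finset.sum_comm]
    refine Finset.sum_congr rfl fun i _ => ?_
    rw [aeval_eq_sum_range' (hN i), Finset.sum_smul]
    refine Finset.sum_congr rfl fun j _ => ?_
    show m.tA A ^ j • (p i).coeff j • fr.e0 i = _
    rw [← IsScalarTower.algebraMap_smul (m.R0 A) ((p i).coeff j) (fr.e0 i), smul_smul,
      Algebra.smul_def, mul_comm]
  have hv : v = w 0 := by
    let w' : ℕ → G.V0 := fun j => if j = 0 then w 0 - v else w j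
    have h0 : ∑ j ∈ Finset.range N, m.tA A ^ j • (w' j : G.M0) = 0 := by
      have hN' : N = (Finset.univ.sup fun i => (p i).natDegree) + 1 := rfl
      rw [hN', Finset.sum_range_succ'] at hsum ⊢
      simp only [w', Nat.succ_ne_zero, if_false, if_true, pow_zero, one_smul,
        AddSubgroupClass.coe_sub] at hsum ⊢
      rw [← add_sub_assoc, hsum, sub_self]
    exact (sub_eq_zero.1 (eq_zero_sum0 fr.down_acyclic N w' h0 0 (Nat.succ_pos _))).symm
  have hπ : ∀ i, fr.π i (v : G.M0) = (p i).coeff 0 := fun i => by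
    rw [hv]
    simp only [w, Submodule.coe_sum, SetLike.val_smul, map_sum, fr.π_smul]
    rw [Finset.sum_eq_single i]
    · rw [show ((fr.sec i : G.V0) : G.M0) = fr.e0 i from rfl, fr.π_e, if_pos rfl, mul_one]
    · intro j _ hj
      rw [show ((fr.sec j : G.V0) : G.M0) = fr.e0 j from rfl, fr.π_e, if_neg (Ne.symm hj),
        mul_zero]
    · exact fun h => absurd (Finset.mem_univ i) h
  simp only [hπ]
  exact hv

theorem l_toV1 (v : G.V0) : fr.l (G.toV1 v) = ∑ i, fr.π i (v : G.M0) := by
  conv_lhs => rw [fr.eq_sum v]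
  simp [fr.l_smul, fr.toV1_sec, fr.l_e]

/-- Multiplication on the first chart in the coordinates of a frame. -/
noncomputable def mat0 : m.R0 A →+* Matrix (Fin d) (Fin d) A[X] := coordMat fr.bij0

/-- Multiplication on the second chart in the coordinates of a frame. -/
noncomputable def mat1 : m.R1 A →+* Matrix (Fin d) (Fin d) A[X] := coordMat fr.bij1

/-- The coordinates of two frames agree up to a common scalar. -/
theorem exists_scalar_eq [Nonempty (Fin d)] (fr' : G.Frame q) :
    ∃ c : A, (∀ i, fr'.e0 i = c • fr.e0 i) ∧ ∀ i, fr'.e1 i = c • fr.e1 i := by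
  classical
  let r : Fin d → A := fun i => fr.π i (fr'.e0 i)
  have hsec : ∀ i, fr'.sec i = r i • fr.sec i := fun i => by
    refine (fr.eq_sum (fr'.sec i)).trans (Finset.sum_eq_single i (fun j _ hj => ?_)
      fun h => absurd (Finset.mem_univ i) h)
    have h0 : fr.π j (fr'.e0 i) = 0 := by
      rw [Point.eq_mul_of_surjective (fr'.π j)
        (fun a => ⟨a • fr'.e0 j, by rw [fr'.π_smul, fr'.π_e, if_pos rfl, mul_one]⟩)
        (d₀ := fr'.e0 j) (by rw [fr'.π_e, if_pos rfl]) (fr.π j), fr'.π_e, if_neg hj, zero_mul]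
    rw [show ((fr'.sec i : G.V0) : G.M0) = fr'.e0 i from rfl, h0, zero_smul]
  obtain ⟨i₀⟩ := ‹Nonempty (Fin d)›
  have hu : ∀ i, r i * fr'.l (fr.e1 i₀) = 1 := fun i => by
    have h1 : fr'.e1 i = r i • fr.e1 i := by
      rw [← fr'.toV1_sec, hsec, map_smul, fr.toV1_sec]
    rw [← fr'.l_e i, h1, fr'.l_smul, Point.eq_mul_of_surjective fr.l
      (fun a => ⟨a • fr.e1 i₀, by rw [fr.l_smul, fr.l_e, mul_one]⟩)
      (d₀ := fr.e1 i₀) (fr.l_e i₀) fr'.l (fr.e1 i), fr.l_e, one_mul]
  have hr : ∀ i, r i = r i₀ := fun i => by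
    calc r i = r i * (r i₀ * fr'.l (fr.e1 i₀)) := by rw [hu, mul_one]
      _ = r i * fr'.l (fr.e1 i₀) * r i₀ := by ring
      _ = r i₀ := by rw [hu, one_mul]
  refine ⟨r i₀, fun i => ?_, fun i => ?_⟩
  · exact (congrArg Subtype.val (hsec i)).trans (by rw [hr]; rfl)
  · rw [← fr'.toV1_sec, hsec, map_smul, fr.toV1_sec, hr]

/-- The matrices do not depend on the frame. -/
theorem mat_eq (fr' : G.Frame q) : fr'.mat0 = fr.mat0 ∧ fr'.mat1 = fr.mat1 := by
  rcases isEmpty_or_nonempty (Fin d) with hd | hd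
  · exact ⟨RingHom.ext fun r => Matrix.ext fun i => isEmptyElim i,
      RingHom.ext fun r => Matrix.ext fun i => isEmptyElim i⟩
  obtain ⟨c, hc0, hc1⟩ := fr.exists_scalar_eq fr'
  exact ⟨RingHom.ext fun r => coordMat_smul_eq fr.bij0 (c := algebraMap A (m.R0 A) c)
      (fun i => (hc0 i).trans (IsScalarTower.algebraMap_smul _ _ _).symm) fr'.bij0 r,
    RingHom.ext fun r => coordMat_smul_eq fr.bij1 (c := algebraMap A (m.R1 A) c)
      (fun i => (hc1 i).trans (IsScalarTower.algebraMap_smul _ _ _).symm) fr'.bij1 r⟩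

end Frame

end LineData

end Fermat.Agent.Jac
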