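import Fermat.Agent.Jac.Chart.Frame

/-!
# The ideals of finitely many constant points

`exists_hasSub_pts` and `exists_hasSub_eps` give the subbundles cut out by these ideals.
-/

set_option autoImplicit false

universe u

open scoped TensorProduct

namespace Fermat.Agent.Jac

variable {k : Type u} [Field k] {m : CurveModel k} {A : Type u} [CommRing A] [Algebra k A]

/-- A vector killed by a trivialisation lies in the kernel of the ring map. -/
theorem mem_ker_smul_top {R M : Type u} [CommRing R] [AddCommGroup M] [Module R M]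
    [Module.Invertible R M] {S : Type u} [CommRing S] (ε : R →+* S) (hε : Function.Surjective ε)
    (l : M →ₛₗ[ε] S) (hl : Function.Surjective l) {y : M} (hy : l y = 0) :
    y ∈ RingHom.ker ε • (⊤ : Submodule R M) := by
  let := ε.toAlgebra
  let l' : M →ₗ[R] S :=
    { toFun := l, map_add' := l.map_add, map_smul' := fun r x => l.map_smulₛₗ r x }
  have hsurj : Function.Surjective (l'.liftBaseChange S) := fun s => by
    obtain ⟨x, rfl⟩ := hl s
    exact ⟨1 ⊗ₜ x, by simp [l']⟩
  have h1 : (1 : S) ⊗ₜ[R] y = 0 :=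
    (Module.Invertible.bijective_of_surjective hsurj).1 (by simp [l', hy])
  let i : RingHom.ker ε →ₗ[R] R := (RingHom.ker ε).subtype
  have hex : Function.Exact i (Algebra.linearMap R S) := fun r => by
    refine ⟨fun h => ⟨⟨r, h⟩, rfl⟩, ?_⟩
    rintro ⟨⟨r', h⟩, rfl⟩
    exact h
  obtain ⟨z, hz⟩ := (rTensor_exact M hex hε ((1 : R) ⊗ₜ y)).1 (by
    rw [LinearMap.rTensor_tmul, Algebra.linearMap_apply, map_one, h1])
  have hy' : y = TensorProduct.lid R M (i.rTensor M z) := by rw [hz]; simp
  rw [hy']
  clear hz hy'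
  induction z using TensorProduct.induction_on with
  | zero => simp
  | tmul r x =>
    simp only [LinearMap.rTensor_tmul, TensorProduct.lid_tmul]
    exact Submodule.smul_mem_smul r.2 trivial
  | add a b ha hb => rw [map_add, map_add]; exact add_mem ha hb

/-- Semilinear maps kill the multiples of the kernel. -/
theorem apply_eq_zero_of_mem {R M : Type u} [CommRing R] [AddCommGroup M] [Module R M] {S : Type u}
    [CommRing S] {ε : R →+* S} (l : M →ₛₗ[ε] S) {y : M}
    (hy : y ∈ RingHom.ker ε • (⊤ : Submodule R M)) : l y = 0 := by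
  refine Submodule.smul_induction_on hy (fun r hr x _ => ?_) fun x y hx hy => ?_
  · rw [LinearMap.map_smulₛₗ, RingHom.mem_ker.1 hr, zero_smul]
  · rw [map_add, hx, hy, add_zero]

namespace CurveModel

variable (m A) {d : ℕ} (q : Fin d → (m.B0 →ₐ[k] k))

/-- The ideal of a point of the first chart, in the first chart. -/
noncomputable abbrev pt0 (i : Fin d) : Ideal (m.R0 A) :=
  RingHom.ker (m.ev0 (cstPoint A (q i)))

/-- The ideal of a point of the first chart, in the second chart. -/
noncomputable abbrev pt1 (i : Fin d) : Ideal (m.R1 A) :=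
  ((m.pt0 A q i).map (m.ι0 A)).comap (m.ι1 A)

/-- The ideal of some points, in the first chart. -/
noncomputable def pts0 (S : Finset (Fin d)) : Ideal (m.R0 A) := ∏ i ∈ S, m.pt0 A q i

/-- The ideal of some points, in the second chart. -/
noncomputable def pts1 (S : Finset (Fin d)) : Ideal (m.R1 A) := ∏ i ∈ S, m.pt1 A q i

variable {m A q}

theorem pts_map (S : Finset (Fin d)) :
    (m.pts0 A q S).map (m.ι0 A) = (m.pts1 A q S).map (m.ι1 A) := by
  classical
  induction S using Finset.induction with
  | empty => simp [pts0, pts1, Ideal.map_top]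
  | insert a S ha ih =>
    rw [pts0, pts1, Finset.prod_insert ha, Finset.prod_insert ha, Ideal.map_mul, Ideal.map_mul]
    exact congrArg₂ (· * ·) (Point.injAway1.map_comap _).symm ih

theorem exists_inv_sA (S : Finset (Fin d)) :
    ∃ u : m.R1 A, u * m.sA A - 1 ∈ m.pts1 A q S := by
  classical
  induction S using Finset.induction with
  | empty => exact ⟨0, by simp [pts1]⟩
  | insert a S ha ih =>
    obtain ⟨b, hb⟩ := ih
    set c : m.R1 A := cstPoint A (q a) m.t ⊗ₜ[k] (1 : m.B1)
    refine ⟨c + b - c * b * m.sA A, ?_⟩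
    rw [pts1, Finset.prod_insert ha, show (c + b - c * b * m.sA A) * m.sA A - 1 =
      -((c * m.sA A - 1) * (b * m.sA A - 1)) by ring]
    exact neg_mem (Ideal.mul_mem_mul (Point.ι1_cut1_mem _) hb)

theorem pts0_le {S : Finset (Fin d)} {i : Fin d} (hi : i ∈ S) : m.pts0 A q S ≤ m.pt0 A q i :=
  Ideal.le_of_dvd (Finset.dvd_prod_of_mem _ hi)

theorem algebraMap_sub_mem (i : Fin d) (r : m.R0 A) :
    r - algebraMap A (m.R0 A) (m.ev0 (cstPoint A (q i)) r) ∈ m.pt0 A q i := by
  rw [RingHom.mem_ker, map_sub, m.ev0_algebraMap, sub_self]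

variable (hq : Function.Injective fun i => q i m.t)

include hq in
theorem exists_separator (i : Fin d) (S : Finset (Fin d)) (hi : i ∉ S) :
    ∃ c ∈ m.pts0 A q S, 1 - c ∈ m.pt0 A q i := by
  classical
  induction S using Finset.induction with
  | empty => exact ⟨1, by simp [pts0], by simp⟩
  | insert a S ha ih =>
    rw [Finset.mem_insert, not_or] at hi
    obtain ⟨c, hc, hc'⟩ := ih hi.2
    set x : m.R0 A := m.tA A - algebraMap A _ (algebraMap k A (q a m.t))
    set e : m.R0 A := algebraMap A _ (algebraMap k A (q i m.t - q a m.t)⁻¹) * x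
    have hx : m.ev0 (cstPoint A (q a)) x = 0 := by
      rw [map_sub, m.ev0_tA, m.ev0_algebraMap]
      exact sub_self _
    have he : m.ev0 (cstPoint A (q i)) e = 1 := by
      have hne : q i m.t - q a m.t ≠ 0 := sub_ne_zero.2 fun h => hi.1 (hq h)
      rw [map_mul, map_sub, m.ev0_algebraMap, m.ev0_algebraMap, m.ev0_tA]
      show algebraMap k A _ * (algebraMap k A (q i m.t) - algebraMap k A (q a m.t)) = 1
      rw [← map_sub, ← map_mul, inv_mul_cancel₀ hne, map_one]
    refine ⟨e * c, ?_, ?_⟩
    · rw [pts0, Finset.prod_insert ha]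
      exact Ideal.mul_mem_mul (Ideal.mul_mem_left _ _ (RingHom.mem_ker.2 hx)) hc
    · have h1 : 1 - e ∈ m.pt0 A q i := by
        rw [RingHom.mem_ker, map_sub, he, map_one, sub_self]
      rw [show 1 - e * c = (1 - e) + e * (1 - c) by ring]
      exact add_mem h1 (Ideal.mul_mem_left _ _ hc')

include hq in
theorem mem_pts0_smul_top {M : Type u} [AddCommGroup M] [Module (m.R0 A) M] {x : M}
    (S : Finset (Fin d)) (h : ∀ i ∈ S, x ∈ m.pt0 A q i • (⊤ : Submodule (m.R0 A) M)) :
    x ∈ m.pts0 A q S • (⊤ : Submodule (m.R0 A) M) := by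
  classical
  induction S using Finset.induction with
  | empty => simp [pts0]
  | insert a S ha ih =>
    obtain ⟨c, hc, hc'⟩ := exists_separator (A := A) hq a S ha
    rw [pts0, Finset.prod_insert ha]
    exact mem_mul_smul_top hc' hc (sub_add_cancel 1 c) (h a (Finset.mem_insert_self a S))
      (ih fun i hi => h i (Finset.mem_insert_of_mem hi))

end CurveModel

namespace LineData

variable {d : ℕ} {q : Fin d → (m.B0 →ₐ[k] k)}

/-- The subbundle cut out by finitely many points. -/
theorem exists_hasSub_pts (G : LineData m A) (S : Finset (Fin d)) :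
    ∃ F : LineData m A, Cl.mk F = Cl.mk G * ∏ i ∈ S, Cl.point0 (cstPoint A (q i)) ∧
      F.HasSub G (m.pts0 A q S) (m.pts1 A q S) := by
  classical
  induction S using Finset.induction with
  | empty =>
    exact ⟨G, by simp, by simpa [CurveModel.pts0, CurveModel.pts1] using G.hasSub_refl⟩
  | insert a S ha ih =>
    obtain ⟨F, hF, hs⟩ := ih
    obtain ⟨P, hP, hPI⟩ : ∃ P : LineData m A, Cl.mk P = Cl.point0 (cstPoint A (q a)) ∧
        P.HasIdeals (m.pt0 A q a) (m.pt1 A q a) :=
      ⟨_, rfl, (exists_isPointIdeal0 (cstPoint A (q a))).choose_spec.hasIdeals⟩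
    obtain ⟨F', hF'⟩ := exists_isProduct F P
    refine ⟨F', ?_, ?_⟩
    · rw [← Cl.mk_mul hF', hF, hP, Finset.prod_insert ha, mul_assoc]
      congr 1
      exact mul_comm _ _
    · rw [CurveModel.pts0, CurveModel.pts1, Finset.prod_insert ha, Finset.prod_insert ha]
      exact (hPI.hasSub hF').trans hs

/-- The subbundle cut out by finitely many points and the marked point. -/
theorem exists_hasSub_eps (G : LineData m A) (S : Finset (Fin d)) :
    ∃ F : LineData m A, Cl.mk F =
      Cl.mk G * (∏ i ∈ S, Cl.point0 (cstPoint A (q i))) * Cl.point1 (cstPoint A m.eps) ∧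
      F.HasSub G (m.pts0 A q S) (RingHom.ker (m.epsA A) * m.pts1 A q S) := by
  obtain ⟨F, hF, hs⟩ := G.exists_hasSub_pts (q := q) S
  obtain ⟨P, hP, hPI⟩ : ∃ P : LineData m A, Cl.mk P = Cl.point1 (cstPoint A m.eps) ∧
      P.HasIdeals (((RingHom.ker (m.ev1 (cstPoint A m.eps))).map (m.ι1 A)).comap (m.ι0 A))
        (RingHom.ker (m.ev1 (cstPoint A m.eps))) :=
    ⟨_, rfl, (exists_isPointIdeal1 (cstPoint A m.eps)).choose_spec.hasIdeals⟩
  obtain ⟨F', hF'⟩ := exists_isProduct F P
  refine ⟨F', by rw [← Cl.mk_mul hF', hF, hP], ?_⟩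
  have htop : ((RingHom.ker (m.ev1 (cstPoint A m.eps))).map (m.ι1 A)).comap (m.ι0 A) = ⊤ := by
    refine Ideal.eq_top_of_isUnit_mem _ (Point.ι0_cut0_mem (cstPoint A m.eps)) ?_
    simp [Point.cut0, m.eps_s, isUnit_one.neg]
  have h := (hPI.hasSub hF').trans hs
  rw [htop, Ideal.top_mul] at h
  exact h

end LineData

end Fermat.Agent.Jac
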