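import Fermat.Agent.Jac.Chart.Tuple

/-!
# The algebra representing tuples

The variables are the coefficients of the matrices of finitely many generators of the two charts;
the relations are all the polynomials vanishing on every tuple.
-/

set_option autoImplicit false

universe u

open scoped TensorProduct
open Polynomial

namespace Fermat.Agent.Jac

variable {k : Type u} [Field k] {m : CurveModel k}

namespace ChartSetup.Tuple

variable {S : ChartSetup m} {A : Type u} [CommRing A] [Algebra k A]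

theorem exists_degree0 (S : ChartSetup m) (b : m.B0) :
    ∃ n : ℕ, ∀ (A : Type u) [CommRing A] [Algebra k A] (T : S.Tuple A) i j,
      (T.F0 b i j).natDegree ≤ n := by
  obtain ⟨n, b1, h⟩ := m.surj1 (m.i0 b)
  exact ⟨n, fun A _ _ T i j => by
    rw [(T.compat n b b1 h).2 i j]; exact natDegree_revPoly_le n _⟩

theorem exists_degree1 (S : ChartSetup m) (b : m.B1) :
    ∃ n : ℕ, ∀ (A : Type u) [CommRing A] [Algebra k A] (T : S.Tuple A) i j,
      (T.F1 b i j).natDegree ≤ n := by
  obtain ⟨n, b0, h⟩ := m.surj0 (m.i1 b)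
  have h' : m.i1 b = m.i1 m.s ^ n * m.i0 b0 := by
    rw [h, ← mul_assoc, ← mul_pow, mul_comm (m.i1 m.s), m.t_mul_s, one_pow, one_mul]
  exact ⟨n, fun A _ _ T i j => by
    rw [(T.compat n b0 b h').1 i j]; exact natDegree_revPoly_le n _⟩

end ChartSetup.Tuple

/-- Matrices over a polynomial ring that are the values of a map of algebras at every tuple form a
subalgebra. -/
theorem exists_lift_of_adjoin {Q B : Type u} [CommRing Q] [Algebra k Q] [CommRing B] [Algebra k B]
    {P : ∀ (A : Type u) [CommRing A] [Algebra k A], Type u} {d : ℕ} {s : Set B}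
    (hs : Algebra.adjoin k s = ⊤)
    (F : ∀ (A : Type u) [CommRing A] [Algebra k A],
      P A → B →ₐ[k] Matrix (Fin d) (Fin d) A[X])
    (π : ∀ (A : Type u) [CommRing A] [Algebra k A], P A → (Q →ₐ[k] A))
    (h : ∀ g ∈ s, ∃ W, ∀ (A : Type u) [CommRing A] [Algebra k A] (T : P A),
      ChartSetup.mapMat d (π A T) W = F A T g) (b : B) :
    ∃ W, ∀ (A : Type u) [CommRing A] [Algebra k A] (T : P A),
      ChartSetup.mapMat d (π A T) W = F A T b := by
  have hb : b ∈ Algebra.adjoin k s := by rw [hs]; exact Algebra.mem_top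
  induction hb using Algebra.adjoin_induction with
  | mem x hx => exact h x hx
  | algebraMap r =>
    exact ⟨algebraMap k _ r, fun A _ _ T => by rw [AlgHom.commutes, AlgHom.commutes]⟩
  | add x y _ _ hx hy =>
    obtain ⟨W, hW⟩ := hx
    obtain ⟨V, hV⟩ := hy
    exact ⟨W + V, fun A _ _ T => by rw [map_add, map_add, hW, hV]⟩
  | mul x y _ _ hx hy =>
    obtain ⟨W, hW⟩ := hx
    obtain ⟨V, hV⟩ := hy
    exact ⟨W * V, fun A _ _ T => by rw [map_mul, map_mul, hW, hV]⟩

/-- **Tuples are represented by a finitely presented algebra.** -/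
theorem ChartSetup.exists_ring (S : ChartSetup m) :
    ∃ (Q : Type u) (_ : CommRing Q) (_ : Algebra k Q) (_ : Algebra.FinitePresentation k Q)
      (T : S.Tuple Q), ∀ (A : Type u) [CommRing A] [Algebra k A] (T' : S.Tuple A),
      ∃! φ : Q →ₐ[k] A, T.map φ = T' := by
  classical
  obtain ⟨s0, hs0⟩ := (Point.finiteType_of_finite m.t m.finite0).out
  obtain ⟨s1, hs1⟩ := (Point.finiteType_of_finite m.s m.finite1).out
  choose N0 hN0 using fun g : s0 => ChartSetup.Tuple.exists_degree0 S g.1
  choose N1 hN1 using fun g : s1 => ChartSetup.Tuple.exists_degree1 S g.1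
  let ι : Type u := (Σ g : s0, Fin m.deg × Fin m.deg × Fin (N0 g + 1)) ⊕
    (Σ g : s1, Fin m.deg × Fin m.deg × Fin (N1 g + 1))
  let slot : ∀ (A : Type u) [CommRing A] [Algebra k A], S.Tuple A → ι → A := fun A _ _ T =>
    Sum.elim (fun x => (T.F0 x.1.1 x.2.1 x.2.2.1).coeff x.2.2.2)
      (fun x => (T.F1 x.1.1 x.2.1 x.2.2.1).coeff x.2.2.2)
  let ev : ∀ (A : Type u) [CommRing A] [Algebra k A], S.Tuple A → (MvPolynomial ι k →ₐ[k] A) :=
    fun A _ _ T => MvPolynomial.aeval (slot A T)
  let I : Ideal (MvPolynomial ι k) :=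
    { carrier := {p | ∀ (A : Type u) [CommRing A] [Algebra k A] (T : S.Tuple A), ev A T p = 0}
      add_mem' := fun hp hq A _ _ T => by rw [map_add, hp A T, hq A T, add_zero]
      zero_mem' := fun A _ _ T => map_zero _
      smul_mem' := fun c p hp A _ _ T => by rw [smul_eq_mul, map_mul, hp A T, mul_zero] }
  let Q : Type u := MvPolynomial ι k ⧸ I
  let π : ∀ (A : Type u) [CommRing A] [Algebra k A], S.Tuple A → (Q →ₐ[k] A) :=
    fun A _ _ T => Ideal.Quotient.liftₐ I (ev A T) fun p hp => hp A T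
  have hsep : ∀ p q : Q, (∀ (A : Type u) [CommRing A] [Algebra k A] (T : S.Tuple A),
      π A T p = π A T q) → p = q := by
    intro p q h
    obtain ⟨p, rfl⟩ := Ideal.Quotient.mk_surjective p
    obtain ⟨q, rfl⟩ := Ideal.Quotient.mk_surjective q
    refine Ideal.Quotient.eq.2 fun A _ _ T => ?_
    rw [map_sub, sub_eq_zero]
    exact h A T
  have hmat : ∀ W V : Matrix (Fin m.deg) (Fin m.deg) Q[X],
      (∀ (A : Type u) [CommRing A] [Algebra k A] (T : S.Tuple A),
        mapMat m.deg (π A T) W = mapMat m.deg (π A T) V) → W = V := by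
    intro W V h
    refine Matrix.ext fun i j => Polynomial.ext fun n => hsep _ _ fun A _ _ T => ?_
    have h' := congrArg (fun M : Matrix (Fin m.deg) (Fin m.deg) A[X] => (M i j).coeff n) (h A T)
    simpa using h'
  have hX : ∀ (A : Type u) [CommRing A] [Algebra k A] (T : S.Tuple A) (x : ι),
      π A T (Ideal.Quotient.mk I (MvPolynomial.X x)) = slot A T x := fun A _ _ T x =>
    MvPolynomial.aeval_X (slot A T) x
  let var : ι → Q := fun x => Ideal.Quotient.mk I (MvPolynomial.X x)
  let W0 : s0 → Matrix (Fin m.deg) (Fin m.deg) Q[X] := fun g => Matrix.of fun i j =>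
    ∑ n : Fin (N0 g + 1), monomial (n : ℕ) (var (Sum.inl ⟨g, i, j, n⟩))
  let W1 : s1 → Matrix (Fin m.deg) (Fin m.deg) Q[X] := fun g => Matrix.of fun i j =>
    ∑ n : Fin (N1 g + 1), monomial (n : ℕ) (var (Sum.inr ⟨g, i, j, n⟩))
  have hW0 : ∀ (g : s0) (A : Type u) [CommRing A] [Algebra k A] (T : S.Tuple A),
      mapMat m.deg (π A T) (W0 g) = T.F0 g.1 := by
    intro g A _ _ T
    refine Matrix.ext fun i j => ?_
    rw [mapMat_apply, as_sum_range' (T.F0 g.1 i j) (N0 g + 1) (Nat.lt_succ_of_le (hN0 g A T i j))]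
    simp only [W0, Matrix.of_apply, Polynomial.map_sum, Polynomial.map_monomial]
    rw [Finset.sum_range]
    exact Finset.sum_congr rfl fun n _ => congrArg (monomial (n : ℕ)) (hX A T _)
  have hW1 : ∀ (g : s1) (A : Type u) [CommRing A] [Algebra k A] (T : S.Tuple A),
      mapMat m.deg (π A T) (W1 g) = T.F1 g.1 := by
    intro g A _ _ T
    refine Matrix.ext fun i j => ?_
    rw [mapMat_apply, as_sum_range' (T.F1 g.1 i j) (N1 g + 1) (Nat.lt_succ_of_le (hN1 g A T i j))]
    simp only [W1, Matrix.of_apply, Polynomial.map_sum, Polynomial.map_monomial]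
    rw [Finset.sum_range]
    exact Finset.sum_congr rfl fun n _ => congrArg (monomial (n : ℕ)) (hX A T _)
  choose F hF using exists_lift_of_adjoin (P := fun A _ _ => S.Tuple A) hs0
    (fun A _ _ T => T.F0) π fun g hg => ⟨W0 ⟨g, hg⟩, fun A _ _ T => hW0 ⟨g, hg⟩ A T⟩
  choose G hG using exists_lift_of_adjoin (P := fun A _ _ => S.Tuple A) hs1
    (fun A _ _ T => T.F1) π fun g hg => ⟨W1 ⟨g, hg⟩, fun A _ _ T => hW1 ⟨g, hg⟩ A T⟩
  let F0 : m.B0 →ₐ[k] Matrix (Fin m.deg) (Fin m.deg) Q[X] :=
    { toFun := F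
      map_one' := hmat _ _ fun A _ _ T => by rw [hF, map_one, map_one]
      map_mul' := fun a b => hmat _ _ fun A _ _ T => by rw [hF, map_mul, map_mul, hF, hF]
      map_zero' := hmat _ _ fun A _ _ T => by rw [hF, map_zero, map_zero]
      map_add' := fun a b => hmat _ _ fun A _ _ T => by rw [hF, map_add, map_add, hF, hF]
      commutes' := fun r => hmat _ _ fun A _ _ T => by rw [hF, AlgHom.commutes, AlgHom.commutes] }
  let F1 : m.B1 →ₐ[k] Matrix (Fin m.deg) (Fin m.deg) Q[X] :=
    { toFun := G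
      map_one' := hmat _ _ fun A _ _ T => by rw [hG, map_one, map_one]
      map_mul' := fun a b => hmat _ _ fun A _ _ T => by rw [hG, map_mul, map_mul, hG, hG]
      map_zero' := hmat _ _ fun A _ _ T => by rw [hG, map_zero, map_zero]
      map_add' := fun a b => hmat _ _ fun A _ _ T => by rw [hG, map_add, map_add, hG, hG]
      commutes' := fun r => hmat _ _ fun A _ _ T => by rw [hG, AlgHom.commutes, AlgHom.commutes] }
  have hF0 : ∀ (A : Type u) [CommRing A] [Algebra k A] (T : S.Tuple A) (b : m.B0) i j,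
      (F0 b i j).map (π A T).toRingHom = T.F0 b i j := fun A _ _ T b i j =>
    congrArg (fun M : Matrix (Fin m.deg) (Fin m.deg) A[X] => M i j) (hF b A T)
  have hF1 : ∀ (A : Type u) [CommRing A] [Algebra k A] (T : S.Tuple A) (b : m.B1) i j,
      (F1 b i j).map (π A T).toRingHom = T.F1 b i j := fun A _ _ T b i j =>
    congrArg (fun M : Matrix (Fin m.deg) (Fin m.deg) A[X] => M i j) (hG b A T)
  have hpoly : ∀ p q : Q[X], (∀ (A : Type u) [CommRing A] [Algebra k A] (T : S.Tuple A),
      p.map (π A T).toRingHom = q.map (π A T).toRingHom) → p = q := fun p q h =>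
    Polynomial.ext fun n => hsep _ _ fun A _ _ T => by
      simpa using congrArg (fun f : A[X] => f.coeff n) (h A T)
  let Tu : S.Tuple Q :=
    { F0 := F0
      F1 := F1
      F0_t := hmat _ _ fun A _ _ T => by
        rw [Tuple.mapMat_scalar_X]; exact (hF m.t A T).trans T.F0_t
      F1_s := hmat _ _ fun A _ _ T => by
        rw [Tuple.mapMat_scalar_X]; exact (hG m.s A T).trans T.F1_s
      compat := fun n b0 b1 h => by
        refine ⟨fun i j => hpoly _ _ fun A _ _ T => ?_, fun i j => hpoly _ _ fun A _ _ T => ?_⟩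
        · rw [map_revPoly, hF0, hF1]; exact (T.compat n b0 b1 h).1 i j
        · rw [map_revPoly, hF0, hF1]; exact (T.compat n b0 b1 h).2 i j
      eval_q := fun b i j => hsep _ _ fun A _ _ T => by
        show (π A T).toRingHom _ = _
        rw [← eval_map_apply, hF0]
        show (T.F0 b i j).eval (π A T (algebraMap k Q (S.q i m.t))) = _
        rw [AlgHom.commutes, T.eval_q]
        split_ifs
        · exact (AlgHom.commutes _ _).symm
        · exact (map_zero _).symm
      sum_eps := fun b j => hsep _ _ fun A _ _ T => by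
        rw [map_sum, AlgHom.commutes, ← T.sum_eps b j]
        exact Finset.sum_congr rfl fun i _ => by rw [← hF1 A T b i j, coeff_map]; rfl }
  refine ⟨Q, inferInstance, inferInstance, Algebra.FinitePresentation.of_finiteType.mp
    (Algebra.FiniteType.of_surjective (Ideal.Quotient.mkₐ k I)
      (Ideal.Quotient.mkₐ_surjective k I)), Tu, fun A _ _ T' => ⟨π A T', ?_, ?_⟩⟩
  · exact Tuple.ext (AlgHom.ext fun b => hF b A T') (AlgHom.ext fun b => hG b A T')
  · intro ψ hψ
    refine Ideal.Quotient.algHom_ext k (MvPolynomial.algHom_ext fun x => ?_)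
    refine Eq.trans ?_ (hX A T' x).symm
    rcases x with ⟨g, i, j, n⟩ | ⟨g, i, j, n⟩
    · have hFW : F g.1 = W0 g := hmat _ _ fun A _ _ T => by rw [hF, hW0]
      show ψ (var (Sum.inl ⟨g, i, j, n⟩)) = (T'.F0 g.1 i j).coeff n
      rw [← hψ]
      show _ = ((F g.1 i j).map ψ.toRingHom).coeff n
      rw [hFW, coeff_map]
      simp [W0, coeff_monomial, Fin.val_inj]
    · have hGW : G g.1 = W1 g := hmat _ _ fun A _ _ T => by rw [hG, hW1]
      show ψ (var (Sum.inr ⟨g, i, j, n⟩)) = (T'.F1 g.1 i j).coeff n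
      rw [← hψ]
      show _ = ((G g.1 i j).map ψ.toRingHom).coeff n
      rw [hGW, coeff_map]
      simp [W1, coeff_monomial, Fin.val_inj]

end Fermat.Agent.Jac
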