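import Fermat.Agent.Jac.Chart.Euler
import Fermat.Agent.Jac.Chart.Points

/-!
# The open set of the chart: existence of frames

`Mem.exists_frame` gives a frame for a member of the open set, and `mem_of_frame` the converse
over a field.
-/

set_option autoImplicit false

universe u

open scoped TensorProduct
open Polynomial

namespace Fermat.Agent.Jac

variable {k : Type u} [Field k]

/-- The fixed choices for the chart. -/
structure ChartSetup (m : CurveModel k) : Type (u + 1) where
  N0 : Cl m k
  euler_N0 : N0.euler = 0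
  q : Fin m.deg → (m.B0 →ₐ[k] k)
  q_injective : Function.Injective fun i => q i m.t

namespace ChartSetup

variable {m : CurveModel k} (S : ChartSetup m)

/-- The twist. -/
noncomputable def N : Cl m k := S.N0 * (Cl.infty m k)⁻¹

/-- The bundles whose twists have to be acyclic. -/
noncomputable def L : Option (Option (Fin m.deg)) → Cl m k
  | none => S.N0
  | some none => S.N * ∏ i, Cl.point0 (S.q i)
  | some (some i) => S.N * (∏ j ∈ Finset.univ.erase i, Cl.point0 (S.q j)) * Cl.point1 m.eps

/-- Membership in the chart. -/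
def Mem {A : Type u} [CommRing A] [Algebra k A] (x : Cl m A) : Prop :=
  ∀ j, (x * Cl.const A (S.L j)).Acyclic

variable {A : Type u} [CommRing A] [Algebra k A]

theorem const_point0 (p : m.B0 →ₐ[k] k) :
    Cl.const A (Cl.point0 p) = Cl.point0 (cstPoint A p) :=
  Cl.map_point0 _ p

theorem const_point1 (p : m.B1 →ₐ[k] k) :
    Cl.const A (Cl.point1 p) = Cl.point1 (cstPoint A p) :=
  Cl.map_point1 _ p

theorem const_L_none :
    Cl.const A (S.L none) = Cl.const A S.N * Cl.infty m A := by
  rw [L, N, map_mul, map_inv, show Cl.const A (Cl.infty m k) = Cl.infty m A from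
    Cl.map_infty _, inv_mul_cancel_right]

theorem const_L_all :
    Cl.const A (S.L (some none)) = Cl.const A S.N * ∏ i, Cl.point0 (cstPoint A (S.q i)) := by
  rw [L, map_mul, map_prod]
  simp only [const_point0]

theorem const_L_some (i : Fin m.deg) :
    Cl.const A (S.L (some (some i))) = Cl.const A S.N *
      (∏ j ∈ Finset.univ.erase i, Cl.point0 (cstPoint A (S.q j))) *
        Cl.point1 (cstPoint A m.eps) := by
  rw [L, map_mul, map_mul, map_prod, const_point1]
  simp only [const_point0]

variable {S}

theorem Mem.map {A' : Type u} [CommRing A'] [Algebra k A'] (φ : A →ₐ[k] A') {x : Cl m A}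
    (hx : S.Mem x) : S.Mem (Cl.map φ x) := fun j => by
  rw [← Cl.map_const φ, ← map_mul]
  exact (hx j).map φ

end ChartSetup

section monomials

variable {A R M : Type u} [CommRing A] [CommRing R] [Algebra A R] [AddCommGroup M] [Module R M]
  [Module A M] [IsScalarTower A R M] {d : ℕ} (t : R) (e : Fin d → M)

/-- Coordinates of a sum of monomials. -/
theorem coord_monomial_sum (n : ℕ) (c : ℕ → Fin d → A) :
    coord t e (fun i => ∑ j ∈ Finset.range n, monomial j (c j i)) =
      ∑ j ∈ Finset.range n, t ^ j • ∑ i, c j i • e i := by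
  simp only [coord_apply, map_sum, aeval_monomial, Finset.sum_smul, Finset.smul_sum]
  rw [Finset.sum_comm]
  refine Finset.sum_congr rfl fun j _ => Finset.sum_congr rfl fun i _ => ?_
  rw [mul_comm, mul_smul, IsScalarTower.algebraMap_smul]

/-- Monotonicity of the multiples of ideals. -/
theorem mem_smul_top_mono {R M : Type u} [CommRing R] [AddCommGroup M] [Module R M] {I J : Ideal R}
    (h : I ≤ J) {x : M} (hx : x ∈ I • (⊤ : Submodule R M)) : x ∈ J • (⊤ : Submodule R M) :=
  Submodule.smul_mono_left h hx

end monomials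

namespace ChartSetup

variable {m : CurveModel k} {S : ChartSetup m} {A : Type u} [CommRing A] [Algebra k A]

/-- **A member of the chart has a frame.** -/
theorem Mem.exists_frame {x : Cl m A} (hx : S.Mem x) (hrig : x.RigTriv) {G : LineData m A}
    (hG : Cl.mk G = x * Cl.const A S.N) : Nonempty (G.Frame S.q) := by
  classical
  have hdown : G.down.Acyclic := by
    rw [← Cl.acyclic_mk, Cl.mk_down, hG, mul_assoc, ← const_L_none]
    exact hx none
  obtain ⟨l, hl⟩ : G.RigTriv := by
    rw [← Cl.rigTriv_mk, hG]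
    exact Cl.rigTriv_mul hrig ((Cl.rigTriv_of_field S.N).map _)
  have hlA : ∀ (a : A) (y : G.M1), l (a • y) = a * l y := fun a y => by
    rw [← IsScalarTower.algebraMap_smul (m.R1 A) a y, LinearMap.map_smulₛₗ, m.epsA_algebraMap,
      smul_eq_mul]
  obtain ⟨y0, hy0⟩ := hl 1
  obtain ⟨Fall, hFall, hsall⟩ := G.exists_hasSub_pts (q := S.q) Finset.univ
  have hall : Fall.Acyclic := by
    rw [← Cl.acyclic_mk, hFall, hG, mul_assoc, ← const_L_all]
    exact hx (some none)
  choose F hF hsF using fun i => G.exists_hasSub_eps (q := S.q) (Finset.univ.erase i)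
  have hFi : ∀ i, (F i).Acyclic := fun i => by
    rw [← Cl.acyclic_mk, hF, hG, show ∀ a b c d : Cl m A, a * b * c * d = a * (b * c * d) from
      fun a b c d => by rw [mul_assoc, mul_assoc, mul_assoc], ← const_L_some]
    exact hx (some (some i))
  choose u hu using fun T : Finset (Fin m.deg) =>
    CurveModel.exists_inv_sA (m := m) (A := A) (q := S.q) T
  have zero_all : ∀ v : G.V0,
      (∀ i, (v : G.M0) ∈ m.pt0 A S.q i • (⊤ : Submodule (m.R0 A) G.M0)) → v = 0 := fun v hv => by
    have h0 := CurveModel.mem_pts0_smul_top S.q_injective Finset.univ fun i _ => hv i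
    exact hsall.eq_zero hall.injective h0
      (LineData.toV1_mem_smul_top (CurveModel.pts_map _) (hu _) h0)
  have zero_i : ∀ (i : Fin m.deg) (v : G.V0),
      (v : G.M0) ∈ m.pts0 A S.q (Finset.univ.erase i) • (⊤ : Submodule (m.R0 A) G.M0) →
      l (G.toV1 v) = 0 → v = 0 := fun i v h0 hl0 => by
    refine (hsF i).eq_zero (hFi i).injective h0 (mem_mul_smul_top
      (a := u (Finset.univ.erase i) * m.sA A) ?_
      (b := -(u (Finset.univ.erase i) * m.sA A - 1)) (neg_mem (hu _)) (by ring)
      (mem_ker_smul_top (m.epsA A) Point.epsA_surjective l hl hl0)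
      (LineData.toV1_mem_smul_top (CurveModel.pts_map _) (hu _) h0))
    exact Ideal.mul_mem_left _ _ (RingHom.mem_ker.2 m.epsA_sA)
  have hbasis : ∀ i, ∃ v : G.V0,
      (v : G.M0) ∈ m.pts0 A S.q (Finset.univ.erase i) • (⊤ : Submodule (m.R0 A) G.M0) ∧
      l (G.toV1 v) = 1 := fun i => by
    set T := Finset.univ.erase i
    set c : m.R1 A := -(u T * m.sA A - 1) with hc
    have hab : G.res0 0 - G.res1 (c • y0) ∈
        (RingHom.ker (m.epsA A) * m.pts1 A S.q T).map (m.ι1 A) •
          (⊤ : Submodule (m.R01 A) G.M01) := by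
      rw [map_zero, zero_sub, LinearMap.map_smulₛₗ, ← one_mul (m.ι1 A c), ← m.ι1_sA_mul A,
        mul_right_comm, ← map_mul, mul_smul]
      exact neg_mem (Submodule.smul_mem_smul (Ideal.mem_map_of_mem _
        (Ideal.mul_mem_mul (RingHom.mem_ker.2 m.epsA_sA) (neg_mem (hu T)))) trivial)
    obtain ⟨v, hv0, hv1⟩ := (hsF i).exists_congr (hFi i).surjective hab
    refine ⟨v, by simpa using hv0, ?_⟩
    have h1 : l (G.toV1 v - c • y0) = 0 :=
      apply_eq_zero_of_mem l
        (mem_smul_top_mono (J := RingHom.ker (m.epsA _))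
          (Ideal.mul_le_inf.trans inf_le_left) hv1)
    rw [map_sub, LinearMap.map_smulₛₗ, hy0, sub_eq_zero] at h1
    rw [h1, hc, map_neg, map_sub, map_mul, m.epsA_sA, map_one]
    simp
  choose e he0 he1 using hbasis
  have he_mem : ∀ i j, i ≠ j →
      (e j : G.M0) ∈ m.pt0 A S.q i • (⊤ : Submodule (m.R0 A) G.M0) := fun i j h =>
    mem_smul_top_mono (CurveModel.pts0_le (Finset.mem_erase.2 ⟨h, Finset.mem_univ i⟩))
      (he0 j)
  have hexist : ∀ (i : Fin m.deg) (a : G.M0),
      ∃ r : A, a - r • (e i : G.M0) ∈ m.pt0 A S.q i • (⊤ : Submodule (m.R0 A) G.M0) := fun i a => by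
    obtain ⟨c, hc, hc'⟩ := CurveModel.exists_separator (A := A) S.q_injective i
      (Finset.univ.erase i) (Finset.notMem_erase i _)
    obtain ⟨b, hb⟩ := LineData.exists_matching (hu Finset.univ) (c • a)
    obtain ⟨v, hv0, -⟩ := hsall.exists_congr hall.surjective hb
    have hvT : (v : G.M0) ∈
        m.pts0 A S.q (Finset.univ.erase i) • (⊤ : Submodule (m.R0 A) G.M0) := by
      have hle : m.pts0 A S.q Finset.univ ≤ m.pts0 A S.q (Finset.univ.erase i) :=
        Ideal.le_of_dvd (Finset.prod_dvd_prod_of_subset _ _ _ (Finset.erase_subset _ _))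
      rw [← sub_add_cancel (v : G.M0) (c • a)]
      exact add_mem (mem_smul_top_mono hle hv0) (Submodule.smul_mem_smul hc trivial)
    have hvi : a - (v : G.M0) ∈ m.pt0 A S.q i • (⊤ : Submodule (m.R0 A) G.M0) := by
      rw [show a - (v : G.M0) = (1 - c) • a - ((v : G.M0) - c • a) by
        rw [sub_smul, one_smul]; abel]
      exact sub_mem (Submodule.smul_mem_smul hc' trivial)
        (mem_smul_top_mono (CurveModel.pts0_le (Finset.mem_univ i)) hv0)
    refine ⟨l (G.toV1 v), ?_⟩
    have hd : v - l (G.toV1 v) • e i = 0 := zero_i i _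
      (sub_mem hvT (Submodule.smul_of_tower_mem _ _ (he0 i)))
      (by rw [map_sub, map_smul, map_sub, hlA, he1, mul_one, sub_self])
    have hv : (v : G.M0) = l (G.toV1 v) • (e i : G.M0) := congrArg Subtype.val (sub_eq_zero.1 hd)
    rw [← hv]
    exact hvi
  have huniq : ∀ (i : Fin m.deg) (r : A),
      r • (e i : G.M0) ∈ m.pt0 A S.q i • (⊤ : Submodule (m.R0 A) G.M0) → r = 0 := fun i r h => by
    have h0 := zero_all (r • e i) fun j => by
      rcases eq_or_ne j i with rfl | hj
      · exact h
      · exact Submodule.smul_of_tower_mem _ _ (he_mem j i hj)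
    have := congrArg (fun v => l (G.toV1 v)) h0
    simpa [map_smul, hlA, he1] using this
  choose π hπ using hexist
  have hπ_eq : ∀ i a r,
      a - r • (e i : G.M0) ∈ m.pt0 A S.q i • (⊤ : Submodule (m.R0 A) G.M0) → π i a = r :=
    fun i a r h => sub_eq_zero.1 <| huniq i _ <| by
      rw [sub_smul, show π i a • (e i : G.M0) - r • (e i : G.M0) =
        (a - r • (e i : G.M0)) - (a - π i a • (e i : G.M0)) by abel]
      exact sub_mem h (hπ i a)
  let p : ∀ i, G.M0 →ₛₗ[m.ev0 (cstPoint A (S.q i))] A := fun i =>
    { toFun := π i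
      map_add' := fun a b => hπ_eq i _ _ <| by
        rw [add_smul, add_sub_add_comm]; exact add_mem (hπ i a) (hπ i b)
      map_smul' := fun r a => hπ_eq i _ _ <| by
        set c := m.ev0 (cstPoint A (S.q i)) r
        rw [smul_eq_mul, mul_smul, ← IsScalarTower.algebraMap_smul (m.R0 A) c,
          show r • a - algebraMap A (m.R0 A) c • π i a • (e i : G.M0) =
            r • (a - π i a • (e i : G.M0)) +
              (r - algebraMap A (m.R0 A) c) • π i a • (e i : G.M0) by
            rw [smul_sub, sub_smul]; abel]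
        exact add_mem (Submodule.smul_mem _ _ (hπ i a))
          (Submodule.smul_mem_smul (CurveModel.algebraMap_sub_mem i r) trivial) }
  have hpe : ∀ i j, p i (e j : G.M0) = if i = j then 1 else 0 := fun i j => by
    split_ifs with h
    · subst h
      refine hπ_eq i _ _ ?_
      rw [one_smul, sub_self]
      exact zero_mem _
    · refine hπ_eq i _ _ ?_
      rw [zero_smul, sub_zero]
      exact he_mem i j h
  have hpA : ∀ i (a : A) (z : G.M0), p i (a • z) = a * p i z := fun i a z => by
    rw [← IsScalarTower.algebraMap_smul (m.R0 A) a z, LinearMap.map_smulₛₗ, m.ev0_algebraMap,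
      smul_eq_mul]
  have hpsum : ∀ (c : Fin m.deg → A) i, p i ((∑ j, c j • e j : G.V0) : G.M0) = c i := fun c i => by
    simp only [Submodule.coe_sum, SetLike.val_smul, map_sum, hpA, hpe]
    simp
  have hspan : ∀ v : G.V0, v = ∑ i, p i (v : G.M0) • e i := fun v =>
    sub_eq_zero.1 <| zero_all _ fun i => by
      have h : p i ((v - ∑ j, p j (v : G.M0) • e j : G.V0) : G.M0) = 0 := by
        rw [AddSubgroupClass.coe_sub, map_sub, hpsum, sub_self]
      have h' := hπ i ((v - ∑ j, p j (v : G.M0) • e j : G.V0) : G.M0)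
      rwa [show π i _ = 0 from h, zero_smul, sub_zero] at h'
  have hindep : ∀ (c : Fin m.deg → A), ∑ j, c j • e j = 0 → c = 0 := fun c hc => funext fun i => by
    rw [← hpsum c i, hc]
    exact map_zero _
  have hc0 : ∀ (n : ℕ) (c : ℕ → Fin m.deg → A),
      coord (m.tA A) (fun i => (e i : G.M0)) (fun i => ∑ j ∈ Finset.range n, monomial j (c j i)) =
        ∑ j ∈ Finset.range n, m.tA A ^ j • ((∑ i, c j i • e i : G.V0) : G.M0) := fun n c => by
    simp only [coord_monomial_sum, Submodule.coe_sum, SetLike.val_smul]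
  have hc1 : ∀ (n : ℕ) (c : ℕ → Fin m.deg → A),
      coord (m.sA A) (fun i => G.toV1 (e i)) (fun i => ∑ j ∈ Finset.range n, monomial j (c j i)) =
        ∑ j ∈ Finset.range n, m.sA A ^ j • G.toV1 (∑ i, c j i • e i) := fun n c => by
    simp only [coord_monomial_sum, map_sum, map_smul]
  have hmono : ∀ p : Fin m.deg → A[X], ∃ (n : ℕ),
      p = fun i => ∑ j ∈ Finset.range n, monomial j ((p i).coeff j) := fun p =>
    ⟨(Finset.univ.sup fun i => (p i).natDegree) + 1, funext fun i =>
      as_sum_range' (p i) _ (Nat.lt_succ_of_le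
        (Finset.le_sup (f := fun i => (p i).natDegree) (Finset.mem_univ i)))⟩
  refine ⟨⟨fun i => (e i : G.M0), fun i => G.toV1 (e i), fun i => G.res1_toV1 (e i), ?_, ?_, p,
    hpe, l, he1⟩⟩
  · refine ⟨(injective_iff_map_eq_zero _).2 fun r hr => ?_, fun a => ?_⟩
    · obtain ⟨n, hn⟩ := hmono r
      rw [hn, hc0 n fun j i => (r i).coeff j] at hr
      rw [hn]
      funext i
      refine Finset.sum_eq_zero fun j hj => ?_
      rw [show (r i).coeff j = 0 from congrFun (hindep _
        (LineData.eq_zero_sum0 hdown n _ hr j (Finset.mem_range.1 hj))) i, map_zero]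
    · obtain ⟨n, v, hv⟩ := LineData.exists_sum0 hdown a
      refine ⟨fun i => ∑ j ∈ Finset.range n, monomial j (p i (v j : G.M0)), ?_⟩
      rw [hc0 n fun j i => p i (v j : G.M0)]
      simp only [← hspan]
      exact hv.symm
  · refine ⟨(injective_iff_map_eq_zero _).2 fun r hr => ?_, fun a => ?_⟩
    · obtain ⟨n, hn⟩ := hmono r
      rw [hn, hc1 n fun j i => (r i).coeff j] at hr
      rw [hn]
      funext i
      refine Finset.sum_eq_zero fun j hj => ?_
      rw [show (r i).coeff j = 0 from congrFun (hindep _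
        (LineData.eq_zero_sum1 hdown n _ hr j (Finset.mem_range.1 hj))) i, map_zero]
    · obtain ⟨n, v, hv⟩ := LineData.exists_sum1 hdown a
      refine ⟨fun i => ∑ j ∈ Finset.range n, monomial j (p i (v j : G.M0)), ?_⟩
      rw [hc1 n fun j i => p i (v j : G.M0)]
      simp only [← hspan]
      exact hv.symm

variable (S) [IsAlgClosed k] {K : Type u} [Field K] [IsAlgClosed K] [Algebra k K]

omit [IsAlgClosed k] [IsAlgClosed K] in
theorem euler_prod_point (x : Cl m K) {ι : Type} (T : Finset ι) (p : ι → ChartPoint m K) :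
    (x * ∏ i ∈ T, Cl.point (p i)).euler = x.euler - T.card := by
  classical
  induction T using Finset.induction with
  | empty => simp
  | insert a T ha ih =>
    rw [Finset.prod_insert ha, mul_comm (Cl.point (p a)), ← mul_assoc, Cl.euler_mul_point, ih,
      Finset.card_insert_of_notMem ha]
    push_cast
    ring

theorem euler_N : S.N.euler = m.deg := by
  rw [N, Cl.euler_mul, S.euler_N0, Cl.euler_infty_inv]
  ring

theorem euler_L (j : Option (Option (Fin m.deg))) : (S.L j).euler = 0 := by
  rcases j with _ | _ | i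
  · exact S.euler_N0
  · have h := euler_prod_point (K := k) S.N Finset.univ fun i => Sum.inl (S.q i)
    simp only [Cl.point, Sum.elim_inl] at h
    rw [L, h, S.euler_N]
    simp
  · have h := euler_prod_point (K := k) S.N (Finset.univ.erase i) fun i => Sum.inl (S.q i)
    simp only [Cl.point, Sum.elim_inl] at h
    have h' := Cl.euler_mul_point (S.N * ∏ j ∈ Finset.univ.erase i, Cl.point0 (S.q j))
      (Sum.inr m.eps)
    simp only [Cl.point, Sum.elim_inr] at h'
    rw [L, h', h, S.euler_N, Finset.card_erase_of_mem (Finset.mem_univ i), Finset.card_univ,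
      Fintype.card_fin]
    have := i.pos
    omega

omit [IsAlgClosed k] [IsAlgClosed K] in
theorem euler_const (x : Cl m k) : (Cl.const K x).euler = x.euler := Cl.euler_map_field _ x

variable {S}

/-- A member over a field has degree zero. -/
theorem Mem.euler_eq {x : Cl m K} (hx : S.Mem x) : x.euler = (1 : Cl m K).euler := by
  have h := Cl.euler_eq_zero_of_acyclic (hx none)
  rw [Cl.euler_mul, euler_const, S.euler_L] at h
  linarith

/-- **A frame gives membership over a field.** -/
theorem mem_of_frame {x : Cl m K} {G : LineData m K} (hG : Cl.mk G = x * Cl.const K S.N)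
    (fr : G.Frame S.q) : S.Mem x := by
  classical
  have hnone : (x * Cl.const K (S.L none)).Acyclic := by
    rw [const_L_none, ← mul_assoc, ← hG, ← Cl.mk_down]
    exact fr.down_acyclic
  have hx1 : x.euler = (1 : Cl m K).euler := by
    have h := Cl.euler_eq_zero_of_acyclic hnone
    rw [Cl.euler_mul, euler_const, S.euler_L] at h
    linarith
  have heuler : ∀ j, (x * Cl.const K (S.L j)).euler = 0 := fun j => by
    rw [Cl.euler_mul, euler_const, S.euler_L, hx1]
    ring
  rintro (_ | _ | i)
  · exact hnone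
  · obtain ⟨F, hF, hs⟩ := G.exists_hasSub_pts (q := S.q) Finset.univ
    rw [hG, mul_assoc, ← const_L_all] at hF
    rw [← hF, Cl.acyclic_mk]
    refine LineData.acyclic_of_injective (by rw [← Cl.euler_mk, hF]; exact heuler _)
      (hs.cech_injective fun v h0 _ => ?_)
    rw [fr.eq_sum v]
    refine Finset.sum_eq_zero fun i _ => ?_
    rw [apply_eq_zero_of_mem (fr.π i)
      (mem_smul_top_mono (CurveModel.pts0_le (Finset.mem_univ i)) h0), zero_smul]
  · obtain ⟨F, hF, hs⟩ := G.exists_hasSub_eps (q := S.q) (Finset.univ.erase i)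
    rw [hG, show ∀ a b c d : Cl m K, a * b * c * d = a * (b * c * d) from
      fun a b c d => by rw [mul_assoc, mul_assoc, mul_assoc], ← const_L_some] at hF
    rw [← hF, Cl.acyclic_mk]
    refine LineData.acyclic_of_injective (by rw [← Cl.euler_mk, hF]; exact heuler _)
      (hs.cech_injective fun v h0 h1 => ?_)
    have hne : ∀ j, j ≠ i → fr.π j (v : G.M0) = 0 := fun j hj =>
      apply_eq_zero_of_mem (fr.π j) (mem_smul_top_mono
        (CurveModel.pts0_le (Finset.mem_erase.2 ⟨hj, Finset.mem_univ j⟩)) h0)
    have hi : fr.π i (v : G.M0) = 0 := by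
      have h := fr.l_toV1 v
      rw [apply_eq_zero_of_mem fr.l
          (mem_smul_top_mono (J := RingHom.ker (m.epsA _))
            (Ideal.mul_le_inf.trans inf_le_left) h1),
        Finset.sum_eq_single i (fun j _ hj => hne j hj)
          (fun h => absurd (Finset.mem_univ i) h)] at h
      exact h.symm
    rw [fr.eq_sum v]
    refine Finset.sum_eq_zero fun j _ => ?_
    rcases eq_or_ne j i with rfl | hj
    · rw [hi, zero_smul]
    · rw [hne j hj, zero_smul]

end ChartSetup

end Fermat.Agent.Jac
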