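import Fermat.Agent.Jac.Chart.Setup

/-!
# Tuples of matrices, and the tuple of a frame

A tuple records the matrices by which the generators of the two charts act in the coordinates
of a frame.
-/

set_option autoImplicit false

universe u

open scoped TensorProduct
open Polynomial

namespace Fermat.Agent.Jac

variable {k : Type u} [Field k] {m : CurveModel k}

namespace ChartSetup

/-- Matrices of polynomials describing line data with a frame. -/
@[ext]
structure Tuple (S : ChartSetup m) (A : Type u) [CommRing A] [Algebra k A] : Type u where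
  F0 : m.B0 →ₐ[k] Matrix (Fin m.deg) (Fin m.deg) A[X]
  F1 : m.B1 →ₐ[k] Matrix (Fin m.deg) (Fin m.deg) A[X]
  F0_t : F0 m.t = Matrix.scalar (Fin m.deg) X
  F1_s : F1 m.s = Matrix.scalar (Fin m.deg) X
  compat : ∀ (n : ℕ) (b0 : m.B0) (b1 : m.B1), m.i1 b1 = m.i1 m.s ^ n * m.i0 b0 →
    (∀ i j, F1 b1 i j = revPoly n (F0 b0 i j)) ∧ ∀ i j, F0 b0 i j = revPoly n (F1 b1 i j)
  eval_q : ∀ b i j, (F0 b i j).eval (algebraMap k A (S.q i m.t)) =
    if i = j then algebraMap k A (S.q i b) else 0
  sum_eps : ∀ b j, ∑ i, (F1 b i j).coeff 0 = algebraMap k A (m.eps b)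

/-- Changing the coefficients of matrices of polynomials. -/
noncomputable def mapMat {A A' : Type u} [CommRing A] [Algebra k A] [CommRing A'] [Algebra k A']
    (d : ℕ) (φ : A →ₐ[k] A') :
    Matrix (Fin d) (Fin d) A[X] →ₐ[k] Matrix (Fin d) (Fin d) A'[X] :=
  (Polynomial.mapAlgHom φ).mapMatrix

@[simp]
theorem mapMat_apply {A A' : Type u} [CommRing A] [Algebra k A] [CommRing A'] [Algebra k A']
    (d : ℕ) (φ : A →ₐ[k] A') (N : Matrix (Fin d) (Fin d) A[X]) (i j : Fin d) :
    mapMat d φ N i j = (N i j).map φ.toRingHom := rfl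

namespace Tuple

variable {S : ChartSetup m} {A A' : Type u} [CommRing A] [Algebra k A] [CommRing A'] [Algebra k A']

theorem mapMat_scalar_X (φ : A →ₐ[k] A') (d : ℕ) :
    mapMat d φ (Matrix.scalar (Fin d) X) = Matrix.scalar (Fin d) X := by
  refine Matrix.ext fun i j => ?_
  rw [mapMat_apply]
  by_cases h : i = j <;> simp [h]

/-- Base change of tuples. -/
noncomputable def map (φ : A →ₐ[k] A') (T : S.Tuple A) : S.Tuple A' where
  F0 := (mapMat m.deg φ).comp T.F0
  F1 := (mapMat m.deg φ).comp T.F1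
  F0_t := by rw [AlgHom.comp_apply, T.F0_t, mapMat_scalar_X]
  F1_s := by rw [AlgHom.comp_apply, T.F1_s, mapMat_scalar_X]
  compat n b0 b1 h := by
    refine ⟨fun i j => ?_, fun i j => ?_⟩
    · simp only [AlgHom.comp_apply, mapMat_apply, ← map_revPoly, ← (T.compat n b0 b1 h).1 i j]
    · simp only [AlgHom.comp_apply, mapMat_apply, ← map_revPoly, ← (T.compat n b0 b1 h).2 i j]
  eval_q b i j := by
    rw [AlgHom.comp_apply, mapMat_apply, ← φ.commutes (S.q i m.t)]
    show ((T.F0 b i j).map φ.toRingHom).eval (φ.toRingHom (algebraMap k A (S.q i m.t))) = _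
    rw [eval_map_apply, T.eval_q]
    split_ifs <;> simp
  sum_eps b j := by
    simp only [AlgHom.comp_apply, mapMat_apply, coeff_map, ← map_sum, T.sum_eps]
    exact φ.commutes _

end Tuple

end ChartSetup

namespace LineData.Frame

variable {S : ChartSetup m} {A : Type u} [CommRing A] [Algebra k A] {G : LineData m A}

/-- The matrices of the first chart in a frame, as a map of algebras. -/
noncomputable def hom0 (fr : G.Frame S.q) :
    m.B0 →ₐ[k] Matrix (Fin m.deg) (Fin m.deg) A[X] where
  toRingHom := fr.mat0.comp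
    (Algebra.TensorProduct.includeRight (R := k) (A := A) (B := m.B0)).toRingHom
  commutes' c := by
    show fr.mat0 ((1 : A) ⊗ₜ[k] algebraMap k m.B0 c) = _
    rw [show (1 : A) ⊗ₜ[k] algebraMap k m.B0 c = algebraMap A (m.R0 A) (algebraMap k A c) by
      simp [Algebra.algebraMap_eq_smul_one, Algebra.TensorProduct.one_def]]
    rw [mat0, coordMat_algebraMap]
    rfl

/-- The matrices of the second chart in a frame, as a map of algebras. -/
noncomputable def hom1 (fr : G.Frame S.q) :
    m.B1 →ₐ[k] Matrix (Fin m.deg) (Fin m.deg) A[X] where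
  toRingHom := fr.mat1.comp
    (Algebra.TensorProduct.includeRight (R := k) (A := A) (B := m.B1)).toRingHom
  commutes' c := by
    show fr.mat1 ((1 : A) ⊗ₜ[k] algebraMap k m.B1 c) = _
    rw [show (1 : A) ⊗ₜ[k] algebraMap k m.B1 c = algebraMap A (m.R1 A) (algebraMap k A c) by
      simp [Algebra.algebraMap_eq_smul_one, Algebra.TensorProduct.one_def]]
    rw [mat1, coordMat_algebraMap]
    rfl

/-- The tuple of a frame. -/
noncomputable def tuple (fr : G.Frame S.q) : S.Tuple A where
  F0 := fr.hom0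
  F1 := fr.hom1
  F0_t := coordMat_self fr.bij0
  F1_s := coordMat_self fr.bij1
  compat n b0 b1 h := by
    have key : ∀ i j, fr.hom1 b1 i j = revPoly n (fr.hom0 b0 i j) ∧
        fr.hom0 b0 i j = revPoly n (fr.hom1 b1 i j) := fun i j => by
      let p : Fin m.deg → A[X] := fun i => fr.hom0 b0 i j
      let r : Fin m.deg → A[X] := fun i => fr.hom1 b1 i j
      have hp : coord (m.tA A) fr.e0 p = ((1 : A) ⊗ₜ[k] b0 : m.R0 A) • fr.e0 j :=
        coord_coordMat fr.bij0 _ j
      have hr : coord (m.sA A) fr.e1 r = ((1 : A) ⊗ₜ[k] b1 : m.R1 A) • fr.e1 j :=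
        coord_coordMat fr.bij1 _ j
      set K := n ⊔ Finset.univ.sup fun i => (r i).natDegree
      have hK : ∀ i, (r i).natDegree ≤ K := fun i => le_trans
        (Finset.le_sup (f := fun i => (r i).natDegree) (Finset.mem_univ i)) le_sup_right
      have hnK : n ≤ K := le_sup_left
      have hb : m.ι1 A ((1 : A) ⊗ₜ[k] b1) =
          m.ι1 A (m.sA A) ^ n * m.ι0 A ((1 : A) ⊗ₜ[k] b0) := by
        rw [m.ι1_tmul, m.ι0_tmul, m.ι1_sA_pow, Algebra.TensorProduct.tmul_mul_tmul, one_mul, h]
      have heq : (fun i => revPoly K (r i)) = (X : A[X]) ^ (K - n) • p := by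
        refine fr.bij0.injective (G.res0_injective ?_)
        rw [← fr.tA_pow_res1_coord r hK, hr, LinearMap.map_smulₛₗ, hb, fr.comm, coord_smul, hp,
          LinearMap.map_smulₛₗ, LinearMap.map_smulₛₗ, smul_smul, smul_smul, m.ι0_aeval, map_pow,
          aeval_X]
        congr 1
        rw [← pow_sub_mul_pow (m.ι0 A (m.tA A)) hnK, ← mul_assoc,
          mul_assoc _ _ (m.ι1 A (m.sA A) ^ n),
          m.tA_pow_mul_sA_pow, mul_one]
      exact revPoly_eq_of_shift hnK (hK i) (congrFun heq i)
    exact ⟨fun i j => (key i j).1, fun i j => (key i j).2⟩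
  eval_q b i j := by
    refine (fr.π_coord i fun i => fr.hom0 b i j).symm.trans ?_
    rw [show coord (m.tA A) fr.e0 (fun i => fr.hom0 b i j) =
      ((1 : A) ⊗ₜ[k] b : m.R0 A) • fr.e0 j from coord_coordMat fr.bij0 _ j,
      LinearMap.map_smulₛₗ, fr.π_e, show m.ev0 (cstPoint A (S.q i)) ((1 : A) ⊗ₜ[k] b) =
        algebraMap k A (S.q i b) by simp [CurveModel.ev0, Algebra.ofId_apply]]
    split_ifs <;> simp
  sum_eps b j := by
    refine (fr.l_coord fun i => fr.hom1 b i j).symm.trans ?_
    rw [show coord (m.sA A) fr.e1 (fun i => fr.hom1 b i j) =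
      ((1 : A) ⊗ₜ[k] b : m.R1 A) • fr.e1 j from coord_coordMat fr.bij1 _ j,
      LinearMap.map_smulₛₗ, fr.l_e, smul_eq_mul, mul_one]
    simp [CurveModel.epsA, Algebra.ofId_apply]

theorem tuple_eq (fr fr' : G.Frame S.q) : fr'.tuple = fr.tuple := by
  obtain ⟨h0, h1⟩ := fr.mat_eq fr'
  ext1
  · exact AlgHom.ext fun b => RingHom.congr_fun h0 _
  · exact AlgHom.ext fun b => RingHom.congr_fun h1 _

end LineData.Frame

end Fermat.Agent.Jac
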