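import Fermat.Agent.Jac.Cl

/-!
# The overlap as a localisation, and the twist by minus the fibre at infinity

`down` is the twist by minus the fibre at infinity, and `Cl.infty` its class.
-/

set_option autoImplicit false

universe u

open scoped TensorProduct

namespace Fermat.Agent.Jac

variable {k : Type u} [Field k] (m : CurveModel k) (A : Type u) [CommRing A] [Algebra k A]

namespace CurveModel

theorem ι0_tA_mul : m.ι0 A (m.tA A) * m.ι1 A (m.sA A) = 1 := by
  simp [ι0, ι1, tA, sA, m.t_mul_s, Algebra.TensorProduct.one_def]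

theorem ι1_sA_mul : m.ι1 A (m.sA A) * m.ι0 A (m.tA A) = 1 := by
  rw [mul_comm, m.ι0_tA_mul]

theorem sA_pow_mul_tA_pow (n : ℕ) : m.ι1 A (m.sA A) ^ n * m.ι0 A (m.tA A) ^ n = 1 := by
  rw [← mul_pow, m.ι1_sA_mul, one_pow]

theorem tA_pow_mul_sA_pow (n : ℕ) : m.ι0 A (m.tA A) ^ n * m.ι1 A (m.sA A) ^ n = 1 := by
  rw [← mul_pow, m.ι0_tA_mul, one_pow]

theorem ι0_algebraMap (a : A) :
    m.ι0 A (algebraMap A (m.R0 A) a) = algebraMap A (m.R01 A) a := by
  simp [ι0]

theorem ι1_algebraMap (a : A) :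
    m.ι1 A (algebraMap A (m.R1 A) a) = algebraMap A (m.R01 A) a := by
  simp [ι1]

theorem ι0_tmul (a : A) (b : m.B0) : m.ι0 A (a ⊗ₜ b) = a ⊗ₜ m.i0 b := by
  simp [ι0]

theorem ι1_tmul (a : A) (b : m.B1) : m.ι1 A (a ⊗ₜ b) = a ⊗ₜ m.i1 b := by
  simp [ι1]

theorem ι1_sA_pow (n : ℕ) : m.ι1 A (m.sA A) ^ n = (1 : A) ⊗ₜ (m.i1 m.s ^ n) := by
  simp [sA, ι1_tmul, Algebra.TensorProduct.tmul_pow]

theorem ι0_tA_pow (n : ℕ) : m.ι0 A (m.tA A) ^ n = (1 : A) ⊗ₜ (m.i0 m.t ^ n) := by
  simp [tA, ι0_tmul, Algebra.TensorProduct.tmul_pow]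

theorem exists_sA_pow_mul (z : m.R01 A) :
    ∃ (n : ℕ) (y : m.R1 A), m.ι1 A y = m.ι1 A (m.sA A) ^ n * z := by
  induction z using TensorProduct.induction_on with
  | zero => exact ⟨0, 0, by simp⟩
  | tmul a b =>
    obtain ⟨n, y, hy⟩ := m.surj1 b
    exact ⟨n, a ⊗ₜ y, by
      rw [ι1_tmul, hy, m.ι1_sA_pow, Algebra.TensorProduct.tmul_mul_tmul, one_mul]⟩
  | add x x' hx hx' =>
    obtain ⟨n, y, hy⟩ := hx
    obtain ⟨n', y', hy'⟩ := hx'
    exact ⟨n + n', m.sA A ^ n' * y + m.sA A ^ n * y', by
      rw [map_add, map_mul, map_mul, map_pow, map_pow, hy, hy', pow_add]; ring⟩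

theorem exists_tA_pow_mul (z : m.R01 A) :
    ∃ (n : ℕ) (y : m.R0 A), m.ι0 A y = m.ι0 A (m.tA A) ^ n * z := by
  induction z using TensorProduct.induction_on with
  | zero => exact ⟨0, 0, by simp⟩
  | tmul a b =>
    obtain ⟨n, y, hy⟩ := m.surj0 b
    exact ⟨n, a ⊗ₜ y, by
      rw [ι0_tmul, hy, m.ι0_tA_pow, Algebra.TensorProduct.tmul_mul_tmul, one_mul]⟩
  | add x x' hx hx' =>
    obtain ⟨n, y, hy⟩ := hx
    obtain ⟨n', y', hy'⟩ := hx'
    exact ⟨n + n', m.tA A ^ n' * y + m.tA A ^ n * y', by
      rw [map_add, map_mul, map_mul, map_pow, map_pow, hy, hy', pow_add]; ring⟩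

theorem ι0_inj : Function.Injective (m.ι0 A) :=
  Module.Flat.lTensor_preserves_injective_linearMap (M := A) m.i0.toLinearMap m.i0_injective

theorem ι1_inj : Function.Injective (m.ι1 A) :=
  Module.Flat.lTensor_preserves_injective_linearMap (M := A) m.i1.toLinearMap m.i1_injective

end CurveModel

namespace LineData

variable {m A} (D : LineData m A)

theorem res0_smul (a : A) (x : D.M0) : D.res0 (a • x) = a • D.res0 x := by
  rw [← IsScalarTower.algebraMap_smul (m.R0 A) a x, LinearMap.map_smulₛₗ, m.ι0_algebraMap,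
    IsScalarTower.algebraMap_smul]

theorem res1_smul (a : A) (x : D.M1) : D.res1 (a • x) = a • D.res1 x := by
  rw [← IsScalarTower.algebraMap_smul (m.R1 A) a x, LinearMap.map_smulₛₗ, m.ι1_algebraMap,
    IsScalarTower.algebraMap_smul]

/-- Restriction from the first chart, linear over the base. -/
noncomputable def resA0 : D.M0 →ₗ[A] D.M01 :=
  { toFun := D.res0, map_add' := map_add D.res0, map_smul' := D.res0_smul }

/-- Restriction from the second chart, linear over the base. -/
noncomputable def resA1 : D.M1 →ₗ[A] D.M01 :=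
  { toFun := D.res1, map_add' := map_add D.res1, map_smul' := D.res1_smul }

theorem exists_sA_pow_smul (x : D.M01) :
    ∃ (n : ℕ) (y : D.M1), D.res1 y = m.ι1 A (m.sA A) ^ n • x := by
  have hx : x ∈ Submodule.span (m.R01 A) (Set.range D.res1) := by
    rw [D.span1]; exact Submodule.mem_top
  induction hx using Submodule.span_induction with
  | mem x hx =>
    obtain ⟨y, rfl⟩ := hx
    exact ⟨0, y, by simp⟩
  | zero => exact ⟨0, 0, by simp⟩
  | add x x' _ _ hx hx' =>
    obtain ⟨n, y, hy⟩ := hx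
    obtain ⟨n', y', hy'⟩ := hx'
    refine ⟨n + n', m.sA A ^ n' • y + m.sA A ^ n • y', ?_⟩
    rw [map_add, LinearMap.map_smulₛₗ, LinearMap.map_smulₛₗ, map_pow, map_pow, hy, hy', smul_smul,
      smul_smul, smul_add, pow_add, mul_comm]
  | smul c x _ hx =>
    obtain ⟨n, y, hy⟩ := hx
    obtain ⟨n', c', hc⟩ := m.exists_sA_pow_mul A c
    exact ⟨n' + n, c' • y, by
      rw [LinearMap.map_smulₛₗ, hy, hc, smul_smul, smul_smul, pow_add]; ring_nf⟩

theorem exists_tA_pow_smul (x : D.M01) :
    ∃ (n : ℕ) (y : D.M0), D.res0 y = m.ι0 A (m.tA A) ^ n • x := by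
  have hx : x ∈ Submodule.span (m.R01 A) (Set.range D.res0) := by
    rw [D.span0]; exact Submodule.mem_top
  induction hx using Submodule.span_induction with
  | mem x hx =>
    obtain ⟨y, rfl⟩ := hx
    exact ⟨0, y, by simp⟩
  | zero => exact ⟨0, 0, by simp⟩
  | add x x' _ _ hx hx' =>
    obtain ⟨n, y, hy⟩ := hx
    obtain ⟨n', y', hy'⟩ := hx'
    refine ⟨n + n', m.tA A ^ n' • y + m.tA A ^ n • y', ?_⟩
    rw [map_add, LinearMap.map_smulₛₗ, LinearMap.map_smulₛₗ, map_pow, map_pow, hy, hy', smul_smul,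
      smul_smul, smul_add, pow_add, mul_comm]
  | smul c x _ hx =>
    obtain ⟨n, y, hy⟩ := hx
    obtain ⟨n', c', hc⟩ := m.exists_tA_pow_mul A c
    exact ⟨n' + n, c' • y, by
      rw [LinearMap.map_smulₛₗ, hy, hc, smul_smul, smul_smul, pow_add]; ring_nf⟩

/-- Restriction along an injective map of rings of a spanning map of invertible modules. -/
theorem injective_of_span {R S : Type u} [CommRing R] [CommRing S] (f : R →+* S)
    (hf : Function.Injective f) {M N : Type u} [AddCommGroup M] [Module R M] [Module.Invertible R M]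
    [AddCommGroup N] [Module S N] [Module.Invertible S N] (g : M →ₛₗ[f] N)
    (hg : Submodule.span S (Set.range g) = ⊤) : Function.Injective g := by
  let := f.toAlgebra
  let : Module R N := Module.compHom N f
  have : IsScalarTower R S N := ⟨fun r s n => by
    show (f r * s) • n = f r • s • n
    rw [mul_smul]⟩
  let g' : M →ₗ[R] N :=
    { toFun := g, map_add' := map_add g, map_smul' := fun r x => g.map_smulₛₗ r x }
  have hsurj : Function.Surjective (LinearMap.liftBaseChange S g') := by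
    rw [← LinearMap.range_eq_top, eq_top_iff, ← hg, Submodule.span_le]
    rintro _ ⟨x, rfl⟩
    exact ⟨1 ⊗ₜ x, by rw [LinearMap.liftBaseChange_tmul, one_smul]; rfl⟩
  have hbij := Module.Invertible.bijective_of_surjective hsurj
  have hunit : Function.Injective fun x : M => (1 : S) ⊗ₜ[R] x := by
    have h := Module.Flat.rTensor_preserves_injective_linearMap (M := M) (Algebra.linearMap R S) hf
    intro x y hxy
    have e : ∀ z, (Algebra.linearMap R S).rTensor M ((1 : R) ⊗ₜ z) = (1 : S) ⊗ₜ z := fun z => by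
      simp
    refine (TensorProduct.lid R M).symm.injective (h ?_)
    simpa [e] using hxy
  intro x y hxy
  refine hunit (hbij.injective ?_)
  simp only [LinearMap.liftBaseChange_tmul, one_smul]
  exact hxy

theorem res0_injective : Function.Injective D.res0 :=
  injective_of_span _ (m.ι0_inj A) D.res0 D.span0

theorem res1_injective : Function.Injective D.res1 :=
  injective_of_span _ (m.ι1_inj A) D.res1 D.span1

/-- Restriction from the second chart twisted by the coordinate at infinity. -/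
noncomputable def downRes : D.M1 →ₛₗ[m.ι1 A] D.M01 where
  toFun y := m.ι1 A (m.sA A) • D.res1 y
  map_add' y y' := by rw [map_add, smul_add]
  map_smul' r y := by rw [LinearMap.map_smulₛₗ, smul_comm]

/-- The twist by minus the fibre at infinity. -/
noncomputable def down : LineData m A :=
  { D with
    res1 := D.downRes
    span1 := by
      rw [eq_top_iff, ← D.span1, Submodule.span_le]
      rintro _ ⟨y, rfl⟩
      have h : D.res1 y = m.ι0 A (m.tA A) • D.downRes y := by
        show _ = m.ι0 A (m.tA A) • m.ι1 A (m.sA A) • D.res1 y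
        rw [smul_smul, m.ι0_tA_mul, one_smul]
      rw [h]
      exact Submodule.smul_mem _ _ (Submodule.subset_span ⟨y, rfl⟩) }

theorem IsBaseChangeData.down {A' : Type u} [CommRing A'] [Algebra k A'] {φ : A →ₐ[k] A'}
    {D : LineData m A} {E : LineData m A'} (h : D.IsBaseChangeData φ E) :
    D.down.IsBaseChangeData φ E.down := by
  obtain ⟨f0, f1, f01, h0, h1, hs0, hs1⟩ := h
  refine ⟨f0, f1, f01, h0, fun y => ?_, hs0, hs1⟩
  show m.ι1 A' (m.sA A') • E.res1 (f1 y) = f01 (m.ι1 A (m.sA A) • D.res1 y)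
  refine ((congrArg (fun z => m.ι1 A' (m.sA A') • z) (h1 y)).trans ?_).trans
    (LinearMap.map_smulₛₗ f01 (m.ι1 A (m.sA A)) (D.res1 y)).symm
  exact congrArg (· • f01 (D.res1 y)) (by simp [CurveModel.ι1, CurveModel.sA, CurveModel.map01])

/-- The product with the twist of the trivial bundle. -/
theorem isProduct_down : IsProduct D (trivialData : LineData m A).down D.down := by
  refine ⟨(LinearMap.lsmul (m.R0 A) D.M0).flip, (LinearMap.lsmul (m.R1 A) D.M1).flip,
    (LinearMap.lsmul (m.R01 A) D.M01).flip, fun x r => ?_, fun x r => ?_, ?_, ?_⟩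
  · exact LinearMap.map_smulₛₗ D.res0 r x
  · exact ((congrArg (fun z => m.ι1 A (m.sA A) • z) (LinearMap.map_smulₛₗ D.res1 r x)).trans
      (smul_smul (m.ι1 A (m.sA A)) (m.ι1 A r) (D.res1 x))).trans rfl
  · exact Submodule.eq_top_iff'.2 fun x => Submodule.subset_span ⟨(x, (1 : m.R0 A)), one_smul _ x⟩
  · exact Submodule.eq_top_iff'.2 fun x => Submodule.subset_span ⟨(x, (1 : m.R1 A)), one_smul _ x⟩

end LineData

variable {m A}

/-- The class of the twist by minus the fibre at infinity. -/
noncomputable def Cl.infty (m : CurveModel k) (A : Type u) [CommRing A] [Algebra k A] : Cl m A :=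
  Cl.mk (LineData.trivialData : LineData m A).down

theorem Cl.mk_down (D : LineData m A) : Cl.mk D.down = Cl.mk D * Cl.infty m A :=
  (Cl.mk_mul D.isProduct_down).symm

theorem LineData.isBaseChangeData_trivialData {A' : Type u} [CommRing A'] [Algebra k A']
    (φ : A →ₐ[k] A') : (trivialData : LineData m A).IsBaseChangeData φ trivialData := by
  refine ⟨⟨(m.map0 φ).toAddMonoidHom.toAddHom, fun r x => map_mul (m.map0 φ) r x⟩,
    ⟨(m.map1 φ).toAddMonoidHom.toAddHom, fun r x => map_mul (m.map1 φ) r x⟩,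
    ⟨(m.map01 φ).toAddMonoidHom.toAddHom, fun r x => map_mul (m.map01 φ) r x⟩,
    fun x => ?_, fun x => ?_, ?_, ?_⟩
  · show m.ι0 A' (m.map0 φ x) = m.map01 φ (m.ι0 A x)
    induction x using TensorProduct.induction_on with
    | zero => simp
    | tmul a b => simp [CurveModel.map0, CurveModel.map01, CurveModel.ι0]
    | add u v hu hv => simp only [map_add, hu, hv]
  · show m.ι1 A' (m.map1 φ x) = m.map01 φ (m.ι1 A x)
    induction x using TensorProduct.induction_on with
    | zero => simp
    | tmul a b => simp [CurveModel.map1, CurveModel.map01, CurveModel.ι1]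
    | add u v hu hv => simp only [map_add, hu, hv]
  · exact (Ideal.eq_top_iff_one (Ideal.span (Set.range fun x : m.R0 A => m.map0 φ x))).mpr
      (Submodule.subset_span ⟨1, map_one (m.map0 φ)⟩)
  · exact (Ideal.eq_top_iff_one (Ideal.span (Set.range fun x : m.R1 A => m.map1 φ x))).mpr
      (Submodule.subset_span ⟨1, map_one (m.map1 φ)⟩)

theorem Cl.map_infty {A' : Type u} [CommRing A'] [Algebra k A'] (φ : A →ₐ[k] A') :
    Cl.map φ (Cl.infty m A) = Cl.infty m A' :=
  Cl.map_mk φ (LineData.isBaseChangeData_trivialData φ).down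

end Fermat.Agent.Jac
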